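/-
PROJECT M (S15), block [G], leaf (K-u), part 1 (helper13): THE MODULAR UNIT IS A UNIT AT EVERY
NON-CUSPIDAL PLACE.

`uBar N = Δ(z) / Δ(N z) ∈ ℚ̄(X₀(N))` (`S34/ModularUnit`).  By `S24`'s Lemma A every place `v` of
`ℚ̄(X₀(N))` at which `j` is regular is the pull-back of the `t`-adic valuation of `ℂ((t))` along a
Taylor expansion `f ↦ Taylor_τ (f ∣ γ)`; the two forms `Δ ∣ γ`, `Δ(N ·) ∣ γ` do not vanish at `τ`
(`ModularForm.discriminant_ne_zero`), so both expansions are units of `ℂ[[t]]`.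

* `exists_eq_comap_tay` : Lemma A for the Taylor families, at any finite value `a` of `j`;
* `valued_Lq_uBar` : `|Taylor_τ (uBar ∣ γ)| = 1`;
* `uBar_mem_of_jgen_mem`, `inv_uBar_mem_of_jgen_mem`, **`ord_uBar_of_jgen_mem`** : `ord_v (uBar) = 0`
  for every place `v` with `j ∈ 𝒪_v`.
-/
import Mathlib
import Fermat.Agent.S34.ModularUnit
import Fermat.Agent.S24.OrbitsPtAlt

set_option autoImplicit false
set_option linter.unusedSectionVars false

noncomputable section

namespace Fermat.Agent.S15.G.UnitDiv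

open UpperHalfPlane CongruenceSubgroup ModularCurve AlgebraicCurve MulAction WithZero Module
open IntermediateField ModularGroup ModularForm
open Fermat.Agent.S20 Fermat.Agent.S24.RepHom Fermat.Agent.S24.FF Fermat.Agent.S24.DegreeAlg
open Fermat.Agent.S24 Fermat.Agent.S24.Taylor
open Fermat.Agent.S24.LevelRaise
open Fermat.Agent.LevelOne.JBasic
open Fermat.Agent.S24.QRep (dil)
open Fermat.Agent.S34.ModularUnit
open scoped MatrixGroups ModularForm Manifold

local notation "Kb" => AlgebraicClosure ℚ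

variable (N : ℕ) [NeZero N]

/-! ### Lemma A for the Taylor families -/

/-- **Lemma A at a finite value of `j`**: every place over `j = a` is the pull-back of the `t`-adic
valuation along one of the Taylor expansions at a point `τ` with `j(τ) = a`. -/
theorem exists_eq_comap_tay (a : Kb) (v : Place Kb (OrbitsAbs.FunF N))
    (hv : jgen N - algebraMap Kb (OrbitsAbs.FunF N) a ∈ v.toValuationSubring.nonunits) :
    ∃ (τ : ℍ) (q : OrbitsAbs.Cos N), v.toValuationSubring =
      (Valued.v : Valuation (LaurentSeries ℂ) ℤᵐ⁰).valuationSubring.comap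
        (OrbitsAbs.Lq N (OrbitDefs.tay τ) (fun γ => slashP_mdiff N γ) OrbitDefs.ι q) := by
  obtain ⟨τ, hτ⟩ := Fermat.Agent.LevelOne.JBasic.jFun_surjective (OrbitDefs.ι a)
  refine ⟨τ, ?_⟩
  have hcard : Fintype.card (OrbitsAbs.Cos N) = finrank Kb⟮jgen N⟯ (OrbitsAbs.FunF N) := by
    rw [Degree.finrank_eq_card N, Nat.card_eq_fintype_card]
  refine Fermat.Agent.S24.LemmaA.exists_place_eq_comap_sub _
    (OrbitsAbs.Lq N (OrbitDefs.tay τ) (fun γ => slashP_mdiff N γ) OrbitDefs.ι) (Degree.isFF N) a hcard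
    (OrbitsAbs.Lq_injective N (OrbitDefs.tay τ) (fun γ => slashP_mdiff N γ) OrbitDefs.ι
      (Fermat.Agent.S24.OrbitsPtAlt.hsep_tay N _ τ)) ?_ ?_ ?_ ?_ v hv
  · intro q q' c
    rw [OrbitsAbs.Lq_algebraMap, OrbitsAbs.Lq_algebraMap]
  · intro q q'
    exact Fermat.Agent.S24.OrbitsPtAlt.hLx_tay N _ τ _ _
  · intro q c
    rw [OrbitsAbs.Lq_algebraMap]
    exact OrbitsAbs.v_algebraMap_le_one _
  · intro q
    have hequiv := Valuation.isEquiv_valuation_valuationSubring
      (Valued.v : Valuation (LaurentSeries ℂ) ℤᵐ⁰)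
    rw [ValuationSubring.mem_nonunits_iff, ← hequiv.lt_one_iff_lt_one, OrbitsAbs.Lq_apply,
      Fermat.Agent.S24.OrbitsPtAlt.hm_tay N _ τ a hτ, ← exp_zero, exp_lt_exp]
    have : (0 : ℤ) < ((if jFun τ = 0 then 3 else if jFun τ = 1728 then 2 else 1 : ℕ) : ℤ) := by
      split_ifs <;> norm_num
    omega

/-! ### The modular unit along the Taylor families -/

/-- a holomorphic function which does not vanish at `τ` has a Taylor expansion of order `0` -/
theorem order_taylorAt_eq_zero {f : ℍ → ℂ} (τ : ℍ) (h : f τ ≠ 0) : (taylorAt τ f).order = 0 := by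
  apply PowerSeries.order_zero_of_unit
  rw [PowerSeries.isUnit_iff_constantCoeff, constantCoeff_taylorAt]
  exact isUnit_iff_ne_zero.mpr h

theorem slash_apply_ne_zero {f : ℍ → ℂ} (k : ℤ) (γ : SL(2, ℤ)) (τ : ℍ) (h : f (γ • τ) ≠ 0) :
    (f ∣[k] γ) τ ≠ 0 := by
  rw [ModularForm.SL_slash_apply]
  exact mul_ne_zero h (zpow_ne_zero _ (denom_ne_zero _ _))

theorem DeltaMF_apply_ne_zero (τ : ℍ) : (⇑DeltaMF : ℍ → ℂ) τ ≠ 0 := by
  rw [DeltaMF_apply]
  exact ModularForm.discriminant_ne_zero τ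

theorem dil_DeltaMF_apply_ne_zero (d : ℕ) (τ : ℍ) : dil d (⇑DeltaMF) τ ≠ 0 :=
  DeltaMF_apply_ne_zero _

/-- the pair `(Δ, Δ(N ·))` represents the modular unit at level `N` -/
theorem isRepOf_uBar :
    IsRepOf N ((RepAll.toRepField N OrbitDefs.ι (uBar N (dvd_refl N)) : repField N) :
      LaurentSeries ℂ) 12 (⇑DeltaMF) (dil N (⇑DeltaMF)) := by
  have h := isRepOf_unit 1 N
  rw [one_mul] at h
  have e : ((RepAll.toRepField N OrbitDefs.ι (uBar N (dvd_refl N)) : repField N) :
      LaurentSeries ℂ) = coeffEmb ℂ (modularUnitSeries N) := by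
    rw [RepAll.coe_toRepField, coe_uBar, DegreeLowerFormal.coeffMap_coeffEmb]
  rw [e]
  exact h

/-- **the Taylor expansions of the modular unit are units of `ℂ[[t]]`** -/
theorem valued_Lq_uBar (τ : ℍ) (q : OrbitsAbs.Cos N) :
    (Valued.v : Valuation (LaurentSeries ℂ) ℤᵐ⁰)
      (OrbitsAbs.Lq N (OrbitDefs.tay τ) (fun γ => slashP_mdiff N γ) OrbitDefs.ι q
        (uBar N (dvd_refl N))) = 1 := by
  rw [OrbitsAbs.Lq_apply]
  have hg : RepAll.toRepField N OrbitDefs.ι (uBar N (dvd_refl N)) ≠ 0 :=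
    (map_ne_zero _).mpr (uBar_ne_zero N _)
  rw [LmapTaylor.valued_Lmap_of (OrbitDefs.tay τ) τ (LmapTaylor.tay_T_of_mdiff τ) _ _ _ hg
    (isRepOf_uBar N),
    order_taylorAt_eq_zero τ (slash_apply_ne_zero 12 _ τ (DeltaMF_apply_ne_zero _)),
    order_taylorAt_eq_zero τ (slash_apply_ne_zero 12 _ τ (dil_DeltaMF_apply_ne_zero N _))]
  simp

/-- the bridge between the two ways of saying "`y` vanishes at `v`" -/
theorem mem_nonunits_iff_lt_one {K F : Type*} [Field K] [Field F] [Algebra K F] (v : Place K F)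
    (y : F) : y ∈ v.toValuationSubring.nonunits ↔ v.adicValuation y < 1 := by
  rcases eq_or_ne y 0 with rfl | hy
  · simp
  · rw [ValuationSubring.mem_nonunits_iff_or, Fermat.Agent.S24.Ord.mem_iff, map_inv₀]
    have h0 : v.adicValuation y ≠ 0 := (Valuation.ne_zero_iff _).mpr hy
    constructor
    · rintro (h | h)
      · exact absurd h hy
      · rw [not_le, one_lt_inv₀ (zero_lt_iff.mpr h0)] at h
        exact h
    · intro h
      right
      rw [not_le, one_lt_inv₀ (zero_lt_iff.mpr h0)]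
      exact h

/-! ### The modular unit at the non-cuspidal places -/

variable {N}

theorem uBar_mem_and_inv_mem_of_sub_mem (a : Kb) (v : Place Kb (OrbitsAbs.FunF N))
    (hv : jgen N - algebraMap Kb (OrbitsAbs.FunF N) a ∈ v.toValuationSubring.nonunits) :
    uBar N (dvd_refl N) ∈ v.toValuationSubring ∧ (uBar N (dvd_refl N))⁻¹ ∈ v.toValuationSubring := by
  obtain ⟨τ, q, hq⟩ := exists_eq_comap_tay N a v hv
  have h1 := valued_Lq_uBar N τ q
  rw [hq]
  constructor
  · rw [ValuationSubring.mem_comap, Valuation.mem_valuationSubring_iff, h1]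
  · rw [ValuationSubring.mem_comap, Valuation.mem_valuationSubring_iff, map_inv₀, map_inv₀, h1,
      inv_one]

/-- **`ord_v (uBar) = 0` at every place `v` at which `j` is regular.** -/
theorem ord_uBar_of_jgen_mem (v : Place Kb (OrbitsAbs.FunF N))
    (hj : jgen N ∈ v.toValuationSubring) : v.ord (uBar N (dvd_refl N)) = 0 := by
  obtain ⟨a, ha⟩ := Fermat.Agent.S24.Ord.exists_sub_lt_one (Degree.isFF N) v
    ((Fermat.Agent.S24.Ord.mem_iff v _).mp hj)
  have hv : jgen N - algebraMap Kb (OrbitsAbs.FunF N) a ∈ v.toValuationSubring.nonunits := by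
    rw [mem_nonunits_iff_lt_one]
    exact ha
  obtain ⟨h1, h2⟩ := uBar_mem_and_inv_mem_of_sub_mem a v hv
  have hu0 : uBar N (dvd_refl N) ≠ 0 := uBar_ne_zero N _
  have e1 := (Fermat.Agent.S24.Ord.ord_nonneg_iff v hu0).mpr ((Fermat.Agent.S24.Ord.mem_iff v _).mp h1)
  have e2 := (Fermat.Agent.S24.Ord.ord_nonneg_iff v (inv_ne_zero hu0)).mpr
    ((Fermat.Agent.S24.Ord.mem_iff v _).mp h2)
  rw [Place.ord_inv] at e2
  omega

end Fermat.Agent.S15.G.UnitDiv
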