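/-
PROJECT M (S15), block [G], leaf (K-u), part 2 (helper13): THE TWO CUSPS OF `X₀(N)`, `N` PRIME, THE
DIVISOR OF THE MODULAR UNIT AND THE CUSPIDAL CLASS.

* `ord_eq_of_order` : a place whose valuation ring is `{o ≥ 0}` for an additive order function `o`
  with a value `1` has `ord = o`;
* `ord_oo` : at the cusp `∞` (`S17/Model/ReducedX0.oo`), `ord = ` order of the `q`-expansion;
  `ord_oo_uBar : ord_∞ (uBar) = 1 - N`, `ord_oo_jgen : ord_∞ j = -1`;
* `card_poles_prime` : for `N` prime `j` has exactly two poles; `zz N` : the pole different from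
  `∞` (the cusp `0`), `poles_eq` : every pole of `j` is `∞` or `zz N`;
* `ord_zz_uBar : ord_0 (uBar) = N - 1` (degree zero);
* `cuspDiv N = (zz N) - (oo N)`, `cc N : JZero N` its class, **`sub_one_nsmul_cc : (N - 1) • cc N = 0`**;
* `smul_zz`, `smul_cc` : the cusp `0` and the class `cc N` are fixed by `Gal(ℚ̄/ℚ)`.
-/
import Mathlib
import Fermat.Agent.S15.G.UnitDiv
import Fermat.Agent.S17.Model.ReducedX0
import Fermat.Agent.S20.CountFinal
import Fermat.Agent.S24.OrbitsCuspAlt
import Fermat.Agent.S34.KummerZ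

set_option autoImplicit false
set_option linter.unusedSectionVars false

noncomputable section

namespace Fermat.Agent.S15.G.CuspClass

open ModularCurve AlgebraicCurve
open Fermat.Agent.S24 Fermat.Agent.S34.ModularUnit Fermat.Agent.S17.Model.ReducedX0
open Fermat.Agent.S15.G.UnitDiv

local notation "Kb" => AlgebraicClosure ℚ
local notation "GQ" => (AlgebraicClosure ℚ ≃ₐ[ℚ] AlgebraicClosure ℚ)

/-! ### `ord` from an order function -/

section Order

variable {K F : Type*} [Field K] [Field F] [Algebra K F] (v : Place K F)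

theorem ord_eq_zero_of_mem_of_inv_mem {x : F} (hx : x ≠ 0) (h1 : x ∈ v.toValuationSubring)
    (h2 : x⁻¹ ∈ v.toValuationSubring) : v.ord x = 0 := by
  have e1 := (Ord.ord_nonneg_iff v hx).mpr ((Ord.mem_iff v _).mp h1)
  have e2 := (Ord.ord_nonneg_iff v (inv_ne_zero hx)).mpr ((Ord.mem_iff v _).mp h2)
  rw [Place.ord_inv] at e2
  omega

theorem exists_ord_eq_one : ∃ ϖ : F, ϖ ≠ 0 ∧ v.ord ϖ = 1 := by
  obtain ⟨π, hπ⟩ := IsDiscreteValuationRing.exists_irreducible v.toValuationSubring
  refine ⟨(π : F), ?_, v.ord_coe_irreducible hπ⟩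
  intro h0
  exact hπ.ne_zero (Subtype.ext h0)

/-- **`ord` from an order function.** -/
theorem ord_eq_of_order (o : F → ℤ)
    (hmem : ∀ x : F, x ≠ 0 → (x ∈ v.toValuationSubring ↔ 0 ≤ o x))
    (hmul : ∀ x y : F, x ≠ 0 → y ≠ 0 → o (x * y) = o x + o y) (hone : o 1 = 0)
    {π : F} (hπ0 : π ≠ 0) (hπ : o π = 1) {f : F} (hf : f ≠ 0) : v.ord f = o f := by
  have hinv : ∀ x : F, x ≠ 0 → o x⁻¹ = -o x := fun x hx => by
    have h := hmul x x⁻¹ hx (inv_ne_zero hx)
    rw [mul_inv_cancel₀ hx, hone] at h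
    omega
  have hzpow : ∀ (x : F) (hx : x ≠ 0) (n : ℤ), o (x ^ n) = n * o x := by
    intro x hx n
    induction n using Int.induction_on with
    | zero => simp [hone]
    | succ i ih =>
      rw [zpow_add_one₀ hx, hmul _ _ (zpow_ne_zero _ hx) hx, ih]
      ring
    | pred i ih =>
      rw [zpow_sub_one₀ hx, hmul _ _ (zpow_ne_zero _ hx) (inv_ne_zero hx), ih, hinv x hx]
      ring
  -- units
  have hunit : ∀ x : F, x ≠ 0 → o x = 0 → v.ord x = 0 := fun x hx h0 =>
    ord_eq_zero_of_mem_of_inv_mem v hx ((hmem x hx).mpr (by omega))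
      ((hmem _ (inv_ne_zero hx)).mpr (by rw [hinv x hx]; omega))
  have hunit' : ∀ x : F, x ≠ 0 → v.ord x = 0 → o x = 0 := by
    intro x hx h0
    have h1 : x ∈ v.toValuationSubring :=
      (Ord.mem_iff v _).mpr ((Ord.ord_nonneg_iff v hx).mp (by omega))
    have h2 : x⁻¹ ∈ v.toValuationSubring :=
      (Ord.mem_iff v _).mpr ((Ord.ord_nonneg_iff v (inv_ne_zero hx)).mp
        (by rw [Place.ord_inv]; omega))
    have e1 := (hmem x hx).mp h1
    have e2 := (hmem _ (inv_ne_zero hx)).mp h2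
    rw [hinv x hx] at e2
    omega
  -- `ord π = 1`
  obtain ⟨ϖ, hϖ0, hϖ⟩ := exists_ord_eq_one v
  have hπord : v.ord π = 1 := by
    set m := v.ord π with hm
    have h1 : v.ord (π * (ϖ ^ m)⁻¹) = 0 := by
      rw [Place.ord_mul v hπ0 (inv_ne_zero (zpow_ne_zero _ hϖ0)), Place.ord_inv, Place.ord_zpow,
        hϖ]
      ring
    have h2 := hunit' _ (mul_ne_zero hπ0 (inv_ne_zero (zpow_ne_zero _ hϖ0))) h1
    rw [hmul _ _ hπ0 (inv_ne_zero (zpow_ne_zero _ hϖ0)), hinv _ (zpow_ne_zero _ hϖ0),
      hzpow ϖ hϖ0, hπ] at h2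
    -- `1 = m * o ϖ`
    have h3 : m * o ϖ = 1 := by omega
    have hmpos : 0 ≤ m := by
      rw [hm]
      exact (Ord.ord_nonneg_iff v hπ0).mpr ((Ord.mem_iff v _).mp ((hmem π hπ0).mpr (by omega)))
    exact Int.eq_one_of_mul_eq_one_right hmpos h3
  -- general `f`
  have h1 : o (f * (π ^ (o f))⁻¹) = 0 := by
    rw [hmul _ _ hf (inv_ne_zero (zpow_ne_zero _ hπ0)), hinv _ (zpow_ne_zero _ hπ0),
      hzpow π hπ0, hπ]
    ring
  have h2 := hunit _ (mul_ne_zero hf (inv_ne_zero (zpow_ne_zero _ hπ0))) h1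
  rw [Place.ord_mul v hf (inv_ne_zero (zpow_ne_zero _ hπ0)), Place.ord_inv, Place.ord_zpow,
    hπord] at h2
  omega

end Order

/-! ### The cusp `∞` -/

section Infinity

open Fermat.Agent.S36.K0DescentLaurent HahnSeries

variable (N : ℕ) [NeZero N]

theorem jq_order : jq.order = -1 := by
  have hne : jq ≠ 0 := fun h => by
    have := coeff_jq_neg_one
    rw [h] at this
    simp at this
  apply le_antisymm
  · exact order_le_of_coeff_ne_zero (by rw [coeff_jq_neg_one]; exact one_ne_zero)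
  · rw [le_order_iff_forall hne]
    intro j hj
    exact coeff_jq_of_lt hj

theorem qOrd_jgen : qOrd (modularFunctionFieldFull N) (DegreeAlg.jgen N) = -1 := by
  show ((DegreeAlg.jgen N : modularFunctionFieldBar N) : LaurentSeries Kb).order = -1
  rw [DegreeAlg.coe_jgen]
  exact (order_coeffMap _ _).trans jq_order

theorem jgen_ne_zero : DegreeAlg.jgen N ≠ 0 := by
  intro h
  have := qOrd_jgen N
  rw [h] at this
  have h0 : qOrd (modularFunctionFieldFull N) (0 : modularFunctionFieldBar N) = 0 := by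
    show ((0 : modularFunctionFieldBar N) : LaurentSeries Kb).order = 0
    simp
  omega

theorem qOrd_uBar : qOrd (modularFunctionFieldFull N) (uBar N (dvd_refl N)) = 1 - (N : ℤ) := by
  show ((uBar N (dvd_refl N) : modularFunctionFieldBar N) : LaurentSeries Kb).order = 1 - (N : ℤ)
  rw [coe_uBar]
  exact (order_coeffMap _ _).trans (order_modularUnitSeries N)

/-- **`ord_∞ = ` the order of the `q`-expansion.** -/
theorem ord_oo {f : modularFunctionFieldBar N} (hf : f ≠ 0) :
    (oo N).ord f = qOrd (modularFunctionFieldFull N) f := by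
  refine ord_eq_of_order (oo N) (qOrd (modularFunctionFieldFull N)) (fun x _ => mem_oo_iff N x)
    (fun x y hx hy => qOrd_mul _ x y hx hy) (qOrd_one _)
    (π := (DegreeAlg.jgen N)⁻¹) (inv_ne_zero (jgen_ne_zero N)) ?_ hf
  rw [qOrd_inv _ _ (jgen_ne_zero N), qOrd_jgen]
  rfl

theorem ord_oo_uBar : (oo N).ord (uBar N (dvd_refl N)) = 1 - (N : ℤ) := by
  rw [ord_oo N (uBar_ne_zero N _), qOrd_uBar]

theorem ord_oo_jgen : (oo N).ord (DegreeAlg.jgen N) = -1 := by
  rw [ord_oo N (jgen_ne_zero N), qOrd_jgen]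

theorem jgen_not_mem_oo : DegreeAlg.jgen N ∉ (oo N).toValuationSubring := by
  rw [mem_oo_iff, qOrd_jgen]
  omega

end Infinity

/-! ### The two cusps at prime level -/

section Prime

open Fermat.Agent.S36.K0DescentLaurent

variable (N : ℕ) [hN : Fact N.Prime]

/-- prime levels are nonzero -/
local instance neZeroPrime : NeZero N := ⟨hN.out.ne_zero⟩

attribute [local instance] Fermat.Agent.S18.A.Instances.hasPrincipalDivisors_bar

theorem cuspCount_prime : ModularCurve.cuspCount N = 2 := by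
  show ∑ d ∈ N.divisors, Nat.totient (Nat.gcd d (N / d)) = 2
  rw [Nat.Prime.divisors hN.out, Finset.sum_pair hN.out.one_lt.ne]
  simp [Nat.div_self hN.out.pos]

/-- the poles of `j` -/
abbrev Pole : Type := {v : Place Kb ↥(modularFunctionFieldBar N) //
  DegreeAlg.jgen N ∉ v.toValuationSubring}

/-- **`j` has exactly two poles on `X₀(N)`, `N` prime.** -/
theorem card_poles_prime : Nat.card (Pole N) = 2 := by
  rw [Pole, OrbitsCuspAlt.card_poles N, Fermat.Agent.S20.CountFinal.card_orbits_T N,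
    cuspCount_prime]

/-- the cusp `∞` as a pole of `j` -/
def ooPole : Pole N := ⟨oo N, jgen_not_mem_oo N⟩

theorem exists_unique_other : ∃! y : Pole N, y ≠ ooPole N :=
  (Nat.card_eq_two_iff' (ooPole N)).mp (card_poles_prime N)

/-- **the cusp `0`**: the pole of `j` which is not `∞` -/
def zz : Place Kb ↥(modularFunctionFieldBar N) := ((exists_unique_other N).choose : Pole N)

theorem jgen_not_mem_zz : DegreeAlg.jgen N ∉ (zz N).toValuationSubring :=
  ((exists_unique_other N).choose : Pole N).2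

theorem zz_ne_oo : zz N ≠ oo N := by
  intro h
  apply (exists_unique_other N).choose_spec.1
  exact Subtype.ext h

/-- every pole of `j` is one of the two cusps -/
theorem eq_oo_or_eq_zz (v : Place Kb ↥(modularFunctionFieldBar N))
    (hv : DegreeAlg.jgen N ∉ v.toValuationSubring) : v = oo N ∨ v = zz N := by
  by_cases h : v = oo N
  · exact Or.inl h
  · right
    have h1 : (⟨v, hv⟩ : Pole N) ≠ ooPole N := fun he => h (congrArg Subtype.val he)
    have h2 := (exists_unique_other N).choose_spec.2 ⟨v, hv⟩ h1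
    exact congrArg Subtype.val h2

theorem deg_zz : (zz N).deg = 1 := Fermat.Agent.S18.A.Instances.deg_one_bar N (zz N)

/-! ### Galois action -/

theorem galAut_smul_jgen (σ : GQ) : galAut N σ • DegreeAlg.jgen N = DegreeAlg.jgen N := by
  apply Subtype.ext
  rw [coe_arithmeticGalois_smul, DegreeAlg.coe_jgen]
  exact DegreeLowerFormal.coeffMap_coeffEmb _ _

/-- the cusp `0` is fixed by `Gal(ℚ̄/ℚ)` -/
theorem galAut_smul_zz (σ : GQ) : galAut N σ • zz N = zz N := by
  have hpole : DegreeAlg.jgen N ∉ (galAut N σ • zz N).toValuationSubring := by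
    rw [SemilinearAut.smul_toValuationSubring,
      ValuationSubring.mem_pointwise_smul_iff_inv_smul_mem]
    have h1 : (galAut N σ)⁻¹ • DegreeAlg.jgen N = DegreeAlg.jgen N := by
      rw [inv_smul_eq_iff, galAut_smul_jgen]
    show ¬ ((galAut N σ)⁻¹ • DegreeAlg.jgen N ∈ (zz N).toValuationSubring)
    rw [h1]
    exact jgen_not_mem_zz N
  rcases eq_oo_or_eq_zz N _ hpole with h | h
  · exfalso
    apply zz_ne_oo N
    have h2 : galAut N σ • zz N = galAut N σ • oo N := by rw [h, galAut_smul_oo]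
    exact MulAction.injective (galAut N σ) h2
  · exact h

/-! ### The divisor of the modular unit -/

theorem ord_uBar_of_ne (v : Place Kb ↥(modularFunctionFieldBar N)) (h1 : v ≠ oo N)
    (h2 : v ≠ zz N) : v.ord (uBar N (dvd_refl N)) = 0 := by
  apply ord_uBar_of_jgen_mem
  by_contra hj
  rcases eq_oo_or_eq_zz N v hj with h | h
  · exact h1 h
  · exact h2 h

/-- **`ord_0 (uBar) = N - 1`.** -/
theorem ord_zz_uBar : (zz N).ord (uBar N (dvd_refl N)) = (N : ℤ) - 1 := by
  classical
  obtain ⟨D, hD, hdeg⟩ := HasPrincipalDivisors.exists_divisor (K := Kb) (uBar N (dvd_refl N))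
    (uBar_ne_zero N _)
  have hDeq : D = Finsupp.single (oo N) (1 - (N : ℤ)) +
      Finsupp.single (zz N) ((zz N).ord (uBar N (dvd_refl N))) := by
    ext w
    rw [hD w, Finsupp.add_apply]
    by_cases h1 : w = oo N
    · subst h1
      rw [Finsupp.single_eq_same, Finsupp.single_eq_of_ne (zz_ne_oo N).symm, add_zero, ord_oo_uBar]
    · by_cases h2 : w = zz N
      · subst h2
        rw [Finsupp.single_eq_same, Finsupp.single_eq_of_ne (zz_ne_oo N), zero_add]
      · rw [Finsupp.single_eq_of_ne h1, Finsupp.single_eq_of_ne h2, add_zero,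
          ord_uBar_of_ne N w h1 h2]
  rw [hDeq, map_add, Divisor.degree_single, Divisor.degree_single, deg_oo, deg_zz] at hdeg
  push_cast at hdeg
  omega

end Prime

/-! ### The cuspidal class -/

section Class

open Fermat.Agent.S34.KummerZ

variable (N : ℕ) [hN : Fact N.Prime]

local instance neZeroPrime' : NeZero N := ⟨hN.out.ne_zero⟩

attribute [local instance] Fermat.Agent.S18.A.Instances.hasPrincipalDivisors_bar

theorem degree_cusp_sub :
    Divisor.degree (Finsupp.single (zz N) (1 : ℤ) - Finsupp.single (oo N) (1 : ℤ) :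
      Divisor Kb ↥(modularFunctionFieldBar N)) = 0 := by
  rw [map_sub, Divisor.degree_single, Divisor.degree_single, deg_oo, deg_zz]
  simp

/-- the cuspidal divisor `(0) - (∞)` -/
def cuspDiv : Divisor.degZero (K := Kb) (F := ↥(modularFunctionFieldBar N)) :=
  ⟨Finsupp.single (zz N) (1 : ℤ) - Finsupp.single (oo N) (1 : ℤ),
    Divisor.mem_degZero.mpr (degree_cusp_sub N)⟩

@[simp] theorem coe_cuspDiv :
    ((cuspDiv N : Divisor.degZero (K := Kb) (F := ↥(modularFunctionFieldBar N))) :
      Divisor Kb ↥(modularFunctionFieldBar N)) =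
      Finsupp.single (zz N) (1 : ℤ) - Finsupp.single (oo N) (1 : ℤ) := rfl

/-- **the cuspidal class `c = [(0) - (∞)] ∈ J₀(N)`** -/
def cc : JZero N := Pic0.mk (cuspDiv N)

/-- `(N - 1) ((0) - (∞)) = div (uBar)` -/
theorem isDivOf_uBar :
    IsDivOf ((((N - 1 : ℕ) • cuspDiv N : Divisor.degZero (K := Kb)
      (F := ↥(modularFunctionFieldBar N))) : Divisor Kb ↥(modularFunctionFieldBar N)))
      (uBar N (dvd_refl N)) := by
  classical
  intro w
  have hN1 : ((N - 1 : ℕ) : ℤ) = (N : ℤ) - 1 := by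
    have := hN.out.one_lt
    omega
  rw [AddSubgroup.coe_nsmul, coe_cuspDiv, Finsupp.smul_apply, Finsupp.sub_apply, nsmul_eq_mul, hN1]
  by_cases h1 : w = oo N
  · subst h1
    rw [Finsupp.single_eq_same, Finsupp.single_eq_of_ne (zz_ne_oo N).symm, ord_oo_uBar]
    ring
  · by_cases h2 : w = zz N
    · subst h2
      rw [Finsupp.single_eq_same, Finsupp.single_eq_of_ne (zz_ne_oo N), ord_zz_uBar]
      ring
    · rw [Finsupp.single_eq_of_ne h1, Finsupp.single_eq_of_ne h2, ord_uBar_of_ne N w h1 h2]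
      ring

/-- **`(N - 1) • c = 0`**: the order of the cuspidal class divides `N - 1`. -/
theorem sub_one_nsmul_cc : (N - 1) • cc N = 0 := by
  have h : Pic0.mk ((N - 1 : ℕ) • cuspDiv N) = 0 :=
    mk_eq_zero_of_isDivOf (uBar_ne_zero N _) (isDivOf_uBar N)
  rw [← h]
  rfl

theorem addOrderOf_cc_dvd : addOrderOf (cc N) ∣ N - 1 :=
  addOrderOf_dvd_of_nsmul_eq_zero (sub_one_nsmul_cc N)

/-- the cuspidal divisor is `Gal(ℚ̄/ℚ)`-stable -/
theorem galAut_smul_cuspDiv (σ : GQ) :
    galAut N σ • ((cuspDiv N : Divisor.degZero (K := Kb) (F := ↥(modularFunctionFieldBar N))) :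
      Divisor Kb ↥(modularFunctionFieldBar N)) = cuspDiv N := by
  rw [coe_cuspDiv, smul_sub, SemilinearAut.smul_single, SemilinearAut.smul_single,
    galAut_smul_zz, galAut_smul_oo]

/-- **the cuspidal class is rational.** -/
theorem smul_cc (σ : GQ) : σ • cc N = cc N := by
  show galAut N σ • Pic0.mk (cuspDiv N) = Pic0.mk (cuspDiv N)
  rw [SemilinearAut.pic0_smul_mk]
  congr 1
  apply Subtype.ext
  rw [SemilinearAut.coe_degZeroSMulHom]
  exact galAut_smul_cuspDiv N σ

theorem cc_mem_Gam : cc N ∈ Gam N := fun σ => smul_cc N σ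

end Class

end Fermat.Agent.S15.G.CuspClass
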