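/-
PROJECT M (S15), block [G], leaf (K-u), part 3 (helper13): THE CUSPIDAL CLASS IS NOT ZERO.

* `genusFormula_pos` : for a prime `p ≥ 11`, `p ≠ 13`, the genus formula of `X₀(p)` is positive;
* `one_le_genus` : hence the Riemann genus of `ℚ̄(X₀(p))` is at least `1`;
* `genus_eq_zero_of_simple_pole` : a function with exactly one, simple, pole forces genus `0`
  (`1, f, …, fᵏ ∈ L(k v)`);
* **`cc_ne_zero`** : for a prime `p ∉ {2, 3, 5, 7, 13}` the class of `(0) - (∞)` in `J₀(p)` is not `0`.
-/
import Mathlib
import Fermat.Agent.S15.G.CuspClass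
import Fermat.Agent.S34.GenusRiemann

set_option autoImplicit false
set_option linter.unusedSectionVars false
set_option linter.style.haveILetI false

noncomputable section

namespace Fermat.Agent.S15.G.CuspNonzero

open ModularCurve AlgebraicCurve Polynomial
open Fermat.Agent.S17.Model.ReducedX0 Fermat.Agent.S18.NonSpecial
open Fermat.Agent.S15.G.CuspClass

local notation "Kb" => AlgebraicClosure ℚ

/-! ### numerics of the genus formula at prime level -/

section Numerics

theorem card_filter_eval_le {R : Type*} [CommRing R] [IsDomain R] [Fintype R] [DecidableEq R]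
    (q : R[X]) (hq : q ≠ 0) :
    (Finset.univ.filter (fun x : R => q.eval x = 0)).card ≤ q.natDegree := by
  calc (Finset.univ.filter (fun x : R => q.eval x = 0)).card
      ≤ q.roots.toFinset.card := Finset.card_le_card (fun x hx => by
        rw [Finset.mem_filter] at hx
        rw [Multiset.mem_toFinset, Polynomial.mem_roots hq]
        exact hx.2)
    _ ≤ Multiset.card q.roots := Multiset.toFinset_card_le _
    _ ≤ q.natDegree := Polynomial.card_roots' q

theorem nuTwo_le_two (p : ℕ) [hp : Fact p.Prime] : nuTwo p ≤ 2 := by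
  classical
  haveI : NeZero p := ⟨hp.out.ne_zero⟩
  have hq : (X ^ 2 + 1 : (ZMod p)[X]) ≠ 0 := by
    intro h
    have := congrArg natDegree h
    rw [show (X ^ 2 + 1 : (ZMod p)[X]) = X ^ 2 + C 1 by simp, natDegree_X_pow_add_C] at this
    simp at this
  have h := card_filter_eval_le (X ^ 2 + 1 : (ZMod p)[X]) hq
  rw [show (X ^ 2 + 1 : (ZMod p)[X]) = X ^ 2 + C 1 by simp, natDegree_X_pow_add_C] at h
  show Nat.card {x : ZMod p // x ^ 2 + 1 = 0} ≤ 2
  rw [Nat.card_eq_fintype_card, Fintype.card_subtype]
  refine le_trans (le_of_eq ?_) h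
  congr 1
  ext x
  simp

theorem nuThree_le_two (p : ℕ) [hp : Fact p.Prime] : nuThree p ≤ 2 := by
  classical
  haveI : NeZero p := ⟨hp.out.ne_zero⟩
  have hdeg : (X ^ 2 + X + 1 : (ZMod p)[X]).natDegree = 2 := by
    rw [show (X ^ 2 + X + 1 : (ZMod p)[X]) = C 1 * X ^ 2 + C 1 * X + C 1 by simp]
    exact natDegree_quadratic one_ne_zero
  have hq : (X ^ 2 + X + 1 : (ZMod p)[X]) ≠ 0 := by
    intro h
    rw [h] at hdeg
    simp at hdeg
  have h := card_filter_eval_le (X ^ 2 + X + 1 : (ZMod p)[X]) hq
  rw [hdeg] at h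
  show Nat.card {x : ZMod p // x ^ 2 + x + 1 = 0} ≤ 2
  rw [Nat.card_eq_fintype_card, Fintype.card_subtype]
  refine le_trans (le_of_eq ?_) h
  congr 1
  ext x
  simp

theorem dedekindPsi_prime {p : ℕ} (hp : p.Prime) : dedekindPsi p = p + 1 := by
  rw [dedekindPsi, hp.divisors, Finset.filter_true_of_mem, Finset.sum_pair hp.one_lt.ne,
    Nat.div_one, Nat.div_self hp.pos]
  intro d hd
  rw [Finset.mem_insert, Finset.mem_singleton] at hd
  rcases hd with rfl | rfl
  · exact squarefree_one
  · exact hp.squarefree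

theorem cuspCount_prime' {p : ℕ} (hp : p.Prime) : cuspCount p = 2 := by
  rw [cuspCount, hp.divisors, Finset.sum_pair hp.one_lt.ne, Nat.div_one, Nat.div_self hp.pos]
  simp

theorem nuTwo_eq (N : ℕ) [NeZero N] :
    nuTwo N = (Finset.univ.filter (fun x : ZMod N => x ^ 2 + 1 = 0)).card := by
  show Nat.card {x : ZMod N // x ^ 2 + 1 = 0} = _
  rw [Nat.card_eq_fintype_card, Fintype.card_subtype]

theorem nuThree_eq (N : ℕ) [NeZero N] :
    nuThree N = (Finset.univ.filter (fun x : ZMod N => x ^ 2 + x + 1 = 0)).card := by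
  show Nat.card {x : ZMod N // x ^ 2 + x + 1 = 0} = _
  rw [Nat.card_eq_fintype_card, Fintype.card_subtype]

theorem genusFormula_prime {p : ℕ} (hp : p.Prime) :
    genusFormula p = ((p : ℚ) + 1) / 12 - (nuTwo p : ℚ) / 4 - (nuThree p : ℚ) / 3 := by
  show 1 + (dedekindPsi p : ℚ) / 12 - (nuTwo p : ℚ) / 4 - (nuThree p : ℚ) / 3
    - (cuspCount p : ℚ) / 2 = _
  rw [dedekindPsi_prime hp,
    cuspCount_prime' hp]
  push_cast
  ring

theorem genusFormula_pos {p : ℕ} (hp : p.Prime) (h11 : 11 ≤ p) (h13 : p ≠ 13) :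
    0 < genusFormula p := by
  haveI : Fact p.Prime := ⟨hp⟩
  rw [genusFormula_prime hp]
  by_cases h23 : 23 ≤ p
  · have h2 : (nuTwo p : ℚ) ≤ 2 := by exact_mod_cast nuTwo_le_two p
    have h3 : (nuThree p : ℚ) ≤ 2 := by exact_mod_cast nuThree_le_two p
    have hpq : (23 : ℚ) ≤ p := by exact_mod_cast h23
    linarith
  · push Not at h23
    interval_cases p
    · have h2 : nuTwo 11 = 0 := by rw [nuTwo_eq]; decide
      have h3 : nuThree 11 = 0 := by rw [nuThree_eq]; decide
      rw [h2, h3]; norm_num
    · exact absurd hp (by decide)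
    · exact absurd rfl h13
    · exact absurd hp (by decide)
    · exact absurd hp (by decide)
    · exact absurd hp (by decide)
    · have h2 : nuTwo 17 = 2 := by rw [nuTwo_eq]; decide
      have h3 : nuThree 17 = 0 := by rw [nuThree_eq]; decide
      rw [h2, h3]; norm_num
    · exact absurd hp (by decide)
    · have h2 : nuTwo 19 = 0 := by rw [nuTwo_eq]; decide
      have h3 : nuThree 19 = 2 := by rw [nuThree_eq]; decide
      rw [h2, h3]; norm_num
    · exact absurd hp (by decide)
    · exact absurd hp (by decide)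
    · exact absurd hp (by decide)

/-- **the genus of `X₀(p)` is at least `1`** for a prime `p ≥ 11`, `p ≠ 13`. -/
theorem one_le_genus {p : ℕ} (hp : p.Prime) (h11 : 11 ≤ p) (h13 : p ≠ 13) {g : ℕ}
    (hR : haveI : NeZero p := ⟨hp.ne_zero⟩; RiemannHyp Kb ↥(modularFunctionFieldBar p) g) :
    1 ≤ g := by
  haveI : NeZero p := ⟨hp.ne_zero⟩
  have h := Fermat.Agent.S34.GenusRiemann.riemann_genus_eq_formula p hR
  have hpos := genusFormula_pos hp h11 h13
  rw [← h] at hpos
  have : 0 < g := by exact_mod_cast hpos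
  omega

end Numerics

/-! ### one simple pole forces genus zero -/

section SimplePole

variable {K F : Type*} [Field K] [Field F] [Algebra K F]

theorem succ_le_ell_single {g : ℕ} (h : RiemannHyp K F g) (v : Place K F) {f : F} (hf0 : f ≠ 0)
    (hv : v.ord f = -1) (hw : ∀ w : Place K F, w ≠ v → 0 ≤ w.ord f) (k : ℕ) :
    k + 1 ≤ ell (Finsupp.single v (k : ℤ) : Divisor K F) := by
  classical
  induction k with
  | zero =>
    rw [Nat.cast_zero, Finsupp.single_zero, h.ell_zero]
  | succ k ih =>
    have hle : (Finsupp.single v (k : ℤ) : Divisor K F) ≤ Finsupp.single v ((k + 1 : ℕ) : ℤ) := by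
      rw [Finsupp.le_def]
      intro w
      by_cases hwv : w = v
      · subst hwv
        rw [Finsupp.single_eq_same, Finsupp.single_eq_same]
        push_cast
        omega
      · rw [Finsupp.single_eq_of_ne hwv, Finsupp.single_eq_of_ne hwv]
    have hpow : (f ^ (k + 1)) ≠ 0 := pow_ne_zero _ hf0
    have hmem : f ^ (k + 1) ∈ riemannRochSpace (Finsupp.single v ((k + 1 : ℕ) : ℤ) : Divisor K F) := by
      rw [mem_riemannRochSpace_iff]
      intro w
      right
      rw [Fermat.Agent.S34.KummerZ.ord_pow]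
      by_cases hwv : w = v
      · subst hwv
        rw [Finsupp.single_eq_same, hv]
        push_cast
        omega
      · rw [Finsupp.single_eq_of_ne hwv]
        have := hw w hwv
        push_cast
        nlinarith
    have hnmem : f ^ (k + 1) ∉ riemannRochSpace (Finsupp.single v (k : ℤ) : Divisor K F) := by
      rw [mem_riemannRochSpace_iff]
      intro hcon
      rcases hcon v with h0 | h1
      · exact hpow h0
      · rw [Fermat.Agent.S34.KummerZ.ord_pow, Finsupp.single_eq_same, hv] at h1
        push_cast at h1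
        omega
    have := ell_lt_of_mem_of_not_mem (h.finite _) hle hmem hnmem
    omega

/-- **a function with exactly one, simple, pole forces genus zero.** -/
theorem genus_eq_zero_of_simple_pole {g : ℕ} (h : RiemannHyp K F g) (v : Place K F) {f : F}
    (hf0 : f ≠ 0) (hv : v.ord f = -1) (hw : ∀ w : Place K F, w ≠ v → 0 ≤ w.ord f) : g = 0 := by
  obtain ⟨c, hc⟩ := h.riemann_eq
  set k : ℕ := c.toNat with hk
  have hdeg : Divisor.degree (Finsupp.single v (k : ℤ) : Divisor K F) = k := by
    rw [Divisor.degree_single, h.deg_one v]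
    simp
  have h1 := hc (Finsupp.single v (k : ℤ)) (by rw [hdeg]; omega)
  have h2 := succ_le_ell_single h v hf0 hv hw k
  rw [hdeg] at h1
  have h3 : ((k + 1 : ℕ) : ℤ) ≤ (ell (Finsupp.single v (k : ℤ) : Divisor K F) : ℤ) := by
    exact_mod_cast h2
  push_cast at h3
  omega

end SimplePole

/-! ### the cuspidal class is not zero -/

section Nonzero

variable (N : ℕ) [hN : Fact N.Prime]

local instance neZeroPrime'' : NeZero N := ⟨hN.out.ne_zero⟩

attribute [local instance] Fermat.Agent.S18.A.Instances.hasPrincipalDivisors_bar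

/-- if the cuspidal class vanishes, `X₀(N)` has genus zero -/
theorem genus_eq_zero_of_cc_eq_zero (h0 : cc N = 0) {g : ℕ}
    (hR : RiemannHyp Kb ↥(modularFunctionFieldBar N) g) : g = 0 := by
  classical
  have h2 : cuspDiv N ∈ (Divisor.principal (K := Kb) (F := ↥(modularFunctionFieldBar N))).addSubgroupOf
      (Divisor.degZero (K := Kb) (F := ↥(modularFunctionFieldBar N))) :=
    (QuotientAddGroup.eq_zero_iff _).mp h0
  rw [AddSubgroup.mem_addSubgroupOf] at h2
  obtain ⟨f, hf, hD⟩ := h2
  refine genus_eq_zero_of_simple_pole hR (oo N) hf ?_ ?_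
  · rw [← hD (oo N), coe_cuspDiv, Finsupp.sub_apply, Finsupp.single_eq_same,
      Finsupp.single_eq_of_ne (zz_ne_oo N).symm]
    norm_num
  · intro w hw
    rw [← hD w, coe_cuspDiv, Finsupp.sub_apply, Finsupp.single_eq_of_ne hw]
    by_cases h2 : w = zz N
    · subst h2
      rw [Finsupp.single_eq_same]
      norm_num
    · rw [Finsupp.single_eq_of_ne h2]
      norm_num

/-- **the cuspidal class `(0) - (∞)` of `J₀(N)` is not zero**, `N` prime outside
`{2, 3, 5, 7, 13}`. -/
theorem cc_ne_zero (hN' : N ∉ ({2, 3, 5, 7, 13} : Finset ℕ)) : cc N ≠ 0 := by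
  intro h0
  obtain ⟨g, hg, -⟩ := Fermat.Agent.S18.A.Hurwitz.exists_genus_FL N
  have hg0 := genus_eq_zero_of_cc_eq_zero N h0 hg
  have hp := hN.out
  have h11 : 11 ≤ N := by
    by_contra hlt
    push Not at hlt
    have h2 := hp.two_le
    interval_cases N
    · exact hN' (by simp)
    · exact hN' (by simp)
    · exact absurd hp (by decide)
    · exact hN' (by simp)
    · exact absurd hp (by decide)
    · exact hN' (by simp)
    · exact absurd hp (by decide)
    · exact absurd hp (by decide)
    · exact absurd hp (by decide)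
  have h13 : N ≠ 13 := fun h => hN' (by simp [h])
  have := one_le_genus hp h11 h13 hg
  omega

end Nonzero

end Fermat.Agent.S15.G.CuspNonzero
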