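/-
PROJECT M (S15), block [G], leaf (K-u), part 4 (helper13): THE SEAMS (C-0) AND (K-u) OF BLOCK [A]
IN THE LITERAL SHAPE OF `S15/A/Frame.lean` (helper4), WITH THE DEFINITIONS UNFOLDED (no import of
any branch): for a prime `p`,

* `seamC0 hp` : there is a pole `c0 ≠ ∞` of `j` on `X₀(p)`, it is fixed by `Gal(ℚ̄/ℚ)`, and it is the
  only one  (`= Frame.SeamC0 p`);
* `seamKu hp` : for every such `c0`, `(p - 1) • [(c0) - (∞)] = 0`  (`= Frame.SeamKu p`);
* `diffClass_ne_zero hp hp'` : for `p ∉ {2, 3, 5, 7, 13}`, `[(c0) - (∞)] ≠ 0`;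
* `diffClass_eq_cc` : `[(c0) - (∞)] = cc p`.
-/
import Mathlib
import Fermat.Agent.S15.G.CuspClass
import Fermat.Agent.S15.G.CuspNonzero

set_option autoImplicit false
set_option linter.unusedSectionVars false
set_option linter.style.haveILetI false

noncomputable section

namespace Fermat.Agent.S15.G.CuspSeams

open ModularCurve AlgebraicCurve
open Fermat.Agent.S24 Fermat.Agent.S17.Model.ReducedX0
open Fermat.Agent.S15.G.CuspClass Fermat.Agent.S15.G.CuspNonzero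

local notation "Kb" => AlgebraicClosure ℚ
local notation "GQ" => (AlgebraicClosure ℚ ≃ₐ[ℚ] AlgebraicClosure ℚ)

section Prime

variable (N : ℕ) [hN : Fact N.Prime]

local instance neZeroPrime3 : NeZero N := ⟨hN.out.ne_zero⟩

theorem not_mem_of_ord_neg {c : Place Kb ↥(modularFunctionFieldBar N)}
    (h : c.ord (DegreeAlg.jgen N) < 0) : DegreeAlg.jgen N ∉ c.toValuationSubring := by
  intro hmem
  have h0 : DegreeAlg.jgen N ≠ 0 := jgen_ne_zero N
  have := (Ord.ord_nonneg_iff c h0).mpr ((Ord.mem_iff c _).mp hmem)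
  omega

theorem ord_neg_of_not_mem {c : Place Kb ↥(modularFunctionFieldBar N)}
    (h : DegreeAlg.jgen N ∉ c.toValuationSubring) : c.ord (DegreeAlg.jgen N) < 0 := by
  by_contra hcon
  have hcon' : 0 ≤ c.ord (DegreeAlg.jgen N) := not_lt.mp hcon
  have h0 : DegreeAlg.jgen N ≠ 0 := jgen_ne_zero N
  exact h ((Ord.mem_iff c _).mpr ((Ord.ord_nonneg_iff c h0).mp hcon'))

/-- the cusp `0` is a pole of `j` -/
theorem ord_zz_jgen_neg : (zz N).ord (DegreeAlg.jgen N) < 0 :=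
  ord_neg_of_not_mem N (jgen_not_mem_zz N)

/-- a pole of `j` other than `∞` is the cusp `0` -/
theorem eq_zz_of_ord_neg {c : Place Kb ↥(modularFunctionFieldBar N)} (h1 : c ≠ oo N)
    (h2 : c.ord (DegreeAlg.jgen N) < 0) : c = zz N := by
  rcases eq_oo_or_eq_zz N c (not_mem_of_ord_neg N h2) with h | h
  · exact absurd h h1
  · exact h

end Prime

/-- **(C-0)**: the cusp `0` of `X₀(p)` exists, is rational and unique. -/
theorem seamC0 {p : ℕ} (hp : p.Prime) :
    haveI : NeZero p := ⟨hp.ne_zero⟩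
    ∃ c0 : Place Kb (modularFunctionFieldBar p),
      (c0 ≠ oo p ∧ c0.ord (DegreeAlg.jgen p) < 0) ∧
      (∀ σ : GQ, arithmeticGalois (modularFunctionFieldFull p) σ • c0 = c0) ∧
      ∀ c : Place Kb (modularFunctionFieldBar p),
        (c ≠ oo p ∧ c.ord (DegreeAlg.jgen p) < 0) → c = c0 := by
  haveI : Fact p.Prime := ⟨hp⟩
  exact ⟨zz p, ⟨zz_ne_oo p, ord_zz_jgen_neg p⟩, fun σ => galAut_smul_zz p σ,
    fun c hc => eq_zz_of_ord_neg p hc.1 hc.2⟩

/-- the class `[(c0) - (∞)]` is the cuspidal class `cc p` -/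
theorem diffClass_eq_cc {p : ℕ} (hp : p.Prime) :
    haveI : NeZero p := ⟨hp.ne_zero⟩
    haveI : Fact p.Prime := ⟨hp⟩
    ∀ c0 : Place Kb (modularFunctionFieldBar p),
      (c0 ≠ oo p ∧ c0.ord (DegreeAlg.jgen p) < 0) →
      ∀ hdeg : (Finsupp.single c0 (1 : ℤ) - Finsupp.single (oo p) (1 : ℤ) :
          Divisor Kb (modularFunctionFieldBar p)) ∈
          Divisor.degZero (K := Kb) (F := modularFunctionFieldBar p),
        (Pic0.mk ⟨Finsupp.single c0 (1 : ℤ) - Finsupp.single (oo p) (1 : ℤ), hdeg⟩ : JZero p) =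
          cc p := by
  haveI : Fact p.Prime := ⟨hp⟩
  intro c0 hc0 hdeg
  have h := eq_zz_of_ord_neg p hc0.1 hc0.2
  subst h
  rfl

/-- **(K-u)**: the cuspidal class of `X₀(p)` is killed by `p - 1`. -/
theorem seamKu {p : ℕ} (hp : p.Prime) :
    haveI : NeZero p := ⟨hp.ne_zero⟩
    ∀ c0 : Place Kb (modularFunctionFieldBar p),
      (c0 ≠ oo p ∧ c0.ord (DegreeAlg.jgen p) < 0) →
      ∀ hdeg : (Finsupp.single c0 (1 : ℤ) - Finsupp.single (oo p) (1 : ℤ) :
          Divisor Kb (modularFunctionFieldBar p)) ∈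
          Divisor.degZero (K := Kb) (F := modularFunctionFieldBar p),
        (p - 1) • (Pic0.mk ⟨Finsupp.single c0 (1 : ℤ) - Finsupp.single (oo p) (1 : ℤ), hdeg⟩ :
          JZero p) = 0 := by
  haveI : Fact p.Prime := ⟨hp⟩
  intro c0 hc0 hdeg
  rw [diffClass_eq_cc hp c0 hc0 hdeg]
  exact sub_one_nsmul_cc p

/-- **the cuspidal class is not zero** for `p ∉ {2, 3, 5, 7, 13}`. -/
theorem diffClass_ne_zero {p : ℕ} (hp : p.Prime) (hp' : p ∉ ({2, 3, 5, 7, 13} : Finset ℕ)) :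
    haveI : NeZero p := ⟨hp.ne_zero⟩
    ∀ c0 : Place Kb (modularFunctionFieldBar p),
      (c0 ≠ oo p ∧ c0.ord (DegreeAlg.jgen p) < 0) →
      ∀ hdeg : (Finsupp.single c0 (1 : ℤ) - Finsupp.single (oo p) (1 : ℤ) :
          Divisor Kb (modularFunctionFieldBar p)) ∈
          Divisor.degZero (K := Kb) (F := modularFunctionFieldBar p),
        (Pic0.mk ⟨Finsupp.single c0 (1 : ℤ) - Finsupp.single (oo p) (1 : ℤ), hdeg⟩ :
          JZero p) ≠ 0 := by
  haveI : Fact p.Prime := ⟨hp⟩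
  intro c0 hc0 hdeg
  rw [diffClass_eq_cc hp c0 hc0 hdeg]
  exact cc_ne_zero p hp'

end Fermat.Agent.S15.G.CuspSeams
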