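import Mathlib

/-!
# PROJECT M (S15), block [G], leaf (G-jh): Jordan–Hölder constituents under the pointwise
Eisenstein relation

`P` prime, `k = ZMod P`, `ρ : Representation k G V` on a finite `V`, `χ : G →* kˣ`, and for every
`s` the relation `(ρ s - 1) (ρ s - χ s) = 0`.  Then every simple subquotient of `V` is a line on
which `G` acts trivially or through `χ`.  `P = 2` is included.
-/

set_option autoImplicit false

namespace Fermat.Agent.S15.G.Constituents

variable {P : ℕ} [Fact P.Prime] {G : Type*} [Group G] {V : Type*} [AddCommGroup V]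
  [Module (ZMod P) V]

/-- The pointwise relation `(ρ s - 1) (ρ s - χ s) = 0`. -/
def EisRel (ρ : Representation (ZMod P) G V) (χ : G →* (ZMod P)ˣ) : Prop :=
  ∀ (s : G) (v : V), ρ s (ρ s v) - (((χ s : (ZMod P)ˣ) : ZMod P) + 1) • ρ s v +
    ((χ s : (ZMod P)ˣ) : ZMod P) • v = 0

/-- stability of a submodule -/
def Stable (ρ : Representation (ZMod P) G V) (N : Submodule (ZMod P) V) : Prop :=
  ∀ (s : G), ∀ v ∈ N, ρ s v ∈ N

section Irred

variable (ρ : Representation (ZMod P) G V) (χ : G →* (ZMod P)ˣ)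

theorem rho_inv_apply (s : G) (v : V) : ρ s⁻¹ (ρ s v) = v := by
  rw [← Module.End.mul_apply, ← map_mul, inv_mul_cancel, map_one, Module.End.one_apply]

theorem rho_apply_inv (s : G) (v : V) : ρ s (ρ s⁻¹ v) = v := by
  rw [← Module.End.mul_apply, ← map_mul, mul_inv_cancel, map_one, Module.End.one_apply]

/-- on the kernel of `χ` the relation reads `(ρ s - 1)² = 0`, hence `ρ s ^ n = 1 + n (ρ s - 1)` -/
theorem pow_apply_of_mem_ker (h : EisRel ρ χ) {s : G} (hs : s ∈ χ.ker) (v : V) :
    ∀ n : ℕ, ρ (s ^ n) v = v + n • (ρ s v - v)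
  | 0 => by simp
  | (n + 1) => by
    have h1 := h s v
    rw [MonoidHom.mem_ker] at hs
    rw [hs] at h1
    simp only [Units.val_one, one_smul] at h1
    have h2 : ρ s (ρ s v) = ρ s v + (ρ s v - v) := by
      have : ρ s (ρ s v) - ((1 : ZMod P) + 1) • ρ s v + v = 0 := h1
      rw [add_smul, one_smul] at this
      have h3 : ρ s (ρ s v) = ρ s v + ρ s v - v := by
        rw [eq_sub_iff_add_eq, ← sub_eq_zero]
        rw [← this]; abel
      rw [h3]; abel
    rw [pow_succ', map_mul, Module.End.mul_apply, pow_apply_of_mem_ker h hs v n, map_add,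
      map_nsmul, map_sub, h2]
    rw [add_smul, one_smul]
    abel_nf

/-- elements of `ker χ` act with order dividing `P` -/
theorem pow_prime_apply_of_mem_ker (h : EisRel ρ χ) {s : G} (hs : s ∈ χ.ker) (v : V) :
    ρ (s ^ P) v = v := by
  rw [pow_apply_of_mem_ker ρ χ h hs v P]
  have : (P : ℕ) • (ρ s v - v) = 0 := by
    rw [← Nat.cast_smul_eq_nsmul (ZMod P), ZMod.natCast_self, zero_smul]
  rw [this, add_zero]

/-- the subspace of vectors fixed by `ker χ` -/
def fixedKer : Submodule (ZMod P) V where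
  carrier := {v | ∀ s ∈ χ.ker, ρ s v = v}
  add_mem' := fun {a b} ha hb s hs => by rw [map_add, ha s hs, hb s hs]
  zero_mem' := fun s _ => map_zero _
  smul_mem' := fun c a ha s hs => by rw [map_smul, ha s hs]

theorem mem_fixedKer (v : V) : v ∈ fixedKer ρ χ ↔ ∀ s ∈ χ.ker, ρ s v = v := Iff.rfl

theorem stable_fixedKer : Stable ρ (fixedKer ρ χ) := by
  intro g v hv s hs
  have hc : g⁻¹ * s * g ∈ χ.ker := by
    rw [MonoidHom.mem_ker] at hs ⊢
    rw [map_mul, map_mul, hs, mul_one, map_inv, inv_mul_cancel]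
  have := hv _ hc
  have h2 : ρ s (ρ g v) = ρ g (ρ (g⁻¹ * s * g) v) := by
    rw [← Module.End.mul_apply, ← Module.End.mul_apply, ← map_mul, ← map_mul]
    congr 2
    group
  rw [h2, this]

/-- **the fixed-point step**: a nontrivial finite `V` has a nonzero vector fixed by `ker χ` -/
theorem fixedKer_ne_bot [Finite V] [Nontrivial V] (h : EisRel ρ χ) : fixedKer ρ χ ≠ ⊥ := by
  classical
  -- the image of `ker χ` in the units of `End V`
  let φ : χ.ker →* (V →ₗ[ZMod P] V)ˣ := ρ.asGroupHom.comp χ.ker.subtype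
  let K : Subgroup (V →ₗ[ZMod P] V)ˣ := φ.range
  have hφ : ∀ (s : χ.ker) (v : V), ((φ s : (V →ₗ[ZMod P] V)ˣ) : V →ₗ[ZMod P] V) v = ρ s v :=
    fun s v => rfl
  have hK : IsPGroup P K := by
    rintro ⟨u, s, rfl⟩
    refine ⟨1, ?_⟩
    rw [pow_one]
    apply Subtype.ext
    apply Units.ext
    apply LinearMap.ext
    intro v
    show (((φ s) ^ P : (V →ₗ[ZMod P] V)ˣ) : V →ₗ[ZMod P] V) v = v
    rw [← map_pow, hφ]
    have := pow_prime_apply_of_mem_ker ρ χ h s.2 v
    simpa using this
  have hcard : P ∣ Nat.card V := by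
    have hfr : 0 < Module.finrank (ZMod P) V := Module.finrank_pos
    rw [Module.natCard_eq_pow_finrank (K := ZMod P) (V := V), Nat.card_zmod]
    exact dvd_pow_self P hfr.ne'
  have h0 : (0 : V) ∈ MulAction.fixedPoints K V := by
    intro u
    rw [Subgroup.smul_def, Units.smul_def, Module.End.smul_def, map_zero]
  obtain ⟨b, hb, hb0⟩ := hK.exists_fixed_point_of_prime_dvd_card_of_fixed_point V hcard h0
  intro hbot
  apply hb0
  symm
  have : b ∈ fixedKer ρ χ := by
    intro s hs
    have := hb ⟨φ ⟨s, hs⟩, ⟨s, hs⟩, rfl⟩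
    rw [Subgroup.smul_def, Units.smul_def, Module.End.smul_def] at this
    exact this
  rw [hbot] at this
  exact (Submodule.mem_bot _).1 this

variable (hirr : ∀ N : Submodule (ZMod P) V, Stable ρ N → N = ⊥ ∨ N = ⊤)

include hirr in
/-- on an irreducible `V` the kernel of `χ` acts trivially -/
theorem apply_eq_of_mem_ker [Finite V] [Nontrivial V] (h : EisRel ρ χ) {s : G} (hs : s ∈ χ.ker)
    (v : V) : ρ s v = v := by
  rcases hirr _ (stable_fixedKer ρ χ) with h1 | h1
  · exact absurd h1 (fixedKer_ne_bot ρ χ h)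
  · have : v ∈ fixedKer ρ χ := by rw [h1]; trivial
    exact this s hs

include hirr in
/-- on an irreducible `V` the operators commute -/
theorem apply_comm [Finite V] [Nontrivial V] (h : EisRel ρ χ) (s t : G) (v : V) :
    ρ s (ρ t v) = ρ t (ρ s v) := by
  have hc : s * t * (t * s)⁻¹ ∈ χ.ker := by
    rw [MonoidHom.mem_ker, map_mul, map_mul, map_inv, map_mul]
    rw [mul_comm (χ t) (χ s), mul_inv_cancel]
  have h1 := apply_eq_of_mem_ker ρ χ hirr h hc (ρ (t * s) v)
  rw [← Module.End.mul_apply, ← map_mul] at h1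
  have h2 : s * t * (t * s)⁻¹ * (t * s) = s * t := by group
  rw [h2] at h1
  rw [← Module.End.mul_apply, ← Module.End.mul_apply, ← map_mul, ← map_mul]
  exact h1

include hirr in
/-- on an irreducible `V` every `ρ s` is the scalar `1` or the scalar `χ s` -/
theorem scalar_dichotomy [Finite V] [Nontrivial V] (h : EisRel ρ χ) (s : G) :
    (∀ v, ρ s v = v) ∨ (∀ v, ρ s v = ((χ s : (ZMod P)ˣ) : ZMod P) • v) := by
  -- the stable subspace `ker (ρ s - 1)`
  let N : Submodule (ZMod P) V := LinearMap.ker (ρ s - 1)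
  have hN : Stable ρ N := by
    intro t v hv
    rw [LinearMap.mem_ker, LinearMap.sub_apply, Module.End.one_apply, sub_eq_zero] at hv ⊢
    rw [apply_comm ρ χ hirr h s t v, hv]
  rcases hirr N hN with h1 | h1
  · right
    intro v
    have hv : ρ s v - ((χ s : (ZMod P)ˣ) : ZMod P) • v ∈ N := by
      rw [LinearMap.mem_ker, LinearMap.sub_apply, Module.End.one_apply, map_sub, map_smul]
      have := h s v
      rw [← this]
      rw [add_smul, one_smul]
      abel
    rw [h1, Submodule.mem_bot, sub_eq_zero] at hv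
    exact hv
  · left
    intro v
    have : v ∈ N := by rw [h1]; trivial
    rw [LinearMap.mem_ker, LinearMap.sub_apply, Module.End.one_apply, sub_eq_zero] at this
    exact this

include hirr in
/-- **(G-jh), irreducible form.**  On a finite irreducible `V` with the pointwise relation, `G`
acts trivially or through `χ`. -/
theorem trivial_or_chi_of_irreducible [Finite V] [Nontrivial V] (h : EisRel ρ χ) :
    (∀ s v, ρ s v = v) ∨ (∀ s v, ρ s v = ((χ s : (ZMod P)ˣ) : ZMod P) • v) := by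
  by_contra hcon
  rw [not_or] at hcon
  obtain ⟨h1, h2⟩ := hcon
  push Not at h1 h2
  obtain ⟨s, vs, hs⟩ := h1
  obtain ⟨t, vt, ht⟩ := h2
  -- `ρ s = χ s`, `ρ t = 1`
  have hs' : ∀ v, ρ s v = ((χ s : (ZMod P)ˣ) : ZMod P) • v := by
    rcases scalar_dichotomy ρ χ hirr h s with h3 | h3
    · exact absurd (h3 vs) hs
    · exact h3
  have ht' : ∀ v, ρ t v = v := by
    rcases scalar_dichotomy ρ χ hirr h t with h3 | h3
    · exact h3
    · exact absurd (h3 vt) ht
  have hst : ∀ v, ρ (s * t) v = ((χ s : (ZMod P)ˣ) : ZMod P) • v := by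
    intro v
    rw [map_mul, Module.End.mul_apply, ht', hs']
  rcases scalar_dichotomy ρ χ hirr h (s * t) with h3 | h3
  · -- `χ s • v = v`, so `ρ s v = v`
    apply hs
    rw [hs', ← hst, h3]
  · -- `χ s • v = χ s χ t • v`, so `v = χ t • v`
    apply ht
    have h4 := h3 vt
    rw [hst, map_mul, Units.val_mul, mul_smul] at h4
    have h5 : vt = ((χ t : (ZMod P)ˣ) : ZMod P) • vt :=
      (Units.isUnit (χ s)).smul_left_cancel.1 h4
    rw [ht']
    exact h5

end Irred

/-! ### Subquotients -/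

section Subquotient

variable (ρ : Representation (ZMod P) G V) (χ : G →* (ZMod P)ˣ)

/-- **(G-jh), subquotient form.**  `U' < U` stable with no stable subspace strictly between: then
`G` acts on `U / U'` trivially or through `χ`. -/
theorem trivial_or_chi_of_simple_subquotient [Finite V] (h : EisRel ρ χ)
    (U' U : Submodule (ZMod P) V) (hU' : Stable ρ U') (hU : Stable ρ U) (hle : U' ≤ U)
    (hne : U' ≠ U)
    (hsimple : ∀ W : Submodule (ZMod P) V, Stable ρ W → U' ≤ W → W ≤ U → W = U' ∨ W = U) :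
    (∀ s, ∀ u ∈ U, ρ s u - u ∈ U') ∨
      (∀ s, ∀ u ∈ U, ρ s u - ((χ s : (ZMod P)ˣ) : ZMod P) • u ∈ U') := by
  -- the representation on `U`
  let ρU : Representation (ZMod P) G U := ρ.subrepresentation U (fun g v hv => hU g v hv)
  -- `U'` inside `U`
  let U'' : Submodule (ZMod P) U := U'.comap U.subtype
  have hU'' : ∀ g, U'' ≤ U''.comap (ρU g) := by
    intro g v hv
    exact hU' g _ hv
  let ρQ : Representation (ZMod P) G (U ⧸ U'') := ρU.quotient U'' hU''
  have hρQ : ∀ (s : G) (u : U), ρQ s (Submodule.Quotient.mk u) =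
      Submodule.Quotient.mk (⟨ρ s u, hU s u u.2⟩ : U) := fun s u => rfl
  have hrelQ : EisRel ρQ χ := by
    intro s q
    obtain ⟨u, rfl⟩ := Submodule.Quotient.mk_surjective _ q
    rw [hρQ, hρQ, ← Submodule.Quotient.mk_smul, ← Submodule.Quotient.mk_smul,
      ← Submodule.Quotient.mk_sub, ← Submodule.Quotient.mk_add]
    have : (⟨ρ s (ρ s u), hU s _ (hU s u u.2)⟩ : U) -
        (((χ s : (ZMod P)ˣ) : ZMod P) + 1) • (⟨ρ s u, hU s u u.2⟩ : U) +
        ((χ s : (ZMod P)ˣ) : ZMod P) • u = 0 := by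
      apply Subtype.ext
      simpa using h s u
    rw [this, Submodule.Quotient.mk_zero]
  have : Nontrivial (U ⧸ U'') := by
    rw [Submodule.Quotient.nontrivial_iff]
    intro htop
    apply hne
    apply le_antisymm hle
    intro u hu
    have : (⟨u, hu⟩ : U) ∈ U'' := by rw [htop]; trivial
    exact this
  have hirrQ : ∀ N : Submodule (ZMod P) (U ⧸ U''), Stable ρQ N → N = ⊥ ∨ N = ⊤ := by
    intro N hN
    -- pull back to `V`
    let W : Submodule (ZMod P) V := (N.comap U''.mkQ).map U.subtype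
    have hWst : Stable ρ W := by
      rintro s _ ⟨u, hu, rfl⟩
      refine ⟨⟨ρ s u, hU s u u.2⟩, ?_, rfl⟩
      have : U''.mkQ u ∈ N := hu
      have h2 := hN s _ this
      exact h2
    have hW1 : U' ≤ W := by
      intro v hv
      refine ⟨⟨v, hle hv⟩, ?_, rfl⟩
      have : U''.mkQ (⟨v, hle hv⟩ : U) = 0 := by
        rw [Submodule.mkQ_apply, Submodule.Quotient.mk_eq_zero]
        exact hv
      show U''.mkQ (⟨v, hle hv⟩ : U) ∈ N
      rw [this]; exact N.zero_mem
    have hW2 : W ≤ U := by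
      rintro _ ⟨u, _, rfl⟩
      exact u.2
    rcases hsimple W hWst hW1 hW2 with h1 | h1
    · left
      rw [eq_bot_iff]
      intro q hq
      obtain ⟨u, rfl⟩ := Submodule.Quotient.mk_surjective _ q
      have : (u : V) ∈ W := ⟨u, hq, rfl⟩
      rw [h1] at this
      rw [Submodule.mem_bot, Submodule.Quotient.mk_eq_zero]
      exact this
    · right
      rw [eq_top_iff]
      intro q _
      obtain ⟨u, rfl⟩ := Submodule.Quotient.mk_surjective _ q
      have : (u : V) ∈ W := by rw [h1]; exact u.2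
      obtain ⟨u', hu', hu'u⟩ := this
      have : u' = u := Subtype.ext hu'u
      rw [← this]
      exact hu'
  have : Finite U := Finite.of_injective (fun u : U => (u : V)) Subtype.val_injective
  have : Finite (U ⧸ U'') := Finite.of_surjective _ (Submodule.Quotient.mk_surjective U'')
  rcases trivial_or_chi_of_irreducible ρQ χ hirrQ hrelQ with h1 | h1
  · left
    intro s u hu
    have := h1 s (Submodule.Quotient.mk (⟨u, hu⟩ : U))
    rw [hρQ, Submodule.Quotient.eq] at this
    exact this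
  · right
    intro s u hu
    have := h1 s (Submodule.Quotient.mk (⟨u, hu⟩ : U))
    rw [hρQ, ← Submodule.Quotient.mk_smul, Submodule.Quotient.eq] at this
    exact this

end Subquotient

/-! ### Transfer of the relation along powers -/

section Transfer

variable (ρ : Representation (ZMod P) G V) (χ : G →* (ZMod P)ˣ)

/-- the relation for one element as an identity of endomorphisms -/
theorem eisRel_iff_end (s : G) :
    (∀ v : V, ρ s (ρ s v) - (((χ s : (ZMod P)ˣ) : ZMod P) + 1) • ρ s v +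
      ((χ s : (ZMod P)ˣ) : ZMod P) • v = 0) ↔
    (ρ s - 1) * (ρ s - algebraMap (ZMod P) (Module.End (ZMod P) V) ((χ s : (ZMod P)ˣ) : ZMod P))
      = 0 := by
  constructor
  · intro h
    apply LinearMap.ext
    intro v
    have := h v
    simp only [Module.End.mul_apply, LinearMap.sub_apply, Module.End.one_apply,
      Module.algebraMap_end_apply, map_sub, map_smul, LinearMap.zero_apply, smul_sub]
    rw [← this, add_smul, one_smul]
    abel
  · intro h v
    have := LinearMap.congr_fun h v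
    simp only [Module.End.mul_apply, LinearMap.sub_apply, Module.End.one_apply,
      Module.algebraMap_end_apply, map_sub, map_smul, LinearMap.zero_apply, smul_sub] at this
    rw [← this, add_smul, one_smul]
    abel

open Polynomial in
/-- if `(F - 1)(F - c) = 0` then `(F ^ j - 1)(F ^ j - c ^ j) = 0` -/
theorem pow_rel_of_rel (F : Module.End (ZMod P) V) (c : ZMod P)
    (h : (F - 1) * (F - algebraMap (ZMod P) (Module.End (ZMod P) V) c) = 0) (j : ℕ) :
    (F ^ j - 1) * (F ^ j - algebraMap (ZMod P) (Module.End (ZMod P) V) (c ^ j)) = 0 := by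
  have h1 : (X - 1 : (ZMod P)[X]) ∣ X ^ j - 1 := by
    simpa using sub_dvd_pow_sub_pow (X : (ZMod P)[X]) 1 j
  have h2 : (X - C c : (ZMod P)[X]) ∣ X ^ j - C (c ^ j) := by
    simpa using sub_dvd_pow_sub_pow (X : (ZMod P)[X]) (C c) j
  obtain ⟨a, ha⟩ := h1
  obtain ⟨b, hb⟩ := h2
  have e1 : F ^ j - 1 = aeval F (X ^ j - 1 : (ZMod P)[X]) := by simp
  have e2 : F ^ j - algebraMap (ZMod P) (Module.End (ZMod P) V) (c ^ j) =
      aeval F (X ^ j - C (c ^ j) : (ZMod P)[X]) := by simp
  have e3 : (F - 1) * (F - algebraMap (ZMod P) (Module.End (ZMod P) V) c) =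
      aeval F ((X - 1) * (X - C c) : (ZMod P)[X]) := by simp
  rw [e1, e2, ← map_mul, ha, hb]
  have : (X - 1) * a * ((X - C c) * b) = ((X - 1) * (X - C c)) * (a * b) := by ring
  rw [this, map_mul, ← e3, h, zero_mul]

/-- **transfer**: if every `s` is, up to conjugation, a power of an element satisfying the
relation (the division form of Chebotarev), then every `s` satisfies the relation. -/
theorem eisRel_of_pow
    (hpow : ∀ s : G, ∃ (f τ : G) (j : ℕ),
      (∀ v : V, ρ f (ρ f v) - (((χ f : (ZMod P)ˣ) : ZMod P) + 1) • ρ f v +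
        ((χ f : (ZMod P)ˣ) : ZMod P) • v = 0) ∧
      ρ (τ * s * τ⁻¹) = ρ f ^ j ∧ χ s = χ f ^ j) :
    EisRel ρ χ := by
  intro s
  obtain ⟨f, τ, j, hf, hρ, hχ⟩ := hpow s
  rw [eisRel_iff_end] at hf
  have h1 := pow_rel_of_rel (ρ f) _ hf j
  rw [← hρ] at h1
  have hχ' : (((χ f : (ZMod P)ˣ) : ZMod P)) ^ j = ((χ s : (ZMod P)ˣ) : ZMod P) := by
    rw [hχ, Units.val_pow_eq_pow_val]
  rw [hχ'] at h1
  -- conjugate back
  have hconj : ρ s = ρ τ⁻¹ * ρ (τ * s * τ⁻¹) * ρ τ := by
    rw [← map_mul, ← map_mul]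
    congr 1
    group
  have key : (ρ s - 1) * (ρ s - algebraMap (ZMod P) (Module.End (ZMod P) V)
      ((χ s : (ZMod P)ˣ) : ZMod P)) =
      ρ τ⁻¹ * ((ρ (τ * s * τ⁻¹) - 1) * (ρ (τ * s * τ⁻¹) -
        algebraMap (ZMod P) (Module.End (ZMod P) V) ((χ s : (ZMod P)ˣ) : ZMod P))) * ρ τ := by
    have hinv : ρ τ * ρ τ⁻¹ = 1 := by rw [← map_mul, mul_inv_cancel, map_one]
    have hinv' : ρ τ⁻¹ * ρ τ = 1 := by rw [← map_mul, inv_mul_cancel, map_one]
    have hcomm : ∀ A : Module.End (ZMod P) V,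
        algebraMap (ZMod P) (Module.End (ZMod P) V) ((χ s : (ZMod P)ˣ) : ZMod P) * A =
        A * algebraMap (ZMod P) (Module.End (ZMod P) V) ((χ s : (ZMod P)ˣ) : ZMod P) :=
      fun A => Algebra.commutes _ A
    have e1 : ρ s - 1 = ρ τ⁻¹ * (ρ (τ * s * τ⁻¹) - 1) * ρ τ := by
      rw [mul_sub, sub_mul, mul_one, hinv', ← hconj]
    have e2 : ρ s - algebraMap (ZMod P) (Module.End (ZMod P) V) ((χ s : (ZMod P)ˣ) : ZMod P) =
        ρ τ⁻¹ * (ρ (τ * s * τ⁻¹) -
          algebraMap (ZMod P) (Module.End (ZMod P) V) ((χ s : (ZMod P)ˣ) : ZMod P)) * ρ τ := by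
      rw [mul_sub, sub_mul, ← hconj, ← hcomm, mul_assoc, hinv', mul_one]
    rw [e1, e2]
    calc ρ τ⁻¹ * (ρ (τ * s * τ⁻¹) - 1) * ρ τ * (ρ τ⁻¹ * (ρ (τ * s * τ⁻¹) -
          algebraMap (ZMod P) (Module.End (ZMod P) V) ((χ s : (ZMod P)ˣ) : ZMod P)) * ρ τ)
        = ρ τ⁻¹ * (ρ (τ * s * τ⁻¹) - 1) * (ρ τ * ρ τ⁻¹) * (ρ (τ * s * τ⁻¹) -
          algebraMap (ZMod P) (Module.End (ZMod P) V) ((χ s : (ZMod P)ˣ) : ZMod P)) * ρ τ := by
          simp only [mul_assoc]
      _ = _ := by rw [hinv, mul_one]; simp only [mul_assoc]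
  have := (eisRel_iff_end ρ χ s).2 (by rw [key, h1, mul_zero, zero_mul])
  exact this

end Transfer

end Fermat.Agent.S15.G.Constituents
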