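import Mathlib
import Fermat.Agent.S15.G.Constituents

/-!
# PROJECT M (S15), block [D], leaf (L4): a labelled flag from a coarse filtration

`A` a finite module over `k` (acting through integers: `k = ℤ` or `ZMod (P ^ j)`), `ρ` a
representation of `G` on `A`, `χ : G →* (ZMod P)ˣ` with an integral lift `e : G → ℕ`.  Given a
coarse stable filtration `⊥ = C 0, …, C r = ⊤` whose layers are killed by `P` and satisfy the
pointwise relation `(ρ s - 1) (ρ s - e s) = 0`, we refine it to a flag `⊥ = F 0 ≤ … ≤ F n = ⊤` of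
stable submodules with layers of order `P` on which `G` acts trivially or through `χ`, each layer
labelled by its position relative to a fixed submodule `A0`.  `P = 2` is included.
-/

set_option autoImplicit false

namespace Fermat.Agent.S15.G.Flag

open Fermat.Agent.S15.G.Constituents

variable {P : ℕ} [Fact P.Prime] {k : Type*} [CommRing k] {G : Type*} [Group G]

/-! ### One simple piece -/

section Piece

variable {Q : Type*} [AddCommGroup Q] [Module k Q]

/-- A finite nontrivial `k[G]`-module killed by `P`, with the pointwise relation and no proper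
stable submodule, has order `P`, and `G` acts trivially or through `χ`. -/
theorem dichotomy_of_irreducible [Finite Q] [Nontrivial Q] (σ : Representation k G Q)
    (χ : G →* (ZMod P)ˣ) (e : G → ℕ)
    (he : ∀ s, ((e s : ℕ) : ZMod P) = ((χ s : (ZMod P)ˣ) : ZMod P))
    (hk : ∀ (c : k) (q : Q), ∃ n : ℤ, c • q = n • q)
    (hP : ∀ q : Q, P • q = 0)
    (hrel : ∀ s q, σ s (σ s q) - (e s + 1) • σ s q + e s • q = 0)
    (hirr : ∀ N : Submodule k Q, (∀ s, ∀ q ∈ N, σ s q ∈ N) → N = ⊥ ∨ N = ⊤) :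
    ((∀ s q, σ s q = q) ∨ (∀ s q, σ s q = e s • q)) ∧ Nat.card Q = P := by
  have inst : Module (ZMod P) Q := AddCommGroup.zmodModule hP
  let f : G → Module.End (ZMod P) Q := fun s => (σ s).toAddMonoidHom.toZModLinearMap P
  have f1 : f 1 = 1 := by
    apply LinearMap.ext
    intro q
    show σ 1 q = q
    rw [map_one, Module.End.one_apply]
  have fmul : ∀ s t, f (s * t) = f s * f t := by
    intro s t
    apply LinearMap.ext
    intro q
    show σ (s * t) q = σ s (σ t q)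
    rw [map_mul, Module.End.mul_apply]
  let σ' : Representation (ZMod P) G Q := ⟨⟨f, f1⟩, fmul⟩
  have hσ' : ∀ s q, σ' s q = σ s q := fun _ _ => rfl
  have hsm : ∀ (s : G) (q : Q), ((χ s : (ZMod P)ˣ) : ZMod P) • q = e s • q := by
    intro s q
    rw [← he, Nat.cast_smul_eq_nsmul]
  have hsm1 : ∀ (s : G) (q : Q), (((χ s : (ZMod P)ˣ) : ZMod P) + 1) • q = (e s + 1) • q := by
    intro s q
    rw [add_smul, add_smul, hsm, one_smul, one_smul]
  have hrel' : EisRel σ' χ := by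
    intro s q
    rw [hσ', hσ', hsm, hsm1]
    exact hrel s q
  have hirr' : ∀ N : Submodule (ZMod P) Q, Stable σ' N → N = ⊥ ∨ N = ⊤ := by
    intro N hN
    let N' : Submodule k Q :=
      { carrier := N
        add_mem' := fun ha hb => N.add_mem ha hb
        zero_mem' := N.zero_mem
        smul_mem' := fun c q hq => by
          obtain ⟨n, hn⟩ := hk c q
          rw [hn]
          exact N.toAddSubgroup.zsmul_mem hq n }
    have hmem : ∀ q, q ∈ N' ↔ q ∈ N := fun _ => Iff.rfl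
    rcases hirr N' (fun s q hq => hN s q hq) with h1 | h1
    · left
      rw [eq_bot_iff]
      intro q hq
      have : q ∈ N' := hq
      rw [h1] at this
      exact this
    · right
      rw [eq_top_iff]
      intro q _
      have : q ∈ N' := by rw [h1]; trivial
      exact this
  have hdich := trivial_or_chi_of_irreducible σ' χ hirr' hrel'
  refine ⟨?_, ?_⟩
  · rcases hdich with h1 | h1
    · left
      intro s q
      exact h1 s q
    · right
      intro s q
      rw [← hsm]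
      exact h1 s q
  · -- every subspace is stable, so `Q` is a line
    obtain ⟨q, hq⟩ := exists_ne (0 : Q)
    have hspan : ∀ w : Q, ∃ c : ZMod P, c • q = w := by
      intro w
      have hst : Stable σ' (Submodule.span (ZMod P) {q}) := by
        intro s x hx
        rcases hdich with h1 | h1
        · rw [h1]; exact hx
        · rw [h1]; exact Submodule.smul_mem _ _ hx
      rcases hirr' _ hst with h1 | h1
      · exfalso
        apply hq
        have : q ∈ Submodule.span (ZMod P) {q} := Submodule.mem_span_singleton_self q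
        rw [h1] at this
        exact this
      · have : w ∈ Submodule.span (ZMod P) {q} := by rw [h1]; trivial
        exact Submodule.mem_span_singleton.1 this
    have hfr : Module.finrank (ZMod P) Q = 1 := (finrank_eq_one_iff_of_nonzero' q hq).2 hspan
    rw [Module.natCard_eq_pow_finrank (K := ZMod P) (V := Q), hfr, pow_one, Nat.card_zmod]

end Piece

/-! ### A simple subquotient -/

section Sub

variable {A : Type*} [AddCommGroup A] [Module k A]

/-- `W < U` stable with no stable submodule strictly between, `P • U ≤ W` and the pointwise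
relation on `U` landing in `W`: then `U / W` has order `P` and `G` acts on it trivially or
through `χ`. -/
theorem piece_of_simple [Finite A] (ρ : Representation k G A) (χ : G →* (ZMod P)ˣ) (e : G → ℕ)
    (he : ∀ s, ((e s : ℕ) : ZMod P) = ((χ s : (ZMod P)ˣ) : ZMod P))
    (hk : ∀ (c : k) (a : A), ∃ n : ℤ, c • a = n • a)
    (W U : Submodule k A) (hW : ∀ s, ∀ u ∈ W, ρ s u ∈ W) (hU : ∀ s, ∀ u ∈ U, ρ s u ∈ U)
    (hle : W ≤ U) (hne : W ≠ U)
    (hsimple : ∀ X : Submodule k A, (∀ s, ∀ u ∈ X, ρ s u ∈ X) → W ≤ X → X ≤ U → X = W ∨ X = U)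
    (hPU : ∀ u ∈ U, P • u ∈ W)
    (hrelU : ∀ s, ∀ u ∈ U, ρ s (ρ s u) - (e s + 1) • ρ s u + e s • u ∈ W) :
    ((∀ s, ∀ u ∈ U, ρ s u - u ∈ W) ∨ (∀ s, ∀ u ∈ U, ρ s u - e s • u ∈ W)) ∧
      Nat.card U = P * Nat.card W := by
  -- the representation on `U`
  let ρU : Representation k G U := ρ.subrepresentation U (fun g v hv => hU g v hv)
  -- `W` inside `U`
  let W' : Submodule k U := W.comap U.subtype
  have hW' : ∀ g, W' ≤ W'.comap (ρU g) := by
    intro g v hv
    exact hW g _ hv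
  let ρQ : Representation k G (U ⧸ W') := ρU.quotient W' hW'
  have hρQ : ∀ (s : G) (u : U), ρQ s (Submodule.Quotient.mk u) =
      Submodule.Quotient.mk (⟨ρ s u, hU s u u.2⟩ : U) := fun s u => rfl
  have hkQ : ∀ (c : k) (q : U ⧸ W'), ∃ n : ℤ, c • q = n • q := by
    intro c q
    obtain ⟨u, rfl⟩ := Submodule.Quotient.mk_surjective _ q
    obtain ⟨n, hn⟩ := hk c (u : A)
    refine ⟨n, ?_⟩
    have : c • u = n • u := by
      apply Subtype.ext
      rw [Submodule.coe_smul, AddSubgroupClass.coe_zsmul]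
      exact hn
    rw [← Submodule.Quotient.mk_smul, this, Submodule.Quotient.mk_smul]
  have hPQ : ∀ q : U ⧸ W', P • q = 0 := by
    intro q
    obtain ⟨u, rfl⟩ := Submodule.Quotient.mk_surjective _ q
    rw [← Submodule.Quotient.mk_smul, Submodule.Quotient.mk_eq_zero]
    show ((P • u : U) : A) ∈ W
    rw [AddSubmonoidClass.coe_nsmul]
    exact hPU u u.2
  have hrelQ : ∀ s (q : U ⧸ W'), ρQ s (ρQ s q) - (e s + 1) • ρQ s q + e s • q = 0 := by
    intro s q
    obtain ⟨u, rfl⟩ := Submodule.Quotient.mk_surjective _ q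
    rw [hρQ, hρQ, ← Submodule.Quotient.mk_smul, ← Submodule.Quotient.mk_smul,
      ← Submodule.Quotient.mk_sub, ← Submodule.Quotient.mk_add, Submodule.Quotient.mk_eq_zero]
    show (((⟨ρ s (ρ s u), hU s _ (hU s u u.2)⟩ : U) -
        (e s + 1) • (⟨ρ s u, hU s u u.2⟩ : U) + e s • u : U) : A) ∈ W
    have := hrelU s u u.2
    simpa using this
  have hnt : Nontrivial (U ⧸ W') := by
    rw [Submodule.Quotient.nontrivial_iff]
    intro htop
    apply hne
    apply le_antisymm hle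
    intro u hu
    have : (⟨u, hu⟩ : U) ∈ W' := by rw [htop]; trivial
    exact this
  have hirrQ : ∀ N : Submodule k (U ⧸ W'), (∀ s, ∀ q ∈ N, ρQ s q ∈ N) → N = ⊥ ∨ N = ⊤ := by
    intro N hN
    -- pull back to `A`
    let X : Submodule k A := (N.comap W'.mkQ).map U.subtype
    have hXst : ∀ s, ∀ u ∈ X, ρ s u ∈ X := by
      rintro s _ ⟨u, hu, rfl⟩
      refine ⟨⟨ρ s u, hU s u u.2⟩, ?_, rfl⟩
      have : W'.mkQ u ∈ N := hu
      have h2 := hN s _ this
      exact h2
    have hX1 : W ≤ X := by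
      intro v hv
      refine ⟨⟨v, hle hv⟩, ?_, rfl⟩
      have : W'.mkQ (⟨v, hle hv⟩ : U) = 0 := by
        rw [Submodule.mkQ_apply, Submodule.Quotient.mk_eq_zero]
        exact hv
      show W'.mkQ (⟨v, hle hv⟩ : U) ∈ N
      rw [this]; exact N.zero_mem
    have hX2 : X ≤ U := by
      rintro _ ⟨u, _, rfl⟩
      exact u.2
    rcases hsimple X hXst hX1 hX2 with h1 | h1
    · left
      rw [eq_bot_iff]
      intro q hq
      obtain ⟨u, rfl⟩ := Submodule.Quotient.mk_surjective _ q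
      have : (u : A) ∈ X := ⟨u, hq, rfl⟩
      rw [h1] at this
      rw [Submodule.mem_bot, Submodule.Quotient.mk_eq_zero]
      exact this
    · right
      rw [eq_top_iff]
      intro q _
      obtain ⟨u, rfl⟩ := Submodule.Quotient.mk_surjective _ q
      have : (u : A) ∈ X := by rw [h1]; exact u.2
      obtain ⟨u', hu', hu'u⟩ := this
      have : u' = u := Subtype.ext hu'u
      rw [← this]
      exact hu'
  have hfU : Finite U := Finite.of_injective (fun u : U => (u : A)) Subtype.val_injective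
  have hfQ : Finite (U ⧸ W') := Finite.of_surjective _ (Submodule.Quotient.mk_surjective W')
  obtain ⟨hd, hcard⟩ := dichotomy_of_irreducible ρQ χ e he hkQ hPQ hrelQ hirrQ
  refine ⟨?_, ?_⟩
  · rcases hd with h1 | h1
    · left
      intro s u hu
      have := h1 s (Submodule.Quotient.mk (⟨u, hu⟩ : U))
      rw [hρQ, Submodule.Quotient.eq] at this
      exact this
    · right
      intro s u hu
      have := h1 s (Submodule.Quotient.mk (⟨u, hu⟩ : U))
      rw [hρQ, ← Submodule.Quotient.mk_smul, Submodule.Quotient.eq] at this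
      have h2 : (((⟨ρ s u, hU s u hu⟩ : U) - e s • (⟨u, hu⟩ : U) : U) : A) ∈ W := this
      simpa using h2
  · rw [Submodule.card_eq_card_quotient_mul_card W', hcard,
      Nat.card_congr (Submodule.comapSubtypeEquivOfLe hle).toEquiv, mul_comm]

end Sub

/-! ### The refinement step -/

section Step

variable {A : Type*} [AddCommGroup A] [Module k A]

/-- an integer prime to `P` acts invertibly modulo a submodule containing `P • x` -/
theorem mem_of_zsmul_mem (W : Submodule k A) (x : A) (hP : P • x ∈ W) (m : ℤ)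
    (hm : (m : ZMod P) ≠ 0) (h : m • x ∈ W) : x ∈ W := by
  have hcop : IsCoprime (P : ℤ) m := by
    apply (Nat.prime_iff_prime_int.1 (Fact.out : P.Prime)).coprime_iff_not_dvd.2
    intro hd
    apply hm
    exact (ZMod.intCast_zmod_eq_zero_iff_dvd m P).2 hd
  obtain ⟨a, b, hab⟩ := hcop
  have : x = a • ((P : ℤ) • x) + b • (m • x) := by
    rw [smul_smul, smul_smul, ← add_smul, hab, one_smul]
  rw [this]
  apply W.add_mem
  · apply W.toAddSubgroup.zsmul_mem _ a
    rw [natCast_zsmul]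
    exact hP
  · exact W.toAddSubgroup.zsmul_mem h b

theorem eq_top_of_card_le [Finite A] (W : Submodule k A) (h : Nat.card A ≤ Nat.card W) :
    W = ⊤ := by
  have : (W : Set A) = Set.univ := by
    apply Set.eq_of_subset_of_ncard_le (Set.subset_univ _) _ (Set.toFinite _)
    rw [Set.ncard_univ]
    exact h
  exact SetLike.coe_injective (by simpa using this)

/-- **the refinement step**: above a stable `W ≠ ⊤` there is a stable `U` with `U / W` of order
`P`, killed by `P`, with trivial or `χ` action, and inside or transversal to `A0` modulo `W`. -/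
theorem exists_piece [Finite A] (ρ : Representation k G A) (χ : G →* (ZMod P)ˣ) (e : G → ℕ)
    (he : ∀ s, ((e s : ℕ) : ZMod P) = ((χ s : (ZMod P)ˣ) : ZMod P))
    (hk : ∀ (c : k) (a : A), ∃ n : ℤ, c • a = n • a)
    (r : ℕ) (C : ℕ → Submodule k A) (hC0 : C 0 = ⊥) (hCr : C r = ⊤)
    (hCP : ∀ i < r, ∀ u ∈ C (i + 1), P • u ∈ C i)
    (hCrel : ∀ i < r, ∀ s, ∀ u ∈ C (i + 1),
      ρ s (ρ s u) - (e s + 1) • ρ s u + e s • u ∈ C i)
    (hCst : ∀ i s, ∀ u ∈ C i, ρ s u ∈ C i)
    (A0 : Submodule k A)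
    (W : Submodule k A) (hW : ∀ s, ∀ u ∈ W, ρ s u ∈ W) (hWtop : W ≠ ⊤) :
    ∃ U : Submodule k A, (∀ s, ∀ u ∈ U, ρ s u ∈ U) ∧ W ≤ U ∧
      Nat.card U = P * Nat.card W ∧
      ((∀ s, ∀ u ∈ U, ρ s u - u ∈ W) ∨ (∀ s, ∀ u ∈ U, ρ s u - e s • u ∈ W)) ∧
      (U ⊓ A0 ≤ W ∨ U ≤ W ⊔ A0) ∧ (∀ u ∈ U, P • u ∈ W) := by
  classical
  -- the first coarse step not inside `W`
  have hex : ∃ i, ¬ C i ≤ W := ⟨r, by rw [hCr]; intro h; exact hWtop (top_le_iff.1 h)⟩
  obtain ⟨i, hi, hmin⟩ : ∃ i, ¬ C i ≤ W ∧ ∀ j < i, C j ≤ W :=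
    ⟨Nat.find hex, Nat.find_spec hex, fun j hj => not_not.1 (Nat.find_min hex hj)⟩
  have hi0 : i ≠ 0 := by
    intro h0
    apply hi
    rw [h0, hC0]
    exact bot_le
  have hir : i ≤ r := by
    by_contra hcon
    have := hmin r (by omega)
    rw [hCr] at this
    exact hWtop (top_le_iff.1 this)
  obtain ⟨j, rfl⟩ := Nat.exists_eq_succ_of_ne_zero hi0
  have hjW : C j ≤ W := hmin j (Nat.lt_succ_self j)
  have hjr : j < r := hir
  -- a minimal stable submodule strictly above `W` inside `W ⊔ C (j + 1)`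
  let T : Submodule k A := W ⊔ C (j + 1)
  let S : Set (Submodule k A) := {X | (∀ s, ∀ u ∈ X, ρ s u ∈ X) ∧ W < X ∧ X ≤ T}
  have hT : T ∈ S := by
    refine ⟨?_, ?_, le_rfl⟩
    · intro s u hu
      obtain ⟨w, hw, c, hc, rfl⟩ := Submodule.mem_sup.1 hu
      rw [map_add]
      exact Submodule.add_mem_sup (hW s w hw) (hCst _ s c hc)
    · apply lt_of_le_of_ne le_sup_left
      intro h
      apply hi
      have : C (j + 1) ≤ W ⊔ C (j + 1) := le_sup_right
      rw [← h] at this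
      exact this
  obtain ⟨U, hUS, hUmin⟩ := wellFounded_lt.has_min S ⟨T, hT⟩
  obtain ⟨hUst, hWU, hUT⟩ := hUS
  have hsimple : ∀ X : Submodule k A, (∀ s, ∀ u ∈ X, ρ s u ∈ X) → W ≤ X → X ≤ U →
      X = W ∨ X = U := by
    intro X hX h1 h2
    by_cases hXW : X = W
    · exact Or.inl hXW
    · right
      have hXS : X ∈ S := ⟨hX, lt_of_le_of_ne h1 (Ne.symm hXW), h2.trans hUT⟩
      exact eq_of_le_of_not_lt h2 (hUmin X hXS)
  have hPU : ∀ u ∈ U, P • u ∈ W := by
    intro u hu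
    obtain ⟨w, hw, c, hc, rfl⟩ := Submodule.mem_sup.1 (hUT hu)
    rw [smul_add]
    exact W.add_mem (nsmul_mem hw _) (hjW (hCP j hjr c hc))
  have hrelU : ∀ s, ∀ u ∈ U, ρ s (ρ s u) - (e s + 1) • ρ s u + e s • u ∈ W := by
    intro s u hu
    obtain ⟨w, hw, c, hc, rfl⟩ := Submodule.mem_sup.1 (hUT hu)
    have : ρ s (ρ s (w + c)) - (e s + 1) • ρ s (w + c) + e s • (w + c) =
        (ρ s (ρ s w) - (e s + 1) • ρ s w + e s • w) +
        (ρ s (ρ s c) - (e s + 1) • ρ s c + e s • c) := by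
      simp only [map_add, smul_add]
      abel
    rw [this]
    apply W.add_mem
    · exact W.add_mem (W.sub_mem (hW s _ (hW s w hw)) (nsmul_mem (hW s w hw) _)) (nsmul_mem hw _)
    · exact hjW (hCrel j hjr s c hc)
  obtain ⟨hd, hcard⟩ := piece_of_simple ρ χ e he hk W U hW hUst hWU.le hWU.ne hsimple hPU hrelU
  refine ⟨U, hUst, hWU.le, hcard, hd, ?_, hPU⟩
  -- the position relative to `A0`
  let X : Submodule k A := W ⊔ (U ⊓ A0)
  have hXU : X ≤ U := sup_le hWU.le inf_le_left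
  have hXst : ∀ s, ∀ u ∈ X, ρ s u ∈ X := by
    intro s x hx
    rcases hd with h1 | h1
    · have h2 : ρ s x - x ∈ X := (le_sup_left : W ≤ X) (h1 s x (hXU hx))
      have : ρ s x = (ρ s x - x) + x := by abel
      rw [this]
      exact X.add_mem h2 hx
    · have h2 : ρ s x - e s • x ∈ X := (le_sup_left : W ≤ X) (h1 s x (hXU hx))
      have : ρ s x = (ρ s x - e s • x) + e s • x := by abel
      rw [this]
      exact X.add_mem h2 (nsmul_mem hx _)
  rcases hsimple X hXst le_sup_left hXU with h1 | h1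
  · left
    rw [← h1]
    exact le_sup_right
  · right
    rw [← h1]
    exact sup_le_sup_left inf_le_right W

end Step

/-! ### The chain -/

section Chain

variable {A : Type*} [AddCommGroup A] [Module k A]

/-- prepend a term to a sequence -/
def shiftSeq (W : Submodule k A) (F : ℕ → Submodule k A) : ℕ → Submodule k A
  | 0 => W
  | (m + 1) => F m

theorem shiftSeq_zero (W : Submodule k A) (F : ℕ → Submodule k A) : shiftSeq W F 0 = W := rfl

theorem shiftSeq_succ (W : Submodule k A) (F : ℕ → Submodule k A) (m : ℕ) :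
    shiftSeq W F (m + 1) = F m := rfl

/-- iterate a step that multiplies the order by `P` until the top is reached -/
theorem chain_of_step [Finite A] (Stab : Submodule k A → Prop)
    (Good : Submodule k A → Submodule k A → Prop)
    (hstep : ∀ W, Stab W → W ≠ ⊤ →
      ∃ U, Stab U ∧ W ≤ U ∧ Nat.card U = P * Nat.card W ∧ Good W U)
    (htop : Stab ⊤) :
    ∀ (d : ℕ) (W : Submodule k A), Stab W → Nat.card A ≤ Nat.card W + d →
      ∃ n, ∃ F : ℕ → Submodule k A, F 0 = W ∧ F n = ⊤ ∧ (∀ m, F m ≤ F (m + 1)) ∧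
        (∀ m, Stab (F m)) ∧
        ∀ m < n, Nat.card (F (m + 1)) = P * Nat.card (F m) ∧ Good (F m) (F (m + 1)) := by
  have hbase : ∀ W : Submodule k A, W = ⊤ →
      ∃ n, ∃ F : ℕ → Submodule k A, F 0 = W ∧ F n = ⊤ ∧ (∀ m, F m ≤ F (m + 1)) ∧
        (∀ m, Stab (F m)) ∧
        ∀ m < n, Nat.card (F (m + 1)) = P * Nat.card (F m) ∧ Good (F m) (F (m + 1)) := by
    intro W hW
    exact ⟨0, fun _ => ⊤, hW.symm, rfl, fun _ => le_rfl, fun _ => htop,
      fun m hm => absurd hm (Nat.not_lt_zero m)⟩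
  intro d
  induction d with
  | zero =>
    intro W _ hcard
    exact hbase W (eq_top_of_card_le W hcard)
  | succ d ih =>
    intro W hW hcard
    by_cases hWtop : W = ⊤
    · exact hbase W hWtop
    · obtain ⟨U, hU, hWU, hcU, hg⟩ := hstep W hW hWtop
      have hpos : 0 < Nat.card W := Nat.card_pos
      have h2 : 2 * Nat.card W ≤ P * Nat.card W :=
        Nat.mul_le_mul_right _ (Fact.out : P.Prime).two_le
      obtain ⟨n, F, hF0, hFn, hmono, hstab, hpieces⟩ := ih U hU (by omega)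
      refine ⟨n + 1, shiftSeq W F, rfl, hFn, ?_, ?_, ?_⟩
      · intro m
        cases m with
        | zero => rw [shiftSeq_zero, shiftSeq_succ, hF0]; exact hWU
        | succ m => exact hmono m
      · intro m
        cases m with
        | zero => exact hW
        | succ m => exact hstab m
      · intro m hm
        cases m with
        | zero =>
          rw [shiftSeq_zero, shiftSeq_succ, hF0]
          exact ⟨hcU, hg⟩
        | succ m => exact hpieces m (by omega)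

end Chain

/-! ### The labelled flag -/

section Main

variable {A : Type*} [AddCommGroup A] [Module k A]

/-- an exponent congruent to `1` acts trivially modulo a submodule containing `P • u` -/
theorem nsmul_sub_mem (W : Submodule k A) (u : A) (hP : P • u ∈ W) (e : ℕ)
    (h1 : ((e : ℕ) : ZMod P) = 1) : e • u - u ∈ W := by
  have hd : (P : ℤ) ∣ (e : ℤ) - 1 := by
    rw [← ZMod.intCast_zmod_eq_zero_iff_dvd]
    push_cast
    rw [h1, sub_self]
  obtain ⟨t, ht⟩ := hd
  have : e • u - u = t • ((P : ℤ) • u) := by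
    rw [smul_smul, mul_comm, ← ht, sub_smul, one_smul, natCast_zsmul]
  rw [this, natCast_zsmul]
  exact W.toAddSubgroup.zsmul_mem hP t

/-- **(L4), unlabelled form**: the flag with the type (trivial / `χ`) and the position (transversal
to / inside `A0`) of each layer recorded independently. -/
theorem exists_flag_raw [Finite A] (ρ : Representation k G A) (χ : G →* (ZMod P)ˣ) (e : G → ℕ)
    (he : ∀ s, ((e s : ℕ) : ZMod P) = ((χ s : (ZMod P)ˣ) : ZMod P))
    (hk : ∀ (c : k) (a : A), ∃ n : ℤ, c • a = n • a)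
    (r : ℕ) (C : ℕ → Submodule k A) (hC0 : C 0 = ⊥) (hCr : C r = ⊤)
    (hCP : ∀ i < r, ∀ u ∈ C (i + 1), P • u ∈ C i)
    (hCrel : ∀ i < r, ∀ s, ∀ u ∈ C (i + 1),
      ρ s (ρ s u) - (e s + 1) • ρ s u + e s • u ∈ C i)
    (hCst : ∀ i s, ∀ u ∈ C i, ρ s u ∈ C i)
    (A0 : Submodule k A) :
    ∃ n, ∃ F : ℕ → Submodule k A, F 0 = ⊥ ∧ F n = ⊤ ∧ (∀ m, F m ≤ F (m + 1)) ∧
      (∀ m s, ∀ u ∈ F m, ρ s u ∈ F m) ∧
      ∀ m < n, Nat.card (F (m + 1)) = P * Nat.card (F m) ∧
        ((∀ s, ∀ u ∈ F (m + 1), ρ s u - u ∈ F m) ∨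
          (∀ s, ∀ u ∈ F (m + 1), ρ s u - e s • u ∈ F m)) ∧
        (F (m + 1) ⊓ A0 ≤ F m ∨ F (m + 1) ≤ F m ⊔ A0) ∧ (∀ u ∈ F (m + 1), P • u ∈ F m) := by
  have hstep : ∀ W : Submodule k A, (∀ s, ∀ u ∈ W, ρ s u ∈ W) → W ≠ ⊤ →
      ∃ U : Submodule k A, (∀ s, ∀ u ∈ U, ρ s u ∈ U) ∧ W ≤ U ∧ Nat.card U = P * Nat.card W ∧
        (((∀ s, ∀ u ∈ U, ρ s u - u ∈ W) ∨ (∀ s, ∀ u ∈ U, ρ s u - e s • u ∈ W)) ∧
          (U ⊓ A0 ≤ W ∨ U ≤ W ⊔ A0) ∧ (∀ u ∈ U, P • u ∈ W)) := by
    intro W hW hWtop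
    obtain ⟨U, h1, h2, h3, h4, h5, h6⟩ :=
      exists_piece ρ χ e he hk r C hC0 hCr hCP hCrel hCst A0 W hW hWtop
    exact ⟨U, h1, h2, h3, h4, h5, h6⟩
  have hbot : ∀ s, ∀ u ∈ (⊥ : Submodule k A), ρ s u ∈ (⊥ : Submodule k A) := by
    intro s u hu
    rw [Submodule.mem_bot] at hu ⊢
    rw [hu, map_zero]
  obtain ⟨n, F, hF0, hFn, hmono, hstab, hpieces⟩ :=
    chain_of_step (P := P) (fun W : Submodule k A => ∀ s, ∀ u ∈ W, ρ s u ∈ W)
      (fun W U => ((∀ s, ∀ u ∈ U, ρ s u - u ∈ W) ∨ (∀ s, ∀ u ∈ U, ρ s u - e s • u ∈ W)) ∧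
          (U ⊓ A0 ≤ W ∨ U ≤ W ⊔ A0) ∧ (∀ u ∈ U, P • u ∈ W))
      hstep (fun _ _ _ => Submodule.mem_top) (Nat.card A) ⊥ hbot (Nat.le_add_left _ _)
  exact ⟨n, F, hF0, hFn, hmono, hstab, hpieces⟩

/-- **(L4)**: the labelled flag in the shape of the `hflag` hypothesis of the descent ([D],
board #4592).  The labels are matched with the types either because `χ` is trivial (`P = 2`) or
by one element `s₀` with `χ s₀ ≠ 1` acting trivially on `A / A0` and by integers lifting `χ s₀`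
on `A0`. -/
theorem exists_flag [Finite A] (ρ : Representation k G A) (χ : G →* (ZMod P)ˣ) (e : G → ℕ)
    (he : ∀ s, ((e s : ℕ) : ZMod P) = ((χ s : (ZMod P)ˣ) : ZMod P))
    (hk : ∀ (c : k) (a : A), ∃ n : ℤ, c • a = n • a)
    (r : ℕ) (C : ℕ → Submodule k A) (hC0 : C 0 = ⊥) (hCr : C r = ⊤)
    (hCP : ∀ i < r, ∀ u ∈ C (i + 1), P • u ∈ C i)
    (hCrel : ∀ i < r, ∀ s, ∀ u ∈ C (i + 1),
      ρ s (ρ s u) - (e s + 1) • ρ s u + e s • u ∈ C i)
    (hCst : ∀ i s, ∀ u ∈ C i, ρ s u ∈ C i)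
    (A0 : Submodule k A)
    (hlab : (∀ s, χ s = 1) ∨ ∃ s₀ : G, χ s₀ ≠ 1 ∧ (∀ x, ρ s₀ x - x ∈ A0) ∧
      ∀ x ∈ A0, ∃ n : ℤ, ((n : ℤ) : ZMod P) = ((χ s₀ : (ZMod P)ˣ) : ZMod P) ∧ ρ s₀ x = n • x) :
    ∃ n, ∃ F : ℕ → Submodule k A, F 0 = ⊥ ∧ F n = ⊤ ∧ (∀ m, F m ≤ F (m + 1)) ∧
      (∀ m s, ∀ u ∈ F m, ρ s u ∈ F m) ∧
      ∀ m < n, Nat.card (F (m + 1)) = P * Nat.card (F m) ∧
        (((∀ s, ∀ u ∈ F (m + 1), ρ s u - u ∈ F m) ∧ F (m + 1) ⊓ A0 ≤ F m) ∨
          ((∀ s, ∀ u ∈ F (m + 1), ρ s u - e s • u ∈ F m) ∧ F (m + 1) ≤ F m ⊔ A0)) := by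
  obtain ⟨n, F, hF0, hFn, hmono, hstab, hpieces⟩ :=
    exists_flag_raw ρ χ e he hk r C hC0 hCr hCP hCrel hCst A0
  refine ⟨n, F, hF0, hFn, hmono, hstab, ?_⟩
  intro m hm
  obtain ⟨hcard, hd, hpos, hPU⟩ := hpieces m hm
  refine ⟨hcard, ?_⟩
  rcases hd with h1 | h1 <;> rcases hpos with h2 | h2
  · exact Or.inl ⟨h1, h2⟩
  · -- trivial action, inside `A0`
    rcases hlab with hχ | ⟨s₀, hs₀, hin, hA0⟩
    · right
      refine ⟨?_, h2⟩
      intro s u hu
      have h3 : e s • u - u ∈ F m :=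
        nsmul_sub_mem (F m) u (hPU u hu) (e s) (by rw [he, hχ s, Units.val_one])
      have : ρ s u - e s • u = (ρ s u - u) - (e s • u - u) := by abel
      rw [this]
      exact (F m).sub_mem (h1 s u hu) h3
    · left
      refine ⟨h1, ?_⟩
      intro x hx
      obtain ⟨hxU, hxA⟩ := Submodule.mem_inf.1 hx
      obtain ⟨a, ha, hax⟩ := hA0 x hxA
      apply mem_of_zsmul_mem (F m) x (hPU x hxU) (a - 1)
      · rw [Int.cast_sub, Int.cast_one, ha, sub_ne_zero]
        intro h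
        exact hs₀ (Units.ext h)
      · rw [sub_smul, one_smul, ← hax]
        exact h1 s₀ x hxU
  · -- `χ` action, transversal to `A0`
    rcases hlab with hχ | ⟨s₀, hs₀, hin, hA0⟩
    · left
      refine ⟨?_, h2⟩
      intro s u hu
      have h3 : e s • u - u ∈ F m :=
        nsmul_sub_mem (F m) u (hPU u hu) (e s) (by rw [he, hχ s, Units.val_one])
      have : ρ s u - u = (ρ s u - e s • u) + (e s • u - u) := by abel
      rw [this]
      exact (F m).add_mem (h1 s u hu) h3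
    · right
      refine ⟨h1, ?_⟩
      intro u hu
      apply (le_sup_left : F m ≤ F m ⊔ A0)
      apply mem_of_zsmul_mem (F m) u (hPU u hu) ((e s₀ : ℤ) - 1)
      · rw [Int.cast_sub, Int.cast_one, Int.cast_natCast, he, sub_ne_zero]
        intro h
        exact hs₀ (Units.ext h)
      · have ha : ρ s₀ u - u ∈ F m := by
          apply h2
          refine Submodule.mem_inf.2 ⟨?_, hin u⟩
          exact (F (m + 1)).sub_mem (hstab (m + 1) s₀ u hu) hu
        have hb := h1 s₀ u hu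
        have : ((e s₀ : ℤ) - 1) • u = (ρ s₀ u - u) - (ρ s₀ u - e s₀ • u) := by
          rw [sub_smul, one_smul, natCast_zsmul]
          abel
        rw [this]
        exact (F m).sub_mem ha hb
  · exact Or.inr ⟨h1, h2⟩

end Main

/-! ### Corollaries and the standard instances of the hypotheses -/

section Cor

variable {A : Type*} [AddCommGroup A] [Module k A]

/-- for `P = 2` the character `χ` is trivial -/
theorem chi_eq_one_of_two (hP2 : P = 2) (χ : G →* (ZMod P)ˣ) (s : G) : χ s = 1 := by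
  subst hP2
  exact Subsingleton.elim _ _

/-- the canonical exponent `[0, P)` of `χ` -/
theorem natCast_val_chi (χ : G →* (ZMod P)ˣ) (s : G) :
    ((((χ s : (ZMod P)ˣ) : ZMod P).val : ℕ) : ZMod P) = ((χ s : (ZMod P)ˣ) : ZMod P) := by
  have : NeZero P := ⟨(Fact.out : P.Prime).ne_zero⟩
  exact ZMod.natCast_zmod_val _

/-- `ℤ` acts through integers -/
theorem hk_int {B : Type*} [AddCommGroup B] (c : ℤ) (a : B) : ∃ n : ℤ, c • a = n • a := ⟨c, rfl⟩

/-- `ZMod m` acts through integers -/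
theorem hk_zmod (m : ℕ) {B : Type*} [AddCommGroup B] [Module (ZMod m) B] (c : ZMod m) (a : B) :
    ∃ n : ℤ, c • a = n • a :=
  ⟨(c.cast : ℤ), by rw [← Int.cast_smul_eq_zsmul (ZMod m), ZMod.intCast_zmod_cast]⟩

/-- **(L4) for `P = 2`**: no label hypothesis is needed. -/
theorem exists_flag_two [Finite A] (hP2 : P = 2) (ρ : Representation k G A)
    (χ : G →* (ZMod P)ˣ) (e : G → ℕ)
    (he : ∀ s, ((e s : ℕ) : ZMod P) = ((χ s : (ZMod P)ˣ) : ZMod P))
    (hk : ∀ (c : k) (a : A), ∃ n : ℤ, c • a = n • a)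
    (r : ℕ) (C : ℕ → Submodule k A) (hC0 : C 0 = ⊥) (hCr : C r = ⊤)
    (hCP : ∀ i < r, ∀ u ∈ C (i + 1), P • u ∈ C i)
    (hCrel : ∀ i < r, ∀ s, ∀ u ∈ C (i + 1),
      ρ s (ρ s u) - (e s + 1) • ρ s u + e s • u ∈ C i)
    (hCst : ∀ i s, ∀ u ∈ C i, ρ s u ∈ C i)
    (A0 : Submodule k A) :
    ∃ n, ∃ F : ℕ → Submodule k A, F 0 = ⊥ ∧ F n = ⊤ ∧ (∀ m, F m ≤ F (m + 1)) ∧
      (∀ m s, ∀ u ∈ F m, ρ s u ∈ F m) ∧
      ∀ m < n, Nat.card (F (m + 1)) = P * Nat.card (F m) ∧
        (((∀ s, ∀ u ∈ F (m + 1), ρ s u - u ∈ F m) ∧ F (m + 1) ⊓ A0 ≤ F m) ∨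
          ((∀ s, ∀ u ∈ F (m + 1), ρ s u - e s • u ∈ F m) ∧ F (m + 1) ≤ F m ⊔ A0)) :=
  exists_flag ρ χ e he hk r C hC0 hCr hCP hCrel hCst A0 (Or.inl (chi_eq_one_of_two hP2 χ))

/-- **(L4) from a decreasing coarse filtration** `⊤ = D 0, …, D r = ⊥` (for instance the powers of
an ideal of a commutative ring of endomorphisms commuting with `G`). -/
theorem exists_flag_of_antitone [Finite A] (ρ : Representation k G A) (χ : G →* (ZMod P)ˣ)
    (e : G → ℕ) (he : ∀ s, ((e s : ℕ) : ZMod P) = ((χ s : (ZMod P)ˣ) : ZMod P))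
    (hk : ∀ (c : k) (a : A), ∃ n : ℤ, c • a = n • a)
    (r : ℕ) (D : ℕ → Submodule k A) (hD0 : D 0 = ⊤) (hDr : D r = ⊥)
    (hDP : ∀ i < r, ∀ u ∈ D i, P • u ∈ D (i + 1))
    (hDrel : ∀ i < r, ∀ s, ∀ u ∈ D i,
      ρ s (ρ s u) - (e s + 1) • ρ s u + e s • u ∈ D (i + 1))
    (hDst : ∀ i s, ∀ u ∈ D i, ρ s u ∈ D i)
    (A0 : Submodule k A)
    (hlab : (∀ s, χ s = 1) ∨ ∃ s₀ : G, χ s₀ ≠ 1 ∧ (∀ x, ρ s₀ x - x ∈ A0) ∧
      ∀ x ∈ A0, ∃ n : ℤ, ((n : ℤ) : ZMod P) = ((χ s₀ : (ZMod P)ˣ) : ZMod P) ∧ ρ s₀ x = n • x) :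
    ∃ n, ∃ F : ℕ → Submodule k A, F 0 = ⊥ ∧ F n = ⊤ ∧ (∀ m, F m ≤ F (m + 1)) ∧
      (∀ m s, ∀ u ∈ F m, ρ s u ∈ F m) ∧
      ∀ m < n, Nat.card (F (m + 1)) = P * Nat.card (F m) ∧
        (((∀ s, ∀ u ∈ F (m + 1), ρ s u - u ∈ F m) ∧ F (m + 1) ⊓ A0 ≤ F m) ∨
          ((∀ s, ∀ u ∈ F (m + 1), ρ s u - e s • u ∈ F m) ∧ F (m + 1) ≤ F m ⊔ A0)) := by
  have hidx : ∀ i < r, r - (i + 1) < r ∧ r - (i + 1) + 1 = r - i := fun i hi => by omega
  apply exists_flag ρ χ e he hk r (fun i => D (r - i)) _ _ _ _ _ A0 hlab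
  · show D (r - 0) = ⊥
    rw [Nat.sub_zero, hDr]
  · show D (r - r) = ⊤
    rw [Nat.sub_self, hD0]
  · intro i hi u hu
    obtain ⟨h1, h2⟩ := hidx i hi
    have := hDP _ h1 u hu
    rw [h2] at this
    exact this
  · intro i hi s u hu
    obtain ⟨h1, h2⟩ := hidx i hi
    have := hDrel _ h1 s u hu
    rw [h2] at this
    exact this
  · intro i s u hu
    exact hDst _ s u hu

end Cor

end Fermat.Agent.S15.G.Flag
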