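/-
PROJECT M (S15), block [G], leaf (K-c): commutativity of the Hecke operators of `JZero N`
where project M needs it.

On main `ModularCurve.HeckeOperatorsCommuteBar N` (commutativity on ALL of `JZero N`) is only ever
a hypothesis.  What the Eisenstein descent needs is weaker and is proved here, from

* Eichler-Shimura on torsion (`S30/Arith/Torsion.frobenius_relation`, unconditional through
  `S30/Final/H1.hasReductionAll`),
* Hecke operators commute with the Galois group (`S30/Arith/HeckeGalois.heckeOperatorBar_smul`),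
* existence of Frobenius elements (`Lib/FrobeniusExists`),
* divisibility of `JZero N` (`S17/Div/Final.exists_nsmul_eq`).

Results (`P` prime, `r s` primes, `r ∤ N`, `r ≠ P`; `s` arbitrary):

* `hecke_eq_frob`        : on `P`-power torsion, `T_r x = σ x + r σ⁻¹ x` for a Frobenius `σ` at `r`;
* `hecke_comm_torsion`   : on `P`-power torsion, `T_r (T_s x) = T_s (T_r x)`;
* `commute_mapEnd_mapEnd`: the same on the Tate module `Tp P (JZero N)`;
* `hecke_comm_fixed`     : on Galois-fixed points, `T_r T_s x - T_s T_r x` is killed by an integer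
  prime to `P` (provided the group of fixed points is finitely generated), so the operators commute
  on `J(ℚ) ⊗ ℤ_P` and on `J(ℚ)` modulo torsion.
-/
import Fermat.Agent.S31.TateArith
import Fermat.Agent.S30.Final.H1
import Fermat.Agent.S17.Div.Final

set_option autoImplicit false

namespace Fermat.Agent.S15.G.HeckeComm

open ModularCurve
open Fermat.Agent.S30.Arith Fermat.Agent.S30.Arith.Torsion
open Fermat.Agent.S30.Padic.TateModule Fermat.Agent.S30.Arith.TateInputs

local notation "Kb" => AlgebraicClosure ℚ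
local notation "GQ" => (AlgebraicClosure ℚ ≃ₐ[ℚ] AlgebraicClosure ℚ)

variable (N : ℕ) [NeZero N]

/-! ### Torsion bookkeeping -/

omit [NeZero N] in
theorem isTorsion_smul_inv {P : ℕ} (σ : GQ) {x : JZero N} (hx : ∃ n : ℕ, P ^ n • x = 0) :
    ∃ n : ℕ, P ^ n • (σ⁻¹ • x) = 0 :=
  isTorsion_smul σ⁻¹ hx

/-! ### (c1) `T_r = Frob + r Frob⁻¹` on torsion prime to `r` -/

/-- On `P`-power torsion, `T_r x = σ x + r σ⁻¹ x` for every Frobenius element `σ` at `r`
(`r ∤ N`, `r ≠ P`). -/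
theorem hecke_eq_frob {P : ℕ} (hP : P.Prime) (r : Nat.Primes) (hrN : ¬ (r : ℕ) ∣ N)
    (hrP : (r : ℕ) ≠ P) (A : ValuationSubring Kb) (hA : A.LiesOverPrime (r : ℕ)) {σ : GQ}
    (hσ : A.IsFrobeniusAt σ (r : ℕ)) {x : JZero N} (hx : ∃ n : ℕ, P ^ n • x = 0) :
    heckeOperatorBar N r x = σ • x + (r : ℕ) • (σ⁻¹ • x) := by
  have hx' := isTorsion_smul_inv N σ hx
  have h := frobenius_relation (Fermat.Agent.S30.Final.H1.hasReductionAll N P) hP r.2 hrN hrP A hA
    hσ hx'
  rw [smul_inv_smul] at h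
  have h2 : heckeOperatorBar N ⟨(r : ℕ), r.2⟩ x = σ • x + (r : ℕ) • (σ⁻¹ • x) := by
    rw [sub_add_eq_add_sub, sub_eq_zero] at h
    exact h.symm
  exact h2

/-! ### (c2) commutativity on torsion -/

/-- **Hecke operators commute on `P`-power torsion** as soon as one of them is `T_r` with `r ∤ N`,
`r ≠ P`. -/
theorem hecke_comm_torsion {P : ℕ} (hP : P.Prime) (r s : Nat.Primes) (hrN : ¬ (r : ℕ) ∣ N)
    (hrP : (r : ℕ) ≠ P) {x : JZero N} (hx : ∃ n : ℕ, P ^ n • x = 0) :
    heckeOperatorBar N r (heckeOperatorBar N s x) =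
      heckeOperatorBar N s (heckeOperatorBar N r x) := by
  obtain ⟨A, hA⟩ := Fermat.Agent.Lib.FrobeniusExists.exists_valuationSubring_liesOverPrime
    (L := Kb) (r : ℕ) r.2
  obtain ⟨σ, hσ⟩ :=
    Fermat.Agent.Lib.FrobeniusExists.exists_isFrobeniusAt_algebraicClosure A r.2 hA
  have hsx : ∃ n : ℕ, P ^ n • heckeOperatorBar N s x = 0 := isTorsion_hecke s hx
  rw [hecke_eq_frob N hP r hrN hrP A hA hσ hsx, hecke_eq_frob N hP r hrN hrP A hA hσ hx,
    map_add, map_nsmul, HeckeGalois.heckeOperatorBar_smul, HeckeGalois.heckeOperatorBar_smul]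

/-- Symmetric form of `hecke_comm_torsion`. -/
theorem hecke_comm_torsion' {P : ℕ} (hP : P.Prime) (r s : Nat.Primes)
    (h : (¬ (r : ℕ) ∣ N ∧ (r : ℕ) ≠ P) ∨ (¬ (s : ℕ) ∣ N ∧ (s : ℕ) ≠ P)) {x : JZero N}
    (hx : ∃ n : ℕ, P ^ n • x = 0) :
    heckeOperatorBar N r (heckeOperatorBar N s x) =
      heckeOperatorBar N s (heckeOperatorBar N r x) := by
  rcases h with h | h
  · exact hecke_comm_torsion N hP r s h.1 h.2 hx
  · exact (hecke_comm_torsion N hP s r h.1 h.2 hx).symm

/-! ### (c3) commutativity on the Tate module -/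

/-- **Hecke operators commute on the Tate module** `Tp P (JZero N)`. -/
theorem commute_mapEnd_mapEnd (P : ℕ) [Fact P.Prime] (r s : Nat.Primes)
    (h : (¬ (r : ℕ) ∣ N ∧ (r : ℕ) ≠ P) ∨ (¬ (s : ℕ) ∣ N ∧ (s : ℕ) ≠ P)) :
    Commute (Tp.mapEnd (p := P) (heckeEnd N r)) (Tp.mapEnd (p := P) (heckeEnd N s)) := by
  ext x k
  rw [Module.End.mul_apply, Module.End.mul_apply, Tp.coe_mapEnd_apply, Tp.coe_mapEnd_apply,
    Tp.coe_mapEnd_apply, Tp.coe_mapEnd_apply, heckeEnd_apply, heckeEnd_apply, heckeEnd_apply,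
    heckeEnd_apply]
  exact hecke_comm_torsion' N Fact.out r s h (Tp.isTorsion_apply x k)

/-! ### (c4) commutativity on the rational points, up to torsion prime to `P` -/

/-- In a finitely generated abelian group, an element divisible by every power of `P` is killed by
an integer prime to `P` (Krull's intersection theorem over `ℤ`). -/
theorem exists_not_dvd_smul_eq_zero {Λ : Type*} [AddCommGroup Λ] (hfg : AddGroup.FG Λ) {P : ℕ}
    (hP : P.Prime) {z : Λ} (h : ∀ k : ℕ, ∃ w : Λ, P ^ k • w = z) :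
    ∃ m : ℕ, ¬ P ∣ m ∧ m • z = 0 := by
  have : Module.Finite ℤ Λ := Module.Finite.iff_addGroup_fg.2 hfg
  have hmem : z ∈ (⨅ i : ℕ, (Ideal.span {(P : ℤ)}) ^ i • ⊤ : Submodule ℤ Λ) := by
    rw [Submodule.mem_iInf]
    intro i
    obtain ⟨w, hw⟩ := h i
    rw [← hw]
    have h1 : ((P : ℤ) ^ i) ∈ (Ideal.span {(P : ℤ)}) ^ i :=
      Ideal.pow_mem_pow (Ideal.mem_span_singleton_self _) i
    have h2 : ((P : ℤ) ^ i) • w ∈ (Ideal.span {(P : ℤ)}) ^ i • (⊤ : Submodule ℤ Λ) :=
      Submodule.smul_mem_smul h1 Submodule.mem_top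
    have h3 : ((P : ℤ) ^ i) • w = P ^ i • w := by
      rw [← Nat.cast_pow, natCast_zsmul]
    rwa [h3] at h2
  obtain ⟨⟨a, ha⟩, hz⟩ := (Ideal.mem_iInf_smul_pow_eq_bot_iff (Ideal.span {(P : ℤ)}) z).1 hmem
  obtain ⟨b, rfl⟩ := Ideal.mem_span_singleton'.1 ha
  -- `(b * P) • z = z`, so `(1 - b * P) • z = 0`
  have hz' : (b * (P : ℤ)) • z = z := hz
  have h0 : (1 - b * (P : ℤ)) • z = 0 := by
    rw [sub_smul, one_smul, hz', sub_self]
  refine ⟨(1 - b * (P : ℤ)).natAbs, ?_, ?_⟩
  · intro hd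
    have hd' : (P : ℤ) ∣ 1 - b * (P : ℤ) := Int.natCast_dvd.2 hd
    have h1 : (P : ℤ) ∣ 1 := by
      have := dvd_add hd' (Dvd.intro_left b rfl : (P : ℤ) ∣ b * (P : ℤ))
      simpa using this
    have h1' : P ∣ 1 := by exact_mod_cast h1
    exact hP.one_lt.ne' (Nat.dvd_one.1 h1')
  · rcases Int.natAbs_eq (1 - b * (P : ℤ)) with he | he
    · rw [← natCast_zsmul, ← he]; exact h0
    · have : ((1 - b * (P : ℤ)).natAbs : ℤ) = -(1 - b * (P : ℤ)) := by rw [he]; simp
      rw [← natCast_zsmul, this, neg_smul, h0, neg_zero]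

/-- **Hecke operators commute on the rational points up to torsion prime to `P`**: for a
Galois-fixed `x`, the commutator `T_r T_s x - T_s T_r x` is killed by an integer prime to `P`. -/
theorem hecke_comm_fixed {P : ℕ} (hP : P.Prime) (r s : Nat.Primes)
    (h : (¬ (r : ℕ) ∣ N ∧ (r : ℕ) ≠ P) ∨ (¬ (s : ℕ) ∣ N ∧ (s : ℕ) ≠ P))
    (hfg : AddGroup.FG ↥(FixedPoints.addSubgroup GQ (JZero N))) {x : JZero N}
    (hx : ∀ σ : GQ, σ • x = x) :
    ∃ m : ℕ, ¬ P ∣ m ∧
      m • (heckeOperatorBar N r (heckeOperatorBar N s x) -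
        heckeOperatorBar N s (heckeOperatorBar N r x)) = 0 := by
  -- the commutator as an additive map commuting with Galois and vanishing on `P`-power torsion
  set D : JZero N →+ JZero N :=
    ((heckeOperatorBar N r).toAddMonoidHom.comp (heckeOperatorBar N s).toAddMonoidHom) -
      ((heckeOperatorBar N s).toAddMonoidHom.comp (heckeOperatorBar N r).toAddMonoidHom) with hD
  have hDapp : ∀ y, D y = heckeOperatorBar N r (heckeOperatorBar N s y) -
      heckeOperatorBar N s (heckeOperatorBar N r y) := fun y => rfl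
  have hDσ : ∀ (σ : GQ) (y : JZero N), D (σ • y) = σ • D y := by
    intro σ y
    rw [hDapp, hDapp, HeckeGalois.heckeOperatorBar_smul, HeckeGalois.heckeOperatorBar_smul,
      HeckeGalois.heckeOperatorBar_smul, HeckeGalois.heckeOperatorBar_smul, smul_sub]
  have hDtors : ∀ y : JZero N, (∃ n : ℕ, P ^ n • y = 0) → D y = 0 := by
    intro y hy
    rw [hDapp, hecke_comm_torsion' N hP r s h hy, sub_self]
  -- `D x` is a fixed point, divisible by every power of `P` inside the fixed points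
  have hfix : ∀ y : JZero N, (∀ σ : GQ, σ • y = y) → ∀ σ : GQ, σ • D y = D y := by
    intro y hy σ
    rw [← hDσ, hy]
  let z : ↥(FixedPoints.addSubgroup GQ (JZero N)) := ⟨D x, fun σ => hfix x hx σ⟩
  have hdiv : ∀ k : ℕ, ∃ w : ↥(FixedPoints.addSubgroup GQ (JZero N)), P ^ k • w = z := by
    intro k
    obtain ⟨y, hy⟩ := Fermat.Agent.S17.Div.exists_nsmul_eq N (P ^ k) (pow_ne_zero k hP.ne_zero) x
    have hyfix : ∀ σ : GQ, σ • D y = D y := by
      intro σ
      have h1 : P ^ k • (σ • y - y) = 0 := by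
        have e : P ^ k • (σ • y) = σ • (P ^ k • y) :=
          (map_nsmul (DistribSMul.toAddMonoidHom (JZero N) σ) (P ^ k) y).symm
        rw [nsmul_sub, e, hy, hx, sub_self]
      have h2 : D (σ • y - y) = 0 := hDtors _ ⟨k, h1⟩
      rw [map_sub, hDσ, sub_eq_zero] at h2
      exact h2
    refine ⟨⟨D y, hyfix⟩, ?_⟩
    apply Subtype.ext
    show P ^ k • D y = D x
    rw [← map_nsmul, hy]
  obtain ⟨m, hm, hmz⟩ := exists_not_dvd_smul_eq_zero hfg hP hdiv
  refine ⟨m, hm, ?_⟩
  have h := congrArg Subtype.val hmz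
  rw [AddSubgroup.coe_nsmul, AddSubgroup.coe_zero] at h
  exact h

/-- **Exact commutativity on the rational points** for two good primes `r s ∤ N`
(the order of the commutator is prime to every prime). -/
theorem hecke_comm_fixed_eq (r s : Nat.Primes) (hrN : ¬ (r : ℕ) ∣ N) (hsN : ¬ (s : ℕ) ∣ N)
    (hfg : AddGroup.FG ↥(FixedPoints.addSubgroup GQ (JZero N))) {x : JZero N}
    (hx : ∀ σ : GQ, σ • x = x) :
    heckeOperatorBar N r (heckeOperatorBar N s x) =
      heckeOperatorBar N s (heckeOperatorBar N r x) := by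
  by_cases hrs : r = s
  · subst hrs; rfl
  have hne : (r : ℕ) ≠ (s : ℕ) := fun h => hrs (Subtype.ext h)
  rw [← sub_eq_zero]
  set d := heckeOperatorBar N r (heckeOperatorBar N s x) -
    heckeOperatorBar N s (heckeOperatorBar N r x) with hd
  -- for every prime `P` the commutator is killed by an integer prime to `P`
  have key : ∀ P : ℕ, P.Prime → ∃ m : ℕ, ¬ P ∣ m ∧ m • d = 0 := by
    intro P hP
    by_cases hPr : (r : ℕ) = P
    · exact hecke_comm_fixed N hP r s (Or.inr ⟨hsN, fun h => hne (hPr.trans h.symm)⟩) hfg hx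
    · exact hecke_comm_fixed N hP r s (Or.inl ⟨hrN, hPr⟩) hfg hx
  by_contra hd0
  obtain ⟨m2, hm2, hm2d⟩ := key 2 Nat.prime_two
  have hm2pos : 0 < m2 := Nat.pos_of_ne_zero (fun h0 => hm2 (h0 ▸ dvd_zero 2))
  have hfin : IsOfFinAddOrder d := isOfFinAddOrder_iff_nsmul_eq_zero.2 ⟨m2, hm2pos, hm2d⟩
  have hord : addOrderOf d ≠ 1 := fun h1 => hd0 (AddMonoid.addOrderOf_eq_one_iff.1 h1)
  obtain ⟨P, hP, hPd⟩ := Nat.exists_prime_and_dvd hord
  obtain ⟨m, hm, hmd⟩ := key P hP
  exact hm (hPd.trans (addOrderOf_dvd_of_nsmul_eq_zero hmd))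

/-! ### (c3') the Hecke algebra of the Tate module generated by the good primes is commutative -/

/-- The `ℤ_P`-subalgebra of `End (Tp P (JZero N))` generated by the `T_r`, `r ∤ N`, `r ≠ P`, is
commutative. -/
theorem isMulCommutative_adjoin_good (P : ℕ) [Fact P.Prime] :
    IsMulCommutative (Algebra.adjoin ℤ_[P]
      {T : Module.End ℤ_[P] (Tp P (JZero N)) | ∃ r : Nat.Primes, ¬ (r : ℕ) ∣ N ∧ (r : ℕ) ≠ P ∧
        T = Tp.mapEnd (p := P) (heckeEnd N r)}) :=
  Algebra.isMulCommutative_adjoin ℤ_[P] (by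
    rintro _ ⟨r, hrN, hrP, rfl⟩ _ ⟨s, -, -, rfl⟩
    exact commute_mapEnd_mapEnd N P r s (Or.inl ⟨hrN, hrP⟩))

end Fermat.Agent.S15.G.HeckeComm
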