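import Mathlib

/-!
# PROJECT M (S15), block [G]: intersecting a flag with a subgroup

A chain of subgroups of a finite abelian group with successive indices `P` (prime) induces on every
subgroup `B` a chain with successive indices `1` or `P`.  This is the chain hypothesis of the
function-level theory at `P` (block (K-P)) for `B` the connected part, produced from the
Galois-stable flag of `S15/G/Flag`.
-/

set_option autoImplicit false

namespace Fermat.Agent.S15.G.ChainInf

variable {T : Type*} [AddCommGroup T]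

/-- the index of `H ⊓ B` in `H' ⊓ B` is `1` or `P` when `H ≤ H'` has index `P` -/
theorem relIndex_inf_eq_one_or [Finite T] {P : ℕ} (hP : P.Prime) (H H' B : AddSubgroup T)
    (hle : H ≤ H') (hcard : Nat.card H' = P * Nat.card H) :
    (H ⊓ B).relIndex (H' ⊓ B) = 1 ∨ (H ⊓ B).relIndex (H' ⊓ B) = P := by
  have h1 : (H ⊓ B).relIndex (H' ⊓ B) = H.relIndex (H' ⊓ B) := by
    rw [← AddSubgroup.inf_relIndex_right (H ⊓ B) (H' ⊓ B), ← AddSubgroup.inf_relIndex_right H]
    congr 1
    apply le_antisymm
    · exact le_inf (inf_le_left.trans inf_le_left) inf_le_right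
    · exact le_inf (le_inf inf_le_left (inf_le_right.trans inf_le_right)) inf_le_right
  have h2 : H.relIndex (H' ⊓ B) ∣ H.relIndex H' := by
    have hK : H' ⊓ B ≤ H' := inf_le_left
    rw [← AddSubgroup.relIndex_addSubgroupOf hK]
    exact AddSubgroup.relIndex_dvd_index_of_normal _ _
  have h3 : H.relIndex H' = P := by
    have h4 := AddSubgroup.relIndex_mul_relIndex (⊥ : AddSubgroup T) H H' bot_le hle
    rw [AddSubgroup.relIndex_bot_left, AddSubgroup.relIndex_bot_left, hcard, mul_comm] at h4
    have hpos : 0 < Nat.card H := Nat.card_pos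
    exact Nat.eq_of_mul_eq_mul_right hpos h4
  rw [h1]
  rw [h3] at h2
  exact (Nat.dvd_prime hP).1 h2

/-- **the induced chain**: from a flag `F` with successive indices `P` to the chain `F i ⊓ B` with
successive indices `1` or `P`, stable under every additive map stabilising `B` and the `F i`. -/
theorem chain_inf [Finite T] {P : ℕ} (hP : P.Prime) (n : ℕ) (F : ℕ → AddSubgroup T)
    (h0 : F 0 = ⊥) (hn : F n = ⊤) (hmono : ∀ m, F m ≤ F (m + 1))
    (hcard : ∀ m < n, Nat.card (F (m + 1)) = P * Nat.card (F m)) (B : AddSubgroup T) :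
    (F 0 ⊓ B = ⊥) ∧ (F n ⊓ B = B) ∧ (∀ i < n, F i ⊓ B ≤ F (i + 1) ⊓ B) ∧
      (∀ i < n, (F i ⊓ B).relIndex (F (i + 1) ⊓ B) = 1 ∨
        (F i ⊓ B).relIndex (F (i + 1) ⊓ B) = P) := by
  refine ⟨by rw [h0, bot_inf_eq], by rw [hn, top_inf_eq],
    fun i _ => inf_le_inf_right B (hmono i), fun i hi => ?_⟩
  exact relIndex_inf_eq_one_or hP (F i) (F (i + 1)) B (hmono i) (hcard i hi)

end Fermat.Agent.S15.G.ChainInf
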