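import Mathlib
import Fermat.Agent.S15.G.Flag

/-!
# PROJECT M (S15), block [G], leaf (G-coarse): the coarse filtration of a Hecke module

`A` a finite module with a representation `ρ` of `G`, and a set `𝒯` of pairwise commuting
endomorphisms of `A`, commuting with `G`, each locally nilpotent (think `a_r = T_r - 1 - r` on the
Eisenstein-primary part of `J[P ^ k]`).  Suppose every `s : G` is, on `A`, conjugate to a power of a
"Frobenius" `f` which satisfies the Eichler-Shimura relation `(ρ f - 1) (ρ f - c) = ρ f ∘ t` with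
`t ∈ 𝒯` and `c ≡ χ f` modulo `P`.  Then the kernel filtration of `𝒯 ∪ {P}` is a coarse filtration in
the sense of `Flag.exists_flag`, hence `A` has a labelled flag.  `P = 2` is included.
-/

set_option autoImplicit false

namespace Fermat.Agent.S15.G.Coarse

open Fermat.Agent.S15.G.Flag

variable {P : ℕ} [Fact P.Prime] {k : Type*} [CommRing k] {G : Type*} [Group G]
  {A : Type*} [AddCommGroup A] [Module k A]

/-! ### The quadratic expression `(F - 1) (F - m)` -/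

/-- `(F - 1) (F - m) u`, written out -/
def quadE (F : Module.End k A) (m : ℕ) (u : A) : A := F (F u) - (m + 1) • F u + m • u

theorem quadE_eq_mul (F : Module.End k A) (m : ℕ) (u : A) :
    quadE F m u = ((F - 1) * (F - (m : Module.End k A))) u := by
  unfold quadE
  simp only [Module.End.mul_apply, LinearMap.sub_apply, Module.End.one_apply,
    Module.End.natCast_apply, map_sub, map_nsmul, smul_sub, add_smul, one_smul]
  abel

open Polynomial in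
/-- `(X ^ j - 1) (X ^ j - c ^ j)` is a multiple of `(X - 1) (X - c)`, evaluated at `F` -/
theorem exists_factor (F : Module.End k A) (c j : ℕ) :
    ∃ Q : k[X], (F ^ j - 1) * (F ^ j - ((c ^ j : ℕ) : Module.End k A)) =
      aeval F Q * ((F - 1) * (F - (c : Module.End k A))) := by
  have h1 : (X - 1 : k[X]) ∣ X ^ j - 1 := by
    simpa using sub_dvd_pow_sub_pow (X : k[X]) 1 j
  have h2 : (X - C (c : k) : k[X]) ∣ X ^ j - C ((c : k) ^ j) := by
    simpa using sub_dvd_pow_sub_pow (X : k[X]) (C (c : k)) j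
  obtain ⟨a, ha⟩ := h1
  obtain ⟨b, hb⟩ := h2
  refine ⟨a * b, ?_⟩
  have e1 : F ^ j - 1 = aeval F (X ^ j - 1 : k[X]) := by simp
  have e2 : F ^ j - ((c ^ j : ℕ) : Module.End k A) = aeval F (X ^ j - C ((c : k) ^ j) : k[X]) := by
    simp
  have e3 : (F - 1) * (F - (c : Module.End k A)) = aeval F ((X - 1) * (X - C (c : k)) : k[X]) := by
    simp
  rw [e1, e2, e3, ← map_mul, ← map_mul, ha, hb]
  congr 1
  ring

/-- the relation passes to powers -/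
theorem quadE_pow_mem (F : Module.End k A) (c : ℕ) (U W : Submodule k A)
    (hW : ∀ w ∈ W, F w ∈ W) (h : ∀ u ∈ U, quadE F c u ∈ W) (j : ℕ) :
    ∀ u ∈ U, quadE (F ^ j) (c ^ j) u ∈ W := by
  intro u hu
  obtain ⟨Q, hQ⟩ := exists_factor F c j
  rw [quadE_eq_mul, hQ, Module.End.mul_apply, ← quadE_eq_mul]
  exact Polynomial.aeval_apply_smul_mem_of_le_comap (h u hu) Q F (fun w hw => hW w hw)

/-- the relation passes to conjugates -/
theorem quadE_conj_mem (ρ : Representation k G A) (s τ : G) (m : ℕ) (U W : Submodule k A)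
    (hU : ∀ g, ∀ u ∈ U, ρ g u ∈ U) (hW : ∀ g, ∀ w ∈ W, ρ g w ∈ W)
    (h : ∀ u ∈ U, quadE (ρ (τ * s * τ⁻¹)) m u ∈ W) :
    ∀ u ∈ U, quadE (ρ s) m u ∈ W := by
  intro u hu
  have h1 : ∀ v : A, ρ (τ * s * τ⁻¹) (ρ τ v) = ρ τ (ρ s v) := by
    intro v
    rw [← Module.End.mul_apply, ← Module.End.mul_apply, ← map_mul, ← map_mul]
    congr 2
    group
  have h2 : quadE (ρ (τ * s * τ⁻¹)) m (ρ τ u) = ρ τ (quadE (ρ s) m u) := by
    unfold quadE
    rw [h1, h1, map_add, map_sub, map_nsmul, map_nsmul]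
  have h3 : quadE (ρ s) m u = ρ τ⁻¹ (quadE (ρ (τ * s * τ⁻¹)) m (ρ τ u)) := by
    rw [h2, ← Module.End.mul_apply, ← map_mul, inv_mul_cancel, map_one, Module.End.one_apply]
  rw [h3]
  exact hW _ _ (h _ (hU τ u hu))

/-- the relation only depends on `m` modulo `P` -/
theorem quadE_congr_mem (F : Module.End k A) (m m' : ℕ)
    (hmm : ((m : ℕ) : ZMod P) = ((m' : ℕ) : ZMod P)) (U W : Submodule k A)
    (hU : ∀ u ∈ U, F u ∈ U) (hPU : ∀ u ∈ U, P • u ∈ W) (u : A) (hu : u ∈ U)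
    (h : quadE F m u ∈ W) : quadE F m' u ∈ W := by
  have hd : (P : ℤ) ∣ (m : ℤ) - (m' : ℤ) := by
    rw [← ZMod.intCast_zmod_eq_zero_iff_dvd]
    push_cast
    rw [hmm, sub_self]
  obtain ⟨q, hq⟩ := hd
  have h1 : quadE F m' u = quadE F m u + q • (P • (F u - u)) := by
    have : q • (P • (F u - u)) = ((m : ℤ) - (m' : ℤ)) • (F u - u) := by
      rw [← natCast_zsmul, smul_smul, mul_comm, ← hq]
    rw [this]
    unfold quadE
    rw [sub_smul, natCast_zsmul, natCast_zsmul, add_smul, add_smul, one_smul,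
      smul_sub, smul_sub]
    abel
  rw [h1]
  exact W.add_mem h (W.toAddSubgroup.zsmul_mem (hPU _ (U.sub_mem (hU u hu) hu)) q)

/-! ### The kernel filtration of a set of endomorphisms -/

section KerFil

/-- `kerFil 𝒯 0 = ⊥`, `kerFil 𝒯 (i + 1) = {u | ∀ t ∈ 𝒯, t u ∈ kerFil 𝒯 i}` -/
def kerFil (𝒯 : Set (Module.End k A)) : ℕ → Submodule k A
  | 0 => ⊥
  | (i + 1) => ⨅ t ∈ 𝒯, (kerFil 𝒯 i).comap t

theorem kerFil_zero (𝒯 : Set (Module.End k A)) : kerFil 𝒯 0 = ⊥ := rfl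

theorem mem_kerFil_succ (𝒯 : Set (Module.End k A)) (i : ℕ) (u : A) :
    u ∈ kerFil 𝒯 (i + 1) ↔ ∀ t ∈ 𝒯, t u ∈ kerFil 𝒯 i := by
  show u ∈ (⨅ t ∈ 𝒯, (kerFil 𝒯 i).comap t) ↔ _
  simp only [Submodule.mem_iInf, Submodule.mem_comap]

theorem kerFil_mono (𝒯 : Set (Module.End k A)) : ∀ i, kerFil 𝒯 i ≤ kerFil 𝒯 (i + 1)
  | 0 => by rw [kerFil_zero]; exact bot_le
  | (i + 1) => by
    intro u hu
    rw [mem_kerFil_succ] at hu ⊢
    intro t ht
    exact kerFil_mono 𝒯 i (hu t ht)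

theorem kerFil_stable (𝒯 : Set (Module.End k A)) (i : ℕ) :
    ∀ t ∈ 𝒯, ∀ u ∈ kerFil 𝒯 i, t u ∈ kerFil 𝒯 i := by
  intro t ht u hu
  cases i with
  | zero =>
    rw [kerFil_zero, Submodule.mem_bot] at hu ⊢
    rw [hu, map_zero]
  | succ i =>
    exact kerFil_mono 𝒯 i ((mem_kerFil_succ 𝒯 i u).1 hu t ht)

theorem kerFil_stable_of_comm (𝒯 : Set (Module.End k A)) (g : Module.End k A)
    (hg : ∀ t ∈ 𝒯, ∀ u, t (g u) = g (t u)) : ∀ i, ∀ u ∈ kerFil 𝒯 i, g u ∈ kerFil 𝒯 i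
  | 0 => by
    intro u hu
    rw [kerFil_zero, Submodule.mem_bot] at hu ⊢
    rw [hu, map_zero]
  | (i + 1) => by
    intro u hu
    rw [mem_kerFil_succ] at hu ⊢
    intro t ht
    rw [hg t ht]
    exact kerFil_stable_of_comm 𝒯 g hg i _ (hu t ht)

/-- **common kernel vector, relative form**: commuting locally nilpotent endomorphisms stabilising
`W ≠ ⊤` have a common vector outside `W` which they all send into `W`. -/
theorem exists_notMem_forall_mem [Finite A] (𝒯 : Set (Module.End k A))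
    (hcomm : ∀ t ∈ 𝒯, ∀ t' ∈ 𝒯, ∀ u, t (t' u) = t' (t u))
    (hnil : ∀ t ∈ 𝒯, ∀ u, ∃ n : ℕ, (t ^ n) u = 0)
    (W : Submodule k A) (hW : ∀ t ∈ 𝒯, ∀ w ∈ W, t w ∈ W) (hne : W ≠ ⊤) :
    ∃ v, v ∉ W ∧ ∀ t ∈ 𝒯, t v ∈ W := by
  classical
  let S : Set (Submodule k A) := {K | (∀ t ∈ 𝒯, ∀ x ∈ K, t x ∈ K) ∧ W < K}
  have hS : (⊤ : Submodule k A) ∈ S :=
    ⟨fun _ _ _ _ => Submodule.mem_top, lt_of_le_of_ne le_top hne⟩
  obtain ⟨K, ⟨hKst, hWK⟩, hKmin⟩ := wellFounded_lt.has_min S ⟨⊤, hS⟩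
  -- every `t` sends `K` into `W`
  have hKW : ∀ t ∈ 𝒯, ∀ x ∈ K, t x ∈ W := by
    intro t ht
    let Kt : Submodule k A := K ⊓ W.comap t
    have hKt_st : ∀ t' ∈ 𝒯, ∀ x ∈ Kt, t' x ∈ Kt := by
      intro t' ht' x hx
      obtain ⟨hx1, hx2⟩ := Submodule.mem_inf.1 hx
      refine Submodule.mem_inf.2 ⟨hKst t' ht' x hx1, ?_⟩
      rw [Submodule.mem_comap] at hx2 ⊢
      rw [hcomm t ht t' ht']
      exact hW t' ht' _ hx2
    have hWKt : W ≤ Kt := fun w hw => Submodule.mem_inf.2 ⟨hWK.le hw, hW t ht w hw⟩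
    -- `W < Kt`
    obtain ⟨v, hvK, hvW⟩ := SetLike.exists_of_lt hWK
    obtain ⟨n, hn⟩ := hnil t ht v
    have hex : ∃ n : ℕ, (t ^ n) v ∈ W := ⟨n, by rw [hn]; exact W.zero_mem⟩
    have hn0 : Nat.find hex ≠ 0 := by
      intro h0
      have := Nat.find_spec hex
      rw [h0, pow_zero, Module.End.one_apply] at this
      exact hvW this
    obtain ⟨n', hn'⟩ := Nat.exists_eq_succ_of_ne_zero hn0
    have hpowK : ∀ i : ℕ, (t ^ i) v ∈ K := by
      intro i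
      induction i with
      | zero => rw [pow_zero, Module.End.one_apply]; exact hvK
      | succ i ih => rw [pow_succ', Module.End.mul_apply]; exact hKst t ht _ ih
    have h1 : (t ^ n') v ∉ W := Nat.find_min hex (by omega)
    have h2 : t ((t ^ n') v) ∈ W := by
      have := Nat.find_spec hex
      rw [hn', Nat.succ_eq_add_one, pow_succ', Module.End.mul_apply] at this
      exact this
    have hlt : W < Kt := by
      apply lt_of_le_of_ne hWKt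
      intro heq
      apply h1
      rw [heq]
      exact Submodule.mem_inf.2 ⟨hpowK n', h2⟩
    have hKtS : Kt ∈ S := ⟨hKt_st, hlt⟩
    have hle : Kt ≤ K := inf_le_left
    have heq : Kt = K := eq_of_le_of_not_lt hle (hKmin Kt hKtS)
    intro x hx
    rw [← heq] at hx
    exact (Submodule.mem_inf.1 hx).2
  obtain ⟨v, hvK, hvW⟩ := SetLike.exists_of_lt hWK
  exact ⟨v, hvW, fun t ht => hKW t ht v hvK⟩

theorem card_lt_of_lt [Finite A] {W U : Submodule k A} (h : W < U) :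
    Nat.card W < Nat.card U := by
  have h1 : (W : Set A) ⊂ (U : Set A) := h
  have := Set.ncard_lt_ncard h1 (Set.toFinite _)
  exact this

/-- the kernel filtration of commuting locally nilpotent endomorphisms is exhaustive -/
theorem kerFil_card_eq_top [Finite A] (𝒯 : Set (Module.End k A))
    (hcomm : ∀ t ∈ 𝒯, ∀ t' ∈ 𝒯, ∀ u, t (t' u) = t' (t u))
    (hnil : ∀ t ∈ 𝒯, ∀ u, ∃ n : ℕ, (t ^ n) u = 0) :
    kerFil 𝒯 (Nat.card A) = ⊤ := by
  have key : ∀ i : ℕ, kerFil 𝒯 i = ⊤ ∨ i < Nat.card (kerFil 𝒯 i) := by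
    intro i
    induction i with
    | zero => right; exact Nat.card_pos
    | succ i ih =>
      by_cases htop : kerFil 𝒯 i = ⊤
      · left
        exact top_le_iff.1 (htop ▸ kerFil_mono 𝒯 i)
      · right
        have h1 : i < Nat.card (kerFil 𝒯 i) := ih.resolve_left htop
        obtain ⟨v, hv1, hv2⟩ :=
          exists_notMem_forall_mem 𝒯 hcomm hnil (kerFil 𝒯 i) (kerFil_stable 𝒯 i) htop
        have hlt : kerFil 𝒯 i < kerFil 𝒯 (i + 1) := by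
          apply lt_of_le_of_ne (kerFil_mono 𝒯 i)
          intro heq
          apply hv1
          rw [heq, mem_kerFil_succ]
          exact hv2
        have := card_lt_of_lt hlt
        omega
  rcases key (Nat.card A) with h | h
  · exact h
  · exfalso
    have : Nat.card (kerFil 𝒯 (Nat.card A)) ≤ Nat.card A :=
      Nat.card_le_card_of_injective _ Subtype.val_injective
    omega

end KerFil

/-! ### The labelled flag of a Hecke module -/

section Main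

/-- **(G-coarse)**: the kernel filtration of `𝒯 ∪ {P}` is a coarse filtration in the sense of
`Flag.exists_flag`, for a finite module with commuting locally nilpotent operators `𝒯` commuting
with `G`, a power of `P` killing everything, and Eichler-Shimura + Chebotarev in the division form
`hfrob`. -/
theorem exists_coarse_of_hecke [Finite A] (ρ : Representation k G A) (χ : G →* (ZMod P)ˣ)
    (e : G → ℕ) (he : ∀ s, ((e s : ℕ) : ZMod P) = ((χ s : (ZMod P)ˣ) : ZMod P))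
    (𝒯 : Set (Module.End k A))
    (hcomm : ∀ t ∈ 𝒯, ∀ t' ∈ 𝒯, ∀ u, t (t' u) = t' (t u))
    (hG : ∀ t ∈ 𝒯, ∀ s u, t (ρ s u) = ρ s (t u))
    (hnil : ∀ t ∈ 𝒯, ∀ u, ∃ n : ℕ, (t ^ n) u = 0)
    (hPnil : ∀ u : A, ∃ n : ℕ, P ^ n • u = 0)
    (hfrob : ∀ s : G, ∃ (f τ : G) (j c : ℕ), ∃ t ∈ 𝒯,
      ((c : ℕ) : ZMod P) = ((χ f : (ZMod P)ˣ) : ZMod P) ∧
      (∀ u, ρ f (ρ f u) - (c + 1) • ρ f u + c • u = ρ f (t u)) ∧
      ρ (τ * s * τ⁻¹) = ρ f ^ j ∧ χ s = χ f ^ j) :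
    ∃ (r : ℕ) (C : ℕ → Submodule k A), C 0 = ⊥ ∧ C r = ⊤ ∧
      (∀ i < r, ∀ u ∈ C (i + 1), P • u ∈ C i) ∧
      (∀ i < r, ∀ s, ∀ u ∈ C (i + 1), ρ s (ρ s u) - (e s + 1) • ρ s u + e s • u ∈ C i) ∧
      (∀ i s, ∀ u ∈ C i, ρ s u ∈ C i) := by
  -- multiplication by `P` as an endomorphism
  obtain ⟨p, hp⟩ : ∃ p : Module.End k A, ∀ u, p u = P • u :=
    ⟨(P : ℕ) • (1 : Module.End k A), fun u => by
      rw [LinearMap.smul_apply, Module.End.one_apply]⟩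
  have hpn : ∀ (n : ℕ) (u : A), (p ^ n) u = P ^ n • u := by
    intro n
    induction n with
    | zero => intro u; rw [pow_zero, pow_zero, Module.End.one_apply, one_smul]
    | succ n ih => intro u; rw [pow_succ', Module.End.mul_apply, ih, hp, pow_succ', mul_smul]
  have hpc : ∀ (g : Module.End k A) (u : A), p (g u) = g (p u) := by
    intro g u
    rw [hp, hp, map_nsmul]
  let 𝒯' : Set (Module.End k A) := insert p 𝒯
  have hmem' : ∀ t, t ∈ 𝒯' ↔ t = p ∨ t ∈ 𝒯 := fun t => Set.mem_insert_iff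
  have hcomm' : ∀ t ∈ 𝒯', ∀ t' ∈ 𝒯', ∀ u, t (t' u) = t' (t u) := by
    intro t ht t' ht' u
    rcases (hmem' t).1 ht with h1 | h1
    · rw [h1]; exact hpc t' u
    · rcases (hmem' t').1 ht' with h2 | h2
      · rw [h2]; exact (hpc t u).symm
      · exact hcomm t h1 t' h2 u
  have hnil' : ∀ t ∈ 𝒯', ∀ u, ∃ n : ℕ, (t ^ n) u = 0 := by
    intro t ht u
    rcases (hmem' t).1 ht with h1 | h1
    · obtain ⟨n, hn⟩ := hPnil u
      exact ⟨n, by rw [h1, hpn, hn]⟩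
    · exact hnil t h1 u
  have hG' : ∀ t ∈ 𝒯', ∀ s u, t (ρ s u) = ρ s (t u) := by
    intro t ht s u
    rcases (hmem' t).1 ht with h1 | h1
    · rw [h1]; exact hpc (ρ s) u
    · exact hG t h1 s u
  have hCst : ∀ i s, ∀ u ∈ kerFil 𝒯' i, ρ s u ∈ kerFil 𝒯' i := fun i s =>
    kerFil_stable_of_comm 𝒯' (ρ s) (fun t ht u => hG' t ht s u) i
  have hCP : ∀ i, ∀ u ∈ kerFil 𝒯' (i + 1), P • u ∈ kerFil 𝒯' i := by
    intro i u hu
    rw [← hp]
    exact (mem_kerFil_succ 𝒯' i u).1 hu p ((hmem' p).2 (Or.inl rfl))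
  refine ⟨Nat.card A, kerFil 𝒯', rfl, kerFil_card_eq_top 𝒯' hcomm' hnil', fun i _ => hCP i, ?_,
    hCst⟩
  intro i _ s u hu
  obtain ⟨f, τ, j, c, t, ht, hc, hES, hconj, hχ⟩ := hfrob s
  have step1 : ∀ u ∈ kerFil 𝒯' (i + 1), quadE (ρ f) c u ∈ kerFil 𝒯' i := by
    intro u hu
    unfold quadE
    rw [hES u]
    exact hCst i f _ ((mem_kerFil_succ 𝒯' i u).1 hu t ((hmem' t).2 (Or.inr ht)))
  have step2 := quadE_pow_mem (ρ f) c (kerFil 𝒯' (i + 1)) (kerFil 𝒯' i) (hCst i f) step1 j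
  rw [← hconj] at step2
  have step4 := quadE_conj_mem ρ s τ (c ^ j) (kerFil 𝒯' (i + 1)) (kerFil 𝒯' i)
    (fun g => hCst (i + 1) g) (fun g => hCst i g) step2
  have hmm : (((c ^ j : ℕ) : ℕ) : ZMod P) = ((e s : ℕ) : ZMod P) := by
    rw [he, hχ, Units.val_pow_eq_pow_val, ← hc, Nat.cast_pow]
  exact quadE_congr_mem (ρ s) (c ^ j) (e s) hmm (kerFil 𝒯' (i + 1)) (kerFil 𝒯' i)
    (hCst (i + 1) s) (hCP i) u hu (step4 u hu)

/-- **(G-coarse), labelled flag** (shape `hflag` of the descent). -/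
theorem exists_flag_of_hecke [Finite A] (ρ : Representation k G A) (χ : G →* (ZMod P)ˣ)
    (e : G → ℕ) (he : ∀ s, ((e s : ℕ) : ZMod P) = ((χ s : (ZMod P)ˣ) : ZMod P))
    (hk : ∀ (c : k) (a : A), ∃ n : ℤ, c • a = n • a)
    (𝒯 : Set (Module.End k A))
    (hcomm : ∀ t ∈ 𝒯, ∀ t' ∈ 𝒯, ∀ u, t (t' u) = t' (t u))
    (hG : ∀ t ∈ 𝒯, ∀ s u, t (ρ s u) = ρ s (t u))
    (hnil : ∀ t ∈ 𝒯, ∀ u, ∃ n : ℕ, (t ^ n) u = 0)
    (hPnil : ∀ u : A, ∃ n : ℕ, P ^ n • u = 0)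
    (hfrob : ∀ s : G, ∃ (f τ : G) (j c : ℕ), ∃ t ∈ 𝒯,
      ((c : ℕ) : ZMod P) = ((χ f : (ZMod P)ˣ) : ZMod P) ∧
      (∀ u, ρ f (ρ f u) - (c + 1) • ρ f u + c • u = ρ f (t u)) ∧
      ρ (τ * s * τ⁻¹) = ρ f ^ j ∧ χ s = χ f ^ j)
    (A0 : Submodule k A)
    (hlab : (∀ s, χ s = 1) ∨ ∃ s₀ : G, χ s₀ ≠ 1 ∧ (∀ x, ρ s₀ x - x ∈ A0) ∧
      ∀ x ∈ A0, ∃ n : ℤ, ((n : ℤ) : ZMod P) = ((χ s₀ : (ZMod P)ˣ) : ZMod P) ∧ ρ s₀ x = n • x) :
    ∃ n, ∃ F : ℕ → Submodule k A, F 0 = ⊥ ∧ F n = ⊤ ∧ (∀ m, F m ≤ F (m + 1)) ∧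
      (∀ m s, ∀ u ∈ F m, ρ s u ∈ F m) ∧
      ∀ m < n, Nat.card (F (m + 1)) = P * Nat.card (F m) ∧
        (((∀ s, ∀ u ∈ F (m + 1), ρ s u - u ∈ F m) ∧ F (m + 1) ⊓ A0 ≤ F m) ∨
          ((∀ s, ∀ u ∈ F (m + 1), ρ s u - e s • u ∈ F m) ∧ F (m + 1) ≤ F m ⊔ A0)) := by
  obtain ⟨r, C, hC0, hCr, hCP, hCrel, hCst⟩ :=
    exists_coarse_of_hecke ρ χ e he 𝒯 hcomm hG hnil hPnil hfrob
  exact exists_flag ρ χ e he hk r C hC0 hCr hCP hCrel hCst A0 hlab

/-- **(G-coarse), unlabelled flag**: no hypothesis on the position of the layers. -/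
theorem exists_flag_raw_of_hecke [Finite A] (ρ : Representation k G A) (χ : G →* (ZMod P)ˣ)
    (e : G → ℕ) (he : ∀ s, ((e s : ℕ) : ZMod P) = ((χ s : (ZMod P)ˣ) : ZMod P))
    (hk : ∀ (c : k) (a : A), ∃ n : ℤ, c • a = n • a)
    (𝒯 : Set (Module.End k A))
    (hcomm : ∀ t ∈ 𝒯, ∀ t' ∈ 𝒯, ∀ u, t (t' u) = t' (t u))
    (hG : ∀ t ∈ 𝒯, ∀ s u, t (ρ s u) = ρ s (t u))
    (hnil : ∀ t ∈ 𝒯, ∀ u, ∃ n : ℕ, (t ^ n) u = 0)
    (hPnil : ∀ u : A, ∃ n : ℕ, P ^ n • u = 0)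
    (hfrob : ∀ s : G, ∃ (f τ : G) (j c : ℕ), ∃ t ∈ 𝒯,
      ((c : ℕ) : ZMod P) = ((χ f : (ZMod P)ˣ) : ZMod P) ∧
      (∀ u, ρ f (ρ f u) - (c + 1) • ρ f u + c • u = ρ f (t u)) ∧
      ρ (τ * s * τ⁻¹) = ρ f ^ j ∧ χ s = χ f ^ j)
    (A0 : Submodule k A) :
    ∃ n, ∃ F : ℕ → Submodule k A, F 0 = ⊥ ∧ F n = ⊤ ∧ (∀ m, F m ≤ F (m + 1)) ∧
      (∀ m s, ∀ u ∈ F m, ρ s u ∈ F m) ∧
      ∀ m < n, Nat.card (F (m + 1)) = P * Nat.card (F m) ∧
        ((∀ s, ∀ u ∈ F (m + 1), ρ s u - u ∈ F m) ∨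
          (∀ s, ∀ u ∈ F (m + 1), ρ s u - e s • u ∈ F m)) ∧
        (F (m + 1) ⊓ A0 ≤ F m ∨ F (m + 1) ≤ F m ⊔ A0) ∧ (∀ u ∈ F (m + 1), P • u ∈ F m) := by
  obtain ⟨r, C, hC0, hCr, hCP, hCrel, hCst⟩ :=
    exists_coarse_of_hecke ρ χ e he 𝒯 hcomm hG hnil hPnil hfrob
  exact exists_flag_raw ρ χ e he hk r C hC0 hCr hCP hCrel hCst A0

end Main

end Fermat.Agent.S15.G.Coarse
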