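import Fermat.Agent.S13.Minkowski
import Fermat.Agent.S56.Coh.Defs
import Fermat.Agent.S30.Algebra.Cyclotomic
import Fermat.Agent.CFT.Bridge.Cyclo
import Fermat.Agent.CFT.LocalBridge.Conjugacy
import Fermat.Agent.Lib.FrobeniusExists

/-!
# PROJECT M (S15), block [G]: the mod `p` cyclotomic character at Frobenius and at inertia

* `cycloChar_isFrobeniusAt` : `cycloChar p φ = ℓ` for a Frobenius element `φ` at `ℓ ≠ p`;
* `exists_mem_Iq_cycloChar_ne_one` : for `p` odd the cyclotomic character is non-trivial on the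
  inertia group `Iq p` (Minkowski: it is unramified outside `p` and non-trivial).
-/

set_option autoImplicit false

namespace Fermat.Agent.S15.G.CycloRam

open scoped Pointwise

local notation "Kb" => AlgebraicClosure ℚ
local notation "GQ" => (AlgebraicClosure ℚ ≃ₐ[ℚ] AlgebraicClosure ℚ)

variable (p : ℕ) [Fact p.Prime]

/-- `cycloChar p φ = ℓ` for a Frobenius element `φ` at `ℓ ≠ p`. -/
theorem cycloChar_isFrobeniusAt {ℓ : ℕ} (hℓ : ℓ.Prime) (hℓp : ℓ ≠ p) (A : ValuationSubring Kb)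
    (hA : A.LiesOverPrime ℓ) (φ : GQ) (hφ : A.IsFrobeniusAt φ ℓ) :
    ((ℓ : ℕ) : ZMod p) = ((ExtCitation.cycloChar p φ : (ZMod p)ˣ) : ZMod p) := by
  have hne : NeZero p := ⟨(Fact.out : p.Prime).ne_zero⟩
  obtain ⟨ζ, hζ⟩ := Fermat.Agent.CFT.Bridge.exists_isPrimitiveRoot_Qbar p
  have hp0 : p ≠ 0 := (Fact.out : p.Prime).ne_zero
  have hζA : ζ ∈ A := Fermat.Agent.S30.Algebra.Cyclotomic.mem_of_pow_eq_one A hp0 hζ.pow_eq_one
  have h1 : φ ζ = ζ ^ ((ExtCitation.cycloChar p φ : ZMod p)).val :=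
    Fermat.Agent.CFT.Bridge.apply_eq_pow_cycloChar p hζ φ
  have h2 : φ ζ - ζ ^ ℓ ∈ A.nonunits :=
    Fermat.Agent.S30.Algebra.Cyclotomic.isFrobeniusAt_apply hφ ζ hζA
  have h3 : φ ζ = ζ ^ ℓ := by
    refine Fermat.Agent.S30.Algebra.Cyclotomic.eq_of_sub_mem_nonunits p A hℓ hℓp hA (n := 1)
      ?_ ?_ h2
    · rw [pow_one, ← map_pow, hζ.pow_eq_one, map_one]
    · rw [pow_one, ← pow_mul, mul_comm, pow_mul, hζ.pow_eq_one, one_pow]
  have h4 : ζ ^ (ℓ % p) = ζ ^ ((ExtCitation.cycloChar p φ : ZMod p)).val := by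
    rw [← h1, h3]
    conv_rhs => rw [← Nat.div_add_mod ℓ p, pow_add, pow_mul, hζ.pow_eq_one, one_pow, one_mul]
  have h5 : ℓ % p = ((ExtCitation.cycloChar p φ : ZMod p)).val :=
    hζ.pow_inj (Nat.mod_lt _ (Nat.pos_of_ne_zero hp0)) (ZMod.val_lt _) h4
  rw [← ZMod.natCast_mod, h5, ZMod.natCast_zmod_val]

/-- for `p` odd the mod `p` cyclotomic character is not trivial -/
theorem exists_cycloChar_ne_one (hp2 : p ≠ 2) : ∃ s : GQ, ExtCitation.cycloChar p s ≠ 1 := by
  obtain ⟨A, hA⟩ :=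
    Fermat.Agent.Lib.FrobeniusExists.exists_valuationSubring_liesOverPrime (L := Kb) 2
      Nat.prime_two
  obtain ⟨φ, hφ⟩ :=
    Fermat.Agent.Lib.FrobeniusExists.exists_isFrobeniusAt_algebraicClosure A Nat.prime_two hA
  refine ⟨φ, fun h => ?_⟩
  have h1 := cycloChar_isFrobeniusAt p Nat.prime_two (Ne.symm hp2) A hA φ hφ
  rw [h, Units.val_one] at h1
  -- `2 = 1` in `ZMod p`
  have h2 : ((1 : ℕ) : ZMod p) = 0 := by
    have : ((2 : ℕ) : ZMod p) = ((1 : ℕ) : ZMod p) + ((1 : ℕ) : ZMod p) := by push_cast; ring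
    rw [this, Nat.cast_one] at h1
    rw [Nat.cast_one]
    exact add_eq_right.1 h1
  rw [ZMod.natCast_eq_zero_iff] at h2
  exact (Fact.out : p.Prime).one_lt.ne' (Nat.dvd_one.1 h2)

/-- **the cyclotomic character is ramified at `p`** (`p` odd): some element of the inertia group
`Iq p` has non-trivial cyclotomic character. -/
theorem exists_mem_Iq_cycloChar_ne_one (hp2 : p ≠ 2) :
    ∃ s ∈ Fermat.Agent.S56.Coh.Iq p, ExtCitation.cycloChar p s ≠ 1 := by
  refine not_not.1 fun hneg => ?_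
  have hcon : ∀ s ∈ Fermat.Agent.S56.Coh.Iq p, ExtCitation.cycloChar p s = 1 :=
    fun s hs => not_not.1 fun h => hneg ⟨s, hs, h⟩
  have hp : p.Prime := Fact.out
  obtain ⟨F, hFfd, hF⟩ := Fermat.Agent.CFT.Bridge.exists_finite_cycloChar_eq_one p
  have htop : (ExtCitation.cycloChar p).ker = ⊤ := by
    refine Fermat.Agent.S13.Minkowski.eq_top_of_inertia_le _ F
      (fun s hs => MonoidHom.mem_ker.2 (hF s hs)) ?_
    intro l hl A hA s hs
    rw [MonoidHom.mem_ker]
    by_cases hlp : l = p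
    · subst hlp
      obtain ⟨τ, hτ⟩ := Fermat.Agent.CFT.LocalBridge.exists_smul_eq_of_liesOverPrime hl
        (Fermat.Agent.CFT.LocalBridge.liesOverPrime_padicPlace (q := l)) hA
      rw [← hτ, Fermat.Agent.CFT.LocalBridge.mem_inertiaSubgroupIn_smul_iff] at hs
      have h1 := hcon _ hs
      rw [map_mul, map_mul, map_inv, mul_comm ((ExtCitation.cycloChar l τ)⁻¹), mul_assoc,
        inv_mul_cancel, mul_one] at h1
      exact h1
    · exact Fermat.Agent.CFT.Bridge.cycloChar_eq_one_of_mem_inertia p hl hlp A hA hs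
  obtain ⟨s, hs⟩ := exists_cycloChar_ne_one p hp2
  apply hs
  have : s ∈ (ExtCitation.cycloChar p).ker := by rw [htop]; trivial
  exact MonoidHom.mem_ker.1 this

end Fermat.Agent.S15.G.CycloRam
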