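import Fermat.Agent.S15.K.Star
import Fermat.Agent.S15.G.HeckeComm
import Fermat.Agent.S15.G.Coarse
import Fermat.Agent.S15.G.CycloRam
import Fermat.Agent.S15.G.ChainInf
import Fermat.Agent.S56.Cheb.Dict
import Fermat.Agent.S30.Algebra.Cyclotomic
import Fermat.Agent.CFT.Bridge.Cyclo
import Fermat.Agent.S30.Arith.TateInputs
import Fermat.Agent.Lib.FrobeniusExists

/-!
# PROJECT M (S15), block [G], leaf (G-coarseJ): the labelled flag of the Eisenstein part of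
`J₀(N)[P ^ k]`

Instance of `Coarse.exists_flag_of_hecke` for `Gk N P k S` (block [K]): the operators are the
Eisenstein operators `a_r = T_r - (1 + r)`, `r ∉ S`; Eichler-Shimura is `HeckeComm.hecke_eq_frob`;
Chebotarev is `S56/Cheb/Dict.exists_prime_forall_frobenius`.
-/

set_option autoImplicit false
set_option synthInstance.maxHeartbeats 400000

namespace Fermat.Agent.S15.G.CoarseJ

open AlgebraicCurve ModularCurve
open Fermat.Agent.S15.K.Kummer Fermat.Agent.S15.K.Star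

local notation "Kb" => AlgebraicClosure ℚ
local notation "GQ" => (AlgebraicClosure ℚ ≃ₐ[ℚ] AlgebraicClosure ℚ)

/-! ### The Eisenstein operators on `Gk N P k S` -/

section Ops

variable (N : ℕ) [NeZero N] (P k : ℕ) (S : Set ℕ)

/-- the Eisenstein operators commute on `P ^ k`-torsion -/
theorem eisOps_comm (hP : P.Prime)
    (hS : ∀ r : Nat.Primes, (r : ℕ) ∉ S → ¬ (r : ℕ) ∣ N ∧ (r : ℕ) ≠ P)
    {a b : Module.End ℤ (JZero N)} (ha : a ∈ eisOps N S) (hb : b ∈ eisOps N S) {x : JZero N}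
    (hx : x ∈ Tm N (P ^ k)) : a (b x) = b (a x) := by
  obtain ⟨r, hr, ha⟩ := ha
  obtain ⟨s, hs, hb⟩ := hb
  have hx' : ∃ n : ℕ, P ^ n • x = 0 := ⟨k, mem_Tm_iff.1 hx⟩
  have hc := HeckeComm.hecke_comm_torsion' N hP r s (Or.inl (hS r hr)) hx'
  rw [eisOps_apply N ha, eisOps_apply N hb, eisOps_apply N hb, eisOps_apply N ha, map_sub,
    map_sub, map_nsmul, map_nsmul, hc, nsmul_sub, nsmul_sub,
    smul_comm (1 + (r : ℕ)) (1 + (s : ℕ)) x]
  abel

theorem eisOps_pow_comm (hP : P.Prime)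
    (hS : ∀ r : Nat.Primes, (r : ℕ) ∉ S → ¬ (r : ℕ) ∣ N ∧ (r : ℕ) ≠ P)
    {a b : Module.End ℤ (JZero N)} (ha : a ∈ eisOps N S) (hb : b ∈ eisOps N S) {x : JZero N}
    (hx : x ∈ Tm N (P ^ k)) (n : ℕ) : (b ^ n) (a x) = a ((b ^ n) x) := by
  induction n with
  | zero => rw [pow_zero, Module.End.one_apply, Module.End.one_apply]
  | succ n ih =>
    rw [pow_succ', Module.End.mul_apply, Module.End.mul_apply, ih]
    exact (eisOps_comm N P k S hP hS ha hb (end_mem_Tm N _ (b ^ n) hx)).symm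

/-- an Eisenstein operator as an endomorphism of `Gk N P k S` -/
theorem exists_eisEnd (hP : P.Prime)
    (hS : ∀ r : Nat.Primes, (r : ℕ) ∉ S → ¬ (r : ℕ) ∣ N ∧ (r : ℕ) ≠ P)
    {a : Module.End ℤ (JZero N)} (ha : a ∈ eisOps N S) :
    ∃ t : Module.End (ZMod (P ^ k)) (Gk N P k S), ∀ g : Gk N P k S,
      (((t g).1 : ↥(Tm N (P ^ k))) : JZero N) = a (((g.1 : ↥(Tm N (P ^ k))) : JZero N)) := by
  let f : (Gk N P k S) →+ (Gk N P k S) :=
    { toFun := fun g => ⟨⟨a ((g.1 : ↥(Tm N (P ^ k))) : JZero N),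
          end_mem_Tm N _ a (g.1 : ↥(Tm N (P ^ k))).2⟩, fun b hb => by
        obtain ⟨n, hn⟩ := (mem_eisW_iff N P k S).1 g.2 b hb
        exact ⟨n, by
          show (b ^ n) (a ((g.1 : ↥(Tm N (P ^ k))) : JZero N)) = 0
          rw [eisOps_pow_comm N P k S hP hS ha hb (g.1 : ↥(Tm N (P ^ k))).2, hn, map_zero]⟩⟩
      map_zero' := by
        apply Subtype.ext
        apply Subtype.ext
        exact map_zero a
      map_add' := fun g g' => by
        apply Subtype.ext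
        apply Subtype.ext
        exact map_add a _ _ }
  exact ⟨f.toZModLinearMap (P ^ k), fun g => rfl⟩

end Ops

/-! ### The labelled flag of `Gk N P k S` -/

section Main

open Fermat.Agent.S15.G.Coarse

variable (N : ℕ) [NeZero N] (P k : ℕ) (S : Set ℕ)

/-- the coordinate of an element of `Gk N P k S` in `J₀(N)(ℚ̄)` -/
def coordHom : (Gk N P k S) →+ JZero N where
  toFun := fun g => ((g.1 : ↥(Tm N (P ^ k))) : JZero N)
  map_zero' := rfl
  map_add' := fun _ _ => rfl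

theorem coordHom_injective : Function.Injective (coordHom N P k S) :=
  fun _ _ h => Subtype.ext (Subtype.ext h)

theorem coordHom_rho (σ : GQ) (g : Gk N P k S) :
    coordHom N P k S ((Gk N P k S).ρ σ g) = σ • coordHom N P k S g := rfl

theorem coordHom_torsion (g : Gk N P k S) : P ^ k • coordHom N P k S g = 0 :=
  mem_Tm_iff.1 (g.1 : ↥(Tm N (P ^ k))).2

theorem coordHom_mem_Tm (g : Gk N P k S) : coordHom N P k S g ∈ Tm N (P ^ k) :=
  (g.1 : ↥(Tm N (P ^ k))).2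

theorem finite_Gk' [NeZero (P ^ k)] : Finite (Gk N P k S) := by
  have h := Fermat.Agent.S30.Descent.PhiDictThm.finite_torsion N (NeZero.ne (P ^ k))
  have hfin : Finite ↥(Tm N (P ^ k)) := by
    refine (h.subset ?_).to_subtype
    intro x hx
    exact mem_Tm_iff.1 hx
  exact Finite.of_injective (fun g : Gk N P k S => (g.1 : ↥(Tm N (P ^ k))))
    fun _ _ h => Subtype.ext h

/-- **(G-coarseJ)**: the coarse filtration of the Eisenstein part of `J₀(N)[P ^ k]`. -/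
theorem exists_coarse_Gk [hPf : Fact P.Prime] [NeZero (P ^ k)] (hSfin : S.Finite)
    (hS : ∀ r : Nat.Primes, (r : ℕ) ∉ S → ¬ (r : ℕ) ∣ N ∧ (r : ℕ) ≠ P) :
    ∃ (r : ℕ) (C : ℕ → Submodule (ZMod (P ^ k)) (Gk N P k S)), C 0 = ⊥ ∧ C r = ⊤ ∧
      (∀ i < r, ∀ u ∈ C (i + 1), P • u ∈ C i) ∧
      (∀ i < r, ∀ s, ∀ u ∈ C (i + 1), (Gk N P k S).ρ s ((Gk N P k S).ρ s u) -
        (ExtCitation.cycloExp P s + 1) • (Gk N P k S).ρ s u + ExtCitation.cycloExp P s • u ∈ C i) ∧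
      (∀ i s, ∀ u ∈ C i, (Gk N P k S).ρ s u ∈ C i) := by
  have hP : P.Prime := hPf.out
  have hfin : Finite (Gk N P k S) := finite_Gk' N P k S
  let c := coordHom N P k S
  have hcinj : Function.Injective c := coordHom_injective N P k S
  let 𝒯 : Set (Module.End (ZMod (P ^ k)) (Gk N P k S)) :=
    {t | ∃ a ∈ eisOps N S, ∀ g, c (t g) = a (c g)}
  -- powers
  have hpow : ∀ (t : Module.End (ZMod (P ^ k)) (Gk N P k S)) (a : Module.End ℤ (JZero N)),
      (∀ g, c (t g) = a (c g)) → ∀ (n : ℕ) g, c ((t ^ n) g) = (a ^ n) (c g) := by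
    intro t a hta n
    induction n with
    | zero => intro g; rw [pow_zero, pow_zero, Module.End.one_apply, Module.End.one_apply]
    | succ n ih =>
      intro g
      rw [pow_succ', pow_succ', Module.End.mul_apply, Module.End.mul_apply, hta, ih]
  refine exists_coarse_of_hecke (Gk N P k S).ρ (ExtCitation.cycloChar P) (ExtCitation.cycloExp P)
    (fun s => (ExtCitation.coe_cycloChar P s).symm) 𝒯 ?_ ?_ ?_ ?_ ?_
  · -- commutativity
    rintro t ⟨a, ha, hta⟩ t' ⟨a', ha', hta'⟩ u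
    apply hcinj
    rw [hta, hta', hta', hta]
    exact eisOps_comm N P k S hP hS ha ha' (coordHom_mem_Tm N P k S u)
  · -- Galois
    rintro t ⟨a, ha, hta⟩ s u
    apply hcinj
    rw [hta, coordHom_rho, coordHom_rho, hta]
    exact closure_smul N S (eisOps_subset_closure N S ha) s _
  · -- nilpotent
    rintro t ⟨a, ha, hta⟩ u
    obtain ⟨n, hn⟩ := (mem_eisW_iff N P k S).1 u.2 a ha
    refine ⟨n, hcinj ?_⟩
    rw [hpow t a hta, map_zero]
    exact hn
  · -- `P`-primary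
    intro u
    refine ⟨k, hcinj ?_⟩
    rw [map_nsmul, map_zero]
    exact coordHom_torsion N P k S u
  · -- Frobenius elements
    intro s
    have hfinT : ∀ n : ℕ, {y : JZero N | P ^ n • y = 0}.Finite :=
      fun n => Fermat.Agent.S30.Descent.PhiDictThm.finite_pow_torsion N P hP.ne_zero n
    obtain ⟨E₁, hE₁fd, hE₁⟩ := Fermat.Agent.S30.Arith.TateInputs.openStabilisers N P hfinT k
    obtain ⟨F₂, hF₂fd, hF₂⟩ := Fermat.Agent.CFT.Bridge.exists_finite_cycloChar_eq_one P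
    have hLfd : FiniteDimensional ℚ ↥(E₁ ⊔ F₂) := IntermediateField.finiteDimensional_sup E₁ F₂
    obtain ⟨l, hl, hlT, hall⟩ :=
      Fermat.Agent.S56.Cheb.Dict.exists_prime_forall_frobenius (E₁ ⊔ F₂) s hSfin.toFinset
    have hlS : l ∉ S := fun h => hlT (hSfin.mem_toFinset.2 h)
    obtain ⟨hlN, hlP⟩ := hS ⟨l, hl⟩ hlS
    obtain ⟨A, hA⟩ :=
      Fermat.Agent.Lib.FrobeniusExists.exists_valuationSubring_liesOverPrime (L := Kb) l hl
    obtain ⟨φ, hφ⟩ :=
      Fermat.Agent.Lib.FrobeniusExists.exists_isFrobeniusAt_algebraicClosure A hl hA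
    obtain ⟨-, hfr⟩ := hall A hA
    obtain ⟨τ, k', j, -, hj⟩ := hfr φ hφ
    have ha : heckeOperatorBar N ⟨l, hl⟩ - ((1 + l : ℕ) : ℤ) • 1 ∈ eisOps N S :=
      ⟨⟨l, hl⟩, hlS, rfl⟩
    obtain ⟨t, ht⟩ := exists_eisEnd N P k S hP hS ha
    have ht' : ∀ g, coordHom N P k S (t g) =
        (heckeOperatorBar N ⟨l, hl⟩ - ((1 + l : ℕ) : ℤ) • 1) (coordHom N P k S g) := ht
    -- the element fixing `E₁ ⊔ F₂`
    have hσ' : ∀ y ∈ E₁ ⊔ F₂, ((φ ^ j)⁻¹ * (τ * s * τ⁻¹)) y = y := by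
      intro y hy
      rw [AlgEquiv.mul_apply, ← hj y hy]
      exact (φ ^ j).symm_apply_apply y
    have hact : ∀ x : JZero N, P ^ k • x = 0 → (τ * s * τ⁻¹) • x = (φ ^ j) • x := by
      intro x hx
      have h1 := hE₁ ((φ ^ j)⁻¹ * (τ * s * τ⁻¹)) (fun y hy => hσ' y (le_sup_left (a := E₁) hy))
        x hx
      have h2 : (τ * s * τ⁻¹) = (φ ^ j) * ((φ ^ j)⁻¹ * (τ * s * τ⁻¹)) := by group
      rw [h2, mul_smul, h1]
    have hχ' : ExtCitation.cycloChar P ((φ ^ j)⁻¹ * (τ * s * τ⁻¹)) = 1 := by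
      apply hF₂
      rw [IntermediateField.mem_fixingSubgroup_iff]
      intro y hy
      exact hσ' y (le_sup_right (a := E₁) hy)
    refine ⟨φ, τ, j, l, t, ⟨_, ha, ht⟩, CycloRam.cycloChar_isFrobeniusAt P hl hlP A hA φ hφ,
      ?_, ?_, ?_⟩
    · -- Eichler-Shimura
      intro u
      apply hcinj
      have hx : ∃ n : ℕ, P ^ n • c u = 0 := ⟨k, coordHom_torsion N P k S u⟩
      have hES := HeckeComm.hecke_eq_frob N hP ⟨l, hl⟩ hlN hlP A hA hφ hx
      rw [map_add, map_sub, map_nsmul, map_nsmul, coordHom_rho, coordHom_rho, coordHom_rho, ht',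
        eisOps_apply N rfl, hES]
      simp only [smul_sub, smul_add, smul_comm φ, smul_inv_smul, add_smul, one_smul]
      abel
    · -- conjugate to a power
      rw [← map_pow]
      apply LinearMap.ext
      intro u
      apply hcinj
      rw [coordHom_rho, coordHom_rho]
      exact hact _ (coordHom_torsion N P k S u)
    · -- the character
      rw [map_mul, map_inv, map_pow, map_mul, map_mul, map_inv] at hχ'
      have h3 : ExtCitation.cycloChar P τ * ExtCitation.cycloChar P s *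
          (ExtCitation.cycloChar P τ)⁻¹ = ExtCitation.cycloChar P s := by
        rw [mul_comm (ExtCitation.cycloChar P τ), mul_assoc, mul_inv_cancel, mul_one]
      rw [h3] at hχ'
      exact (inv_mul_eq_one.1 hχ').symm

/-- **(G-coarseJ), labelled flag** of the Eisenstein part of `J₀(N)[P ^ k]`, in the shape of the
flag hypothesis of the descent. -/
theorem exists_flag_Gk [hPf : Fact P.Prime] [NeZero (P ^ k)] (hSfin : S.Finite)
    (hS : ∀ r : Nat.Primes, (r : ℕ) ∉ S → ¬ (r : ℕ) ∣ N ∧ (r : ℕ) ≠ P)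
    (A0 : Submodule (ZMod (P ^ k)) (Gk N P k S))
    (hlab : (∀ s, ExtCitation.cycloChar P s = 1) ∨
      ∃ s₀ : GQ, ExtCitation.cycloChar P s₀ ≠ 1 ∧ (∀ x, (Gk N P k S).ρ s₀ x - x ∈ A0) ∧
        ∀ x ∈ A0, ∃ n : ℤ,
          ((n : ℤ) : ZMod P) = ((ExtCitation.cycloChar P s₀ : (ZMod P)ˣ) : ZMod P) ∧
          (Gk N P k S).ρ s₀ x = n • x) :
    ∃ n, ∃ F : ℕ → Submodule (ZMod (P ^ k)) (Gk N P k S), F 0 = ⊥ ∧ F n = ⊤ ∧
      (∀ m, F m ≤ F (m + 1)) ∧ (∀ m s, ∀ u ∈ F m, (Gk N P k S).ρ s u ∈ F m) ∧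
      ∀ m < n, Nat.card (F (m + 1)) = P * Nat.card (F m) ∧
        (((∀ s, ∀ u ∈ F (m + 1), (Gk N P k S).ρ s u - u ∈ F m) ∧ F (m + 1) ⊓ A0 ≤ F m) ∨
          ((∀ s, ∀ u ∈ F (m + 1), (Gk N P k S).ρ s u - ExtCitation.cycloExp P s • u ∈ F m) ∧
            F (m + 1) ≤ F m ⊔ A0)) := by
  have hfin : Finite (Gk N P k S) := finite_Gk' N P k S
  obtain ⟨r, C, hC0, hCr, hCP, hCrel, hCst⟩ := exists_coarse_Gk N P k S hSfin hS
  exact Flag.exists_flag (Gk N P k S).ρ (ExtCitation.cycloChar P) (ExtCitation.cycloExp P)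
    (fun s => (ExtCitation.coe_cycloChar P s).symm) (Flag.hk_zmod (P ^ k)) r C hC0 hCr hCP hCrel
    hCst A0 hlab

/-- **(G-coarseJ), unlabelled flag**: Galois-stable, layers of order `P` killed by `P`, with
trivial or cyclotomic action; no input from the local theory at `P`. -/
theorem exists_flag_raw_Gk [hPf : Fact P.Prime] [NeZero (P ^ k)] (hSfin : S.Finite)
    (hS : ∀ r : Nat.Primes, (r : ℕ) ∉ S → ¬ (r : ℕ) ∣ N ∧ (r : ℕ) ≠ P)
    (A0 : Submodule (ZMod (P ^ k)) (Gk N P k S)) :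
    ∃ n, ∃ F : ℕ → Submodule (ZMod (P ^ k)) (Gk N P k S), F 0 = ⊥ ∧ F n = ⊤ ∧
      (∀ m, F m ≤ F (m + 1)) ∧ (∀ m s, ∀ u ∈ F m, (Gk N P k S).ρ s u ∈ F m) ∧
      ∀ m < n, Nat.card (F (m + 1)) = P * Nat.card (F m) ∧
        ((∀ s, ∀ u ∈ F (m + 1), (Gk N P k S).ρ s u - u ∈ F m) ∨
          (∀ s, ∀ u ∈ F (m + 1), (Gk N P k S).ρ s u - ExtCitation.cycloExp P s • u ∈ F m)) ∧
        (F (m + 1) ⊓ A0 ≤ F m ∨ F (m + 1) ≤ F m ⊔ A0) ∧ (∀ u ∈ F (m + 1), P • u ∈ F m) := by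
  have hfin : Finite (Gk N P k S) := finite_Gk' N P k S
  obtain ⟨r, C, hC0, hCr, hCP, hCrel, hCst⟩ := exists_coarse_Gk N P k S hSfin hS
  exact Flag.exists_flag_raw (Gk N P k S).ρ (ExtCitation.cycloChar P) (ExtCitation.cycloExp P)
    (fun s => (ExtCitation.coe_cycloChar P s).symm) (Flag.hk_zmod (P ^ k)) r C hC0 hCr hCP hCrel
    hCst A0

/-- **the chain hypothesis of the local theory at `P`** (block (K-P), `isInt_restrict` /
`act_eq_nsmul_on_G0`): every subgroup `B` of `Gk N P k S` stable under a set `Γ` of Galois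
elements carries a `Γ`-stable chain `⊥ = Fl 0 ≤ … ≤ Fl n = B` with successive indices `1` or `P`
(the Galois-stable flag intersected with `B`). -/
theorem exists_chain_Gk [hPf : Fact P.Prime] [NeZero (P ^ k)] (hSfin : S.Finite)
    (hS : ∀ r : Nat.Primes, (r : ℕ) ∉ S → ¬ (r : ℕ) ∣ N ∧ (r : ℕ) ≠ P)
    (Γ : Set GQ) (B : AddSubgroup (Gk N P k S))
    (hB : ∀ σ ∈ Γ, ∀ s ∈ B, (Gk N P k S).ρ σ s ∈ B) :
    ∃ (n : ℕ) (Fl : ℕ → AddSubgroup (Gk N P k S)), Fl 0 = ⊥ ∧ Fl n = B ∧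
      (∀ i < n, Fl i ≤ Fl (i + 1)) ∧
      (∀ i ≤ n, ∀ σ ∈ Γ, ∀ s ∈ Fl i, (Gk N P k S).ρ σ s ∈ Fl i) ∧
      (∀ i < n, (Fl i).relIndex (Fl (i + 1)) = 1 ∨ (Fl i).relIndex (Fl (i + 1)) = P) := by
  have hfin : Finite (Gk N P k S) := finite_Gk' N P k S
  obtain ⟨n, F, hF0, hFn, hmono, hstab, hpieces⟩ := exists_flag_raw_Gk N P k S hSfin hS ⊥
  obtain ⟨h1, h2, h3, h4⟩ := ChainInf.chain_inf hPf.out n (fun i => (F i).toAddSubgroup)
    (by show (F 0).toAddSubgroup = ⊥; rw [hF0]; rfl)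
    (by show (F n).toAddSubgroup = ⊤; rw [hFn]; rfl)
    (fun m => Submodule.toAddSubgroup_mono (hmono m))
    (fun m hm => (hpieces m hm).1) B
  refine ⟨n, fun i => (F i).toAddSubgroup ⊓ B, h1, h2, h3, ?_, h4⟩
  intro i _ σ hσ s hs
  exact ⟨hstab i σ s hs.1, hB σ hσ s hs.2⟩

end Main

end Fermat.Agent.S15.G.CoarseJ
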