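import Fermat.Agent.S15.G.NonScalarX0
import Fermat.Prelude.Def_GaloisRep_ComplexConjugation

/-!
# PROJECT M, block [S], leaf (S-c'): the determinant of the TRUE eigen-representation

`R` a local principal ideal domain of characteristic zero, a `ℤ_[p]`-algebra; `c : Nat.Primes → R` a
system of eigenvalues; `V_c ⊂ R ⊗ T_p J₀(N)` the eigen-lattice of the Hecke operators.

* `eR` : the comparison `R ⊗[ℤ_p] T_p J₀(N) ≃ R ⊗[ℤ] Hom_par(Γ₀(N), ℤ)` (from `ConjTate.ep`),
  `eR_hecke`, `eR_conj`;
* **`conj_not_scalar`** : complex conjugation is not a scalar on a nonzero eigen-lattice;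
* **`det_eq_cycChar`** : for the representation `EigenLattice.galoisRep` of `S30/Final/Chain` on a
  rank-two eigen-lattice, `det ρ(σ) = χ_cyc(σ)` for ALL `σ`, and the Frobenius characteristic
  polynomial.
-/

set_option autoImplicit false
set_option linter.unusedSectionVars false
set_option linter.style.haveILetI false

open scoped TensorProduct ComplexConjugate
open CongruenceSubgroup ModularCurve ModularCurve.Period

noncomputable section

namespace Fermat.Agent.S15.G.DetCyc

open Fermat.Agent.S30.Eigen.Transfer Fermat.Agent.S30.Hecke.Parabolic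
open Fermat.Agent.S30.Padic.TateModule Fermat.Agent.S30.Padic.EigenLattice
open Fermat.Agent.S30.Padic Fermat.Agent.S30.Padic.Assembly Fermat.Agent.S30.Padic.EigenCompare
open Fermat.Agent.S30.Final.Chain Fermat.Agent.S30.Spec
open Fermat.Agent.S30.Arith Fermat.Agent.S30.Algebra
open IsLocalRing Polynomial
open Fermat.Agent.S15.G.NonScalar Fermat.Agent.S15.G.ConjTate Fermat.Agent.S15.G.NonScalarX0

local notation "Kb" => AlgebraicClosure ℚ
local notation "GQ" => (AlgebraicClosure ℚ ≃ₐ[ℚ] AlgebraicClosure ℚ)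

/-- the Prelude embedding `ℚ̄ → ℂ` as a ring homomorphism -/
def iotaC : Kb →+* ℂ := (complexEmbedding : Kb →ₐ[ℚ] ℂ).toRingHom

theorem iotaC_conj (z : Kb) : iotaC (complexConjugation z) = conj (iotaC z) :=
  complexEmbedding_complexConjugation z

variable (N : ℕ) [NeZero N]

/-- the dictionary for the Prelude embedding -/
theorem dict : PhiDict N iotaC := Fermat.Agent.S30.Descent.PhiDictThm.phiDict N iotaC

variable (p : ℕ) [Fact p.Prime] (R : Type) [CommRing R] [Algebra ℤ_[p] R]

/-- the comparison over `R` -/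
def eR : R ⊗[ℤ_[p]] Tp p (JZero N) ≃ₗ[R] R ⊗[ℤ] ↥(parabolicHoms ℤ (Gamma0 N) ℤ) :=
  compareEquiv p R (ep (dict N) p)

theorem eR_hecke (r : Nat.Primes) (v : R ⊗[ℤ_[p]] Tp p (JZero N)) :
    eR N p R (opVHom p R (JZero N) (heckeEnd N r) v) =
      (tauPar ℤ ℤ N r r.2).baseChange R (eR N p R v) :=
  compareEquiv_intertwines p R (ep (dict N) p) _ (tauPar ℤ ℤ N r r.2)
    (ep_hecke (dict N) p r) v

theorem eR_conj (v : R ⊗[ℤ_[p]] Tp p (JZero N)) :
    eR N p R (rhoV p R (JZero N) (complexConjugation : GQ) v) =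
      -((epsM N).baseChange R (eR N p R v)) := by
  have h := compareEquiv_intertwines p R (ep (dict N) p)
    (Tp.mapEnd (galEnd (N := N) complexConjugation)) (-(epsM N))
    (fun x => by
      rw [ep_conj (dict N) p complexConjugation iotaC_conj x, LinearMap.baseChange_neg,
        LinearMap.neg_apply]) v
  rw [LinearMap.baseChange_neg, LinearMap.neg_apply] at h
  exact h

section NonScalar

variable (N : ℕ) [NeZero N] (p : ℕ) [Fact p.Prime] (R : Type) [CommRing R] [Algebra ℤ_[p] R]
  [IsDomain R] [IsPrincipalIdealRing R] [CharZero R]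

set_option maxHeartbeats 800000 in
theorem conj_not_scalar_aux (L : Type) [Field L] [Algebra R L] [IsFractionRing R L] [CharZero L]
    (c : Nat.Primes → R)
    (h2 : Module.finrank R
      (eigenLattice (fun r => opVHom p R (JZero N) (heckeEnd N r)) c) = 2) :
    ¬ ∃ a : R, ∀ v ∈ eigenLattice (fun r => opVHom p R (JZero N) (heckeEnd N r)) c,
      rhoV p R (JZero N) (complexConjugation : GQ) v = a • v := by
  rintro ⟨a, ha⟩
  have hp : p.Prime := Fact.out
  have H2 : {y : JZero N | p • y = 0}.Finite :=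
    Fermat.Agent.S30.Descent.PhiDictThm.finite_torsion N hp.ne_zero
  haveI : Module.Finite ℤ_[p] (Tp p (JZero N)) := Tp.finite_of_finite H2
  haveI : Module.Free ℤ_[p] (Tp p (JZero N)) := Tp.free_of_finite H2
  let j : R ⊗[ℤ_[p]] Tp p (JZero N) →ₗ[R] L ⊗[ℤ] ↥(parabolicHoms ℤ (Gamma0 N) ℤ) :=
    toFrac R L ↥(parabolicHoms ℤ (Gamma0 N) ℤ) ∘ₗ (eR N p R).toLinearMap
  haveI : IsLocalizedModule (nonZeroDivisors R) j :=
    IsLocalizedModule.of_linearEquiv_right (nonZeroDivisors R)
      (toFrac R L ↥(parabolicHoms ℤ (Gamma0 N) ℤ)) (eR N p R)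
  let t := fun r : Nat.Primes => opVHom p R (JZero N) (heckeEnd N r)
  let tK := fun r : Nat.Primes => (tauPar ℤ ℤ N r r.2).baseChange L
  have htK : ∀ r v, tK r (j v) = j (t r v) := by
    intro r v
    show (tauPar ℤ ℤ N r r.2).baseChange L
        (toFrac R L ↥(parabolicHoms ℤ (Gamma0 N) ℤ) (eR N p R v)) =
      toFrac R L ↥(parabolicHoms ℤ (Gamma0 N) ℤ)
        (eR N p R (opVHom p R (JZero N) (heckeEnd N r) v))
    rw [eR_hecke, baseChange_toFrac]
  have hjc : ∀ v, j (rhoV p R (JZero N) (complexConjugation : GQ) v) =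
      -((epsM N).baseChange L (j v)) := by
    intro v
    show toFrac R L ↥(parabolicHoms ℤ (Gamma0 N) ℤ)
        (eR N p R (rhoV p R (JZero N) (complexConjugation : GQ) v)) =
      -((epsM N).baseChange L (toFrac R L ↥(parabolicHoms ℤ (Gamma0 N) ℤ) (eR N p R v)))
    rw [eR_conj, map_neg, baseChange_toFrac]
  have hrank : Module.finrank L (eigenLattice tK (fun r => algebraMap R L (c r))) = 2 := by
    rw [← finrank_eigenLattice_eq t c L j tK htK]
    exact h2
  have hne : eigen (fun r : Nat.Primes => (tauPar ℤ ℤ N r r.2).baseChange L)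
      (fun r => algebraMap R L (c r)) ≠ ⊥ := by
    intro h0
    have : Module.finrank L (eigenLattice tK (fun r => algebraMap R L (c r))) = 0 := by
      show Module.finrank L (eigen tK (fun r => algebraMap R L (c r))) = 0
      rw [h0, finrank_bot]
    omega
  refine epsM_not_scalar N (fun r => algebraMap R L (c r)) hne ⟨-(algebraMap R L a), ?_⟩
  intro y hy
  obtain ⟨⟨v, s⟩, hs⟩ := IsLocalizedModule.surj (nonZeroDivisors R) j y
  replace hs : s • y = j v := hs
  have hs0 : (s : R) ≠ 0 := nonZeroDivisors.ne_zero s.2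
  have hsL : algebraMap R L (s : R) ≠ 0 := by
    rwa [Ne, map_eq_zero_iff _ (IsFractionRing.injective R L)]
  have hs' : j v = algebraMap R L (s : R) • y := by
    rw [← hs, Submonoid.smul_def, algebraMap_smul]
  have hv : v ∈ eigenLattice t c := by
    apply mem_eigenLattice_of_localized t c L j tK htK
    rw [hs']
    exact Submodule.smul_mem _ _ hy
  have h3 := hjc v
  rw [ha v hv, map_smul, hs', map_smul, ← algebraMap_smul L a, smul_smul] at h3
  -- h3 : (a * s) • y = -(s • ε y)
  have h4 : algebraMap R L (s : R) • ((epsM N).baseChange L y) =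
      algebraMap R L (s : R) • (-(algebraMap R L a) • y) := by
    rw [smul_smul, mul_neg, neg_smul, mul_comm, h3, neg_neg]
  exact smul_right_injective _ hsL h4

/-- **complex conjugation is not a scalar on a rank-two Hecke eigen-lattice** -/
theorem conj_not_scalar (c : Nat.Primes → R)
    (h2 : Module.finrank R
      (eigenLattice (fun r => opVHom p R (JZero N) (heckeEnd N r)) c) = 2) :
    ¬ ∃ a : R, ∀ v ∈ eigenLattice (fun r => opVHom p R (JZero N) (heckeEnd N r)) c,
      rhoV p R (JZero N) (complexConjugation : GQ) v = a • v := by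
  haveI : CharZero (FractionRing R) :=
    charZero_of_injective_algebraMap (IsFractionRing.injective R (FractionRing R))
  exact conj_not_scalar_aux N p R (FractionRing R) c h2

end NonScalar

section Det

variable (N : ℕ) [NeZero N] (p : ℕ) [Fact p.Prime] (R : Type) [CommRing R] [Algebra ℤ_[p] R]
  [IsDomain R] [IsPrincipalIdealRing R] [IsLocalRing R] [CharZero R]

theorem finite_p_torsion : {y : JZero N | p • y = 0}.Finite :=
  Fermat.Agent.S30.Descent.PhiDictThm.finite_torsion N (Fact.out : p.Prime).ne_zero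

theorem openStab (n : ℕ) : ∃ E : IntermediateField ℚ (AlgebraicClosure ℚ),
    FiniteDimensional ℚ E ∧
      ∀ σ : GQ, (∀ x ∈ E, σ x = x) → ∀ y : JZero N, p ^ n • y = 0 → σ • y = y :=
  Smooth.exists_finite_fixing_torsion N (p ^ n) (finite_torsion_pow p (finite_p_torsion N p) n)

/-- **the TRUE eigen-representation**: the action of `G_ℚ` on a rank-two Hecke eigen-lattice of
`R ⊗ T_p J₀(N)` (the `ρ` of `S30/Padic/Assembly.exists_galoisRep`, before any replacement) -/
def rhoEigen (hpR : (p : R) ∈ maximalIdeal R) (c : Nat.Primes → R)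
    (h2 : Module.finrank R
      (eigenLattice (fun r => opVHom p R (JZero N) (heckeEnd N r)) c) = 2) : GaloisRepAdic R :=
  haveI : Module.Finite ℤ_[p] (Tp p (JZero N)) := Tp.finite_of_finite (finite_p_torsion N p)
  haveI : Module.Free ℤ_[p] (Tp p (JZero N)) := Tp.free_of_finite (finite_p_torsion N p)
  galoisRep (fun r => opVHom p R (JZero N) (heckeEnd N r)) c (rhoV p R (JZero N))
    (fun σ r => commute_rhoV_opVHom p R σ (heckeEnd N r)
      (fun y => HeckeGalois.heckeOperatorBar_smul N r σ y))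
    (isAdicContinuous_rhoV p (R := R) (J := JZero N) hpR (openStab N p)) h2
  
theorem rhoEigen_apply (hpR : (p : R) ∈ maximalIdeal R) (c : Nat.Primes → R)
    (h2 : Module.finrank R
      (eigenLattice (fun r => opVHom p R (JZero N) (heckeEnd N r)) c) = 2) (σ : GQ)
    (v : eigenLattice (fun r => opVHom p R (JZero N) (heckeEnd N r)) c) :
    ((show eigenLattice (fun r => opVHom p R (JZero N) (heckeEnd N r)) c from
      (rhoEigen N p R hpR c h2).ρ σ v) : R ⊗[ℤ_[p]] Tp p (JZero N)) =
      rhoV p R (JZero N) σ v := rfl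

/-- complex conjugation is not a scalar in the true eigen-representation -/
theorem rhoEigen_conj_not_scalar (hpR : (p : R) ∈ maximalIdeal R) (c : Nat.Primes → R)
    (h2 : Module.finrank R
      (eigenLattice (fun r => opVHom p R (JZero N) (heckeEnd N r)) c) = 2) :
    ¬ DetLemma.End.IsScalar ((rhoEigen N p R hpR c h2).ρ (complexConjugation : GQ)) := by
  rintro ⟨a, ha⟩
  refine conj_not_scalar N p R c h2 ⟨a, fun v hv => ?_⟩
  have h := congrArg (fun F : Module.End R (rhoEigen N p R hpR c h2).V =>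
    ((show eigenLattice (fun r => opVHom p R (JZero N) (heckeEnd N r)) c from F ⟨v, hv⟩) :
      R ⊗[ℤ_[p]] Tp p (JZero N))) ha
  exact h

/-- the Frobenius relation in the true eigen-representation -/
theorem rhoEigen_frobRelation (hpR : (p : R) ∈ maximalIdeal R) (c : Nat.Primes → R)
    (h2 : Module.finrank R
      (eigenLattice (fun r => opVHom p R (JZero N) (heckeEnd N r)) c) = 2)
    (Sg : Finset ℕ) (hpS : p ∈ Sg) (hNS : ∀ q : ℕ, q.Prime → q ∣ N → q ∈ Sg) :
    DetGalois.FrobRelation (rhoEigen N p R hpR c h2) Sg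
      (fun ℓ => if h : ℓ.Prime then c ⟨ℓ, h⟩ else 0) := by
  have hp : p.Prime := Fact.out
  have H1 := Fermat.Agent.S30.Final.H1.hasReductionAll N p
  intro ℓ hℓ hℓS A hA σ hσ
  have hℓp : ℓ ≠ p := fun h => hℓS (h ▸ hpS)
  have hℓN : ¬ ℓ ∣ N := fun hdvd => hℓS (hNS ℓ hℓ hdvd)
  haveI : Module.Finite ℤ_[p] (Tp p (JZero N)) := Tp.finite_of_finite (finite_p_torsion N p)
  haveI : Module.Free ℤ_[p] (Tp p (JZero N)) := Tp.free_of_finite (finite_p_torsion N p)
  have h : (rhoEigen N p R hpR c h2).ρ σ * (rhoEigen N p R hpR c h2).ρ σ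
      - c ⟨ℓ, hℓ⟩ • (rhoEigen N p R hpR c h2).ρ σ
      + (((ℓ : ℤ) : R)) • (1 : Module.End R (rhoEigen N p R hpR c h2).V) = 0 :=
    galoisRep_quadratic (t := fun r => opVHom p R (JZero N) (heckeEnd N r)) ⟨ℓ, hℓ⟩ ((ℓ : ℤ) : R)
      (rhoV_quadratic p R σ (heckeEnd N ⟨ℓ, hℓ⟩) (ℓ : ℤ) (fun y hy => by
        rw [natCast_zsmul]
        exact Torsion.frobenius_relation H1 hp hℓ hℓN hℓp A hA hσ hy))
  rw [Int.cast_natCast] at h
  beta_reduce
  rw [dif_pos hℓ]
  exact h

variable [IsAdicComplete (maximalIdeal R) R]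

/-- the finite set of bad primes `{p} ∪ {q ∣ N}` -/
def badSet : Finset ℕ := insert p N.primeFactors

theorem p_mem_badSet : p ∈ badSet N p := Finset.mem_insert_self _ _

theorem mem_badSet_of_dvd (q : ℕ) (hq : q.Prime) (hqN : q ∣ N) : q ∈ badSet N p :=
  Finset.mem_insert_of_mem (Nat.mem_primeFactors.2 ⟨hq, hqN, NeZero.ne N⟩)

/-- **(S-c') the determinant of the TRUE eigen-representation is the cyclotomic character**,
for every `σ ∈ G_ℚ`; no irreducibility, no semisimplicity: the non-scalar element is complex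
conjugation. -/
theorem det_rhoEigen (hpR : (p : R) ∈ maximalIdeal R) (ι' : ℤ_[p] →+* R) (c : Nat.Primes → R)
    (h2 : Module.finrank R
      (eigenLattice (fun r => opVHom p R (JZero N) (heckeEnd N r)) c) = 2) (σ : GQ) :
    LinearMap.det ((rhoEigen N p R hpR c h2).ρ σ) = Cyclotomic.cycChar p ι' σ :=
  DetGalois.det_eq_cycChar p hpR ι' (badSet N p) (p_mem_badSet N p)
    (fun ℓ => if h : ℓ.Prime then c ⟨ℓ, h⟩ else 0) (rhoEigen N p R hpR c h2)
    (rhoEigen_frobRelation N p R hpR c h2 (badSet N p) (p_mem_badSet N p)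
      (mem_badSet_of_dvd N p))
    (fun E hE σ => haveI := hE; Fermat.Agent.S30.Density.Bridge.frobenius_density_final E σ _)
    ⟨complexConjugation, rhoEigen_conj_not_scalar N p R hpR c h2⟩ σ

/-- the Frobenius characteristic polynomial in the TRUE eigen-representation -/
theorem charpoly_rhoEigen_frob (hpR : (p : R) ∈ maximalIdeal R) (ι' : ℤ_[p] →+* R)
    (c : Nat.Primes → R)
    (h2 : Module.finrank R
      (eigenLattice (fun r => opVHom p R (JZero N) (heckeEnd N r)) c) = 2)
    (ℓ : ℕ) (hℓ : ℓ.Prime) (hℓp : ℓ ≠ p) (hℓN : ¬ ℓ ∣ N)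
    (A : ValuationSubring (AlgebraicClosure ℚ)) (hA : A.LiesOverPrime ℓ) (σ : GQ)
    (hσ : A.IsFrobeniusAt σ ℓ) :
    LinearMap.charpoly ((rhoEigen N p R hpR c h2).ρ σ) =
      X ^ 2 - C (c ⟨ℓ, hℓ⟩) * X + C ((ℓ : R)) := by
  have hℓS : ℓ ∉ badSet N p := by
    intro h
    rcases Finset.mem_insert.1 h with h | h
    · exact hℓp h
    · exact hℓN (Nat.dvd_of_mem_primeFactors h)
  have hrel := rhoEigen_frobRelation N p R hpR c h2 (badSet N p) (p_mem_badSet N p)
    (mem_badSet_of_dvd N p) ℓ hℓ hℓS A hA σ hσ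
  beta_reduce at hrel
  rw [dif_pos hℓ] at hrel
  have hdet : LinearMap.det ((rhoEigen N p R hpR c h2).ρ σ) = (ℓ : R) := by
    rw [det_rhoEigen N p R hpR ι' c h2 σ, Cyclotomic.cycChar_isFrobeniusAt p ι' hℓ hℓp A hA σ hσ]
  exact DetLemma.End.charpoly_of_relation_of_det
    (Module.finBasisOfFinrankEq R (rhoEigen N p R hpR c h2).V (rhoEigen N p R hpR c h2).finrank_eq)
    _ _ _ hrel hdet (Nat.cast_ne_zero.2 hℓ.ne_zero)

end Det

end Fermat.Agent.S15.G.DetCyc
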