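import Mathlib
import Fermat.Agent.S24.RepHom
import Fermat.Agent.S24.QRep
import Fermat.Agent.S30.Analytic.Character
import Fermat.Prelude.Def_ModularCurve_PeriodHomPair

/-!
# PROJECT M, block [G], leaf (G-bal), part (CC-geo-1): complex conjugation of modular forms

`cj F := fun τ => conj (F (-conj τ))`, i.e. the slash action of `J = diag(-1, 1)` (any weight).
-/

set_option autoImplicit false

noncomputable section

namespace Fermat.Agent.S15.G.ConjForm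

open UpperHalfPlane CongruenceSubgroup ModularForm ModularCurve.Period Fermat.Agent.S20
open Fermat.Agent.S23.QRing Function Fermat.Agent.S30.Analytic.Character Fermat.Agent.S24.RepHom
open scoped ModularForm Manifold MatrixGroups ComplexConjugate Pointwise

local notation "𝕢" => Function.Periodic.qParam

/-- the complex conjugate of a function on the upper half plane: `τ ↦ conj (F (-conj τ))` -/
def cj (F : ℍ → ℂ) : ℍ → ℂ := fun τ => conj (F (J • τ))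

theorem cj_apply (F : ℍ → ℂ) (τ : ℍ) : cj F τ = conj (F (J • τ)) := rfl

theorem cj_eq_slash (F : ℍ → ℂ) (k : ℤ) : cj F = F ∣[k] J := by
  ext τ
  have h : ¬ ((1 : ℝ) < 0) := by norm_num
  simp [cj, ModularForm.slash_def, σ, denom, h]

theorem J_smul_J_smul (τ : ℍ) : J • (J • τ) = τ := by
  rw [← mul_smul, ← sq, J_sq, one_smul]

theorem cj_cj (F : ℍ → ℂ) : cj (cj F) = F := by
  ext τ
  simp [cj, J_smul_J_smul]

theorem cj_mul (F G : ℍ → ℂ) : cj (F * G) = cj F * cj G := by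
  ext τ
  simp [cj]

theorem cj_add (F G : ℍ → ℂ) : cj (F + G) = cj F + cj G := by
  ext τ
  simp [cj]

theorem cj_pow (F : ℍ → ℂ) (n : ℕ) : cj (F ^ n) = cj F ^ n := by
  ext τ
  simp [cj]

theorem cj_smul (c : ℂ) (F : ℍ → ℂ) : cj (c • F) = conj c • cj F := by
  ext τ
  simp [cj]

theorem cj_zero : cj 0 = 0 := by
  ext τ
  simp [cj]

theorem cj_ne_zero {F : ℍ → ℂ} (h : F ≠ 0) : cj F ≠ 0 := by
  intro h0
  apply h
  rw [← cj_cj F, h0, cj_zero]

theorem mdiff_cj {F : ℍ → ℂ} (hF : MDiff F) : MDiff (cj F) := by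
  rw [cj_eq_slash F 0]
  exact hF.slash 0 J

theorem J_mul_mapGL_mul_J (γ : SL(2, ℤ)) :
    J * Matrix.SpecialLinearGroup.mapGL ℝ γ * J = Matrix.SpecialLinearGroup.mapGL ℝ (jConjSL γ) := by
  apply Units.ext
  ext i j
  fin_cases i <;> fin_cases j <;>
    simp [Matrix.mul_apply, Fin.sum_univ_two, jConjMat, Matrix.vecMul, dotProduct]

theorem J_inv : (J : GL (Fin 2) ℝ)⁻¹ = J := by
  rw [inv_eq_iff_mul_eq_one, ← sq, J_sq]

theorem G0_le_conj (N : ℕ) : G0 N ≤ ConjAct.toConjAct (J : GL (Fin 2) ℝ)⁻¹ • G0 N := by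
  intro g hg
  obtain ⟨γ, hγ, rfl⟩ := hg
  rw [Subgroup.mem_pointwise_smul_iff_inv_smul_mem, ← map_inv, inv_inv, ConjAct.toConjAct_smul,
    J_inv, J_mul_mapGL_mul_J]
  exact ⟨jConjSL γ, jConjSL_mem_Gamma0 hγ, rfl⟩

theorem isMF_cj {N : ℕ} {k : ℤ} {a : ℍ → ℂ} (h : IsMF (G0 N) k a) : IsMF (G0 N) k (cj a) := by
  obtain ⟨F, rfl⟩ := h
  have h1 : IsMF (ConjAct.toConjAct (J : GL (Fin 2) ℝ)⁻¹ • G0 N) k (cj F) :=
    ⟨ModularForm.translate F J, by rw [ModularForm.coe_translate, cj_eq_slash _ k]⟩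
  exact h1.mono (G0_le_conj N)


theorem conj_qParam (τ : ℍ) : conj (𝕢 1 ((J • τ : ℍ) : ℂ)) = 𝕢 1 (τ : ℂ) := by
  unfold Periodic.qParam
  rw [← Complex.exp_conj, coe_J_smul]
  congr 1
  simp only [map_div₀, map_mul, map_neg, Complex.conj_conj, Complex.conj_I, Complex.conj_ofReal,
    map_ofNat, Complex.ofReal_one, map_one]
  ring

theorem hasSum_cj {F : ℍ → ℂ} (hF : IsQ F) (τ : ℍ) :
    HasSum (fun m : ℕ => conj ((qx F).coeff m) • 𝕢 1 (τ : ℂ) ^ m) (cj F τ) := by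
  have h := hasSum_qExpansion one_pos hF.periodic hF.holo hF.bdd (J • τ)
  have h2 := h.map (starRingEnd ℂ) Complex.continuous_conj
  convert h2 using 1
  · ext m
    simp only [Function.comp, smul_eq_mul, map_mul, map_pow]
    rw [conj_qParam]
    rfl
  · rfl

theorem isQ_cj {N : ℕ} [NeZero N] {k : ℤ} {a : ℍ → ℂ} (h : IsMF (G0 N) k a) : IsQ (cj a) :=
  Fermat.Agent.S24.RepHom.isQ_of_isMF (isMF_cj h)

/-- uniqueness of the `q`-expansion, for functions -/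
theorem qx_coeff_unique {f : ℍ → ℂ} (hf : IsQ f) {c : ℕ → ℂ}
    (h : ∀ τ : ℍ, HasSum (fun m : ℕ => c m • 𝕢 1 (τ : ℂ) ^ m) (f τ)) (m : ℕ) :
    (qx f).coeff m = c m := by
  have h1 := (hasFPowerSeriesOnBall_cuspFunction one_pos hf.analyticAt h).hasFPowerSeriesAt
  have h2 := hf.analyticAt.hasFPowerSeriesAt
  have h3 := congr_arg (FormalMultilinearSeries.coeff · m) (h1.eq_formalMultilinearSeries h2)
  simp only [FormalMultilinearSeries.coeff_ofScalars] at h3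
  rw [h3]
  show (qExpansion 1 f).coeff m = _
  rw [qExpansion_coeff, div_eq_inv_mul]

theorem qx_cj_coeff {F : ℍ → ℂ} (hF : IsQ F) (hF' : IsQ (cj F)) (m : ℕ) :
    (qx (cj F)).coeff m = conj ((qx F).coeff m) :=
  qx_coeff_unique hF' (hasSum_cj hF) m

/-- slash of the conjugate form by `γ ∈ SL(2, ℤ)` -/
theorem cj_slash (G : ℍ → ℂ) (k : ℤ) (γ : SL(2, ℤ)) :
    cj G ∣[k] γ = cj (G ∣[k] jConjSL γ) := by
  rw [cj_eq_slash G k, cj_eq_slash _ k, SL_slash, SL_slash, ← SlashAction.slash_mul,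
    ← SlashAction.slash_mul]
  congr 1
  have h := J_mul_mapGL_mul_J γ
  have hJ : (J : GL (Fin 2) ℝ) * J = 1 := by rw [← sq, J_sq]
  calc J * (γ : GL (Fin 2) ℝ) = J * (γ : GL (Fin 2) ℝ) * (J * J) := by rw [hJ, mul_one]
    _ = (J * Matrix.SpecialLinearGroup.mapGL ℝ γ * J) * J := by
      simp only [mul_assoc]; rfl
    _ = _ := by rw [h]; rfl

/-- the conjugate character `γ ↦ conj (ψ (J γ J))` -/
def cjChar (N : ℕ) (ψ : Gamma0 N →* ℂˣ) : Gamma0 N →* ℂˣ :=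
  (Units.map (starRingEnd ℂ : ℂ →* ℂ)).comp (ψ.comp (jConjGamma0 N))

theorem coe_cjChar (N : ℕ) (ψ : Gamma0 N →* ℂˣ) (γ : Gamma0 N) :
    ((cjChar N ψ γ : ℂˣ) : ℂ) = conj ((ψ (jConjGamma0 N γ) : ℂˣ) : ℂ) := rfl

theorem hasChar_cj {N : ℕ} {k : ℤ} {G : ℍ → ℂ} {ψ : Gamma0 N →* ℂˣ}
    (h : HasChar (Gamma0 N) k G ψ) : HasChar (Gamma0 N) k (cj G) (cjChar N ψ) := by
  intro γ
  rw [cj_slash, coe_cjChar, ← cj_smul]
  congr 1
  exact h (jConjGamma0 N γ)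

theorem isRootChar_cj {N : ℕ} {n : ℕ} {k : ℤ} {F : ℍ → ℂ} {ψ : Gamma0 N →* ℂˣ}
    (h : IsRootChar (Gamma0 N) n k F ψ) : IsRootChar (Gamma0 N) n k (cj F) (cjChar N ψ) := by
  obtain ⟨G, hG, hGF, hGψ⟩ := h
  exact ⟨cj G, mdiff_cj hG, by rw [← cj_pow, hGF], hasChar_cj hGψ⟩

theorem qx_cj {F : ℍ → ℂ} (hF : IsQ F) (hF' : IsQ (cj F)) :
    qx (cj F) = (qx F).map (starRingEnd ℂ) := by
  ext m
  rw [qx_cj_coeff hF hF', PowerSeries.coeff_map]

theorem isRepOf_cj {N : ℕ} [NeZero N] {g : LaurentSeries ℂ} {k : ℤ} {a b : ℍ → ℂ}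
    (h : IsRepOf N g k a b) :
    IsRepOf N (ModularCurve.coeffMap (starRingEnd ℂ) g) k (cj a) (cj b) where
  ha := isMF_cj h.ha
  hb := isMF_cj h.hb
  hb0 := cj_ne_zero h.hb0
  eq := by
    have h1 := congrArg (ModularCurve.coeffMap (starRingEnd ℂ)) h.eq
    rw [map_mul, Fermat.Agent.S24.QRep.coeffMap_ofPowerSeries,
      Fermat.Agent.S24.QRep.coeffMap_ofPowerSeries] at h1
    rw [qx_cj (isQ_of_isMF h.ha) (isQ_cj h.ha), qx_cj (isQ_of_isMF h.hb) (isQ_cj h.hb)]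
    exact h1

end Fermat.Agent.S15.G.ConjForm
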