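import Fermat.Agent.S15.G.ConjForm
import Fermat.Agent.S30.Spec

/-!
# PROJECT M, block [G], leaf (G-bal), part (CC-geo-2): the dictionary `Φ` and complex conjugation

If `c ∈ Gal(ℚ̄/ℚ)` induces complex conjugation through the embedding `ι : ℚ̄ →+* ℂ`, then
`IsPhiOf N ι x ψ → IsPhiOf N ι (c • x) (cjChar N ψ)`, `cjChar N ψ γ = conj (ψ (J γ J))`.
-/

set_option autoImplicit false

noncomputable section

namespace Fermat.Agent.S15.G.ConjPhi

open UpperHalfPlane CongruenceSubgroup ModularForm ModularCurve ModularCurve.Period AlgebraicCurve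
open Fermat.Agent.S30.Spec Fermat.Agent.S15.G.ConjForm Fermat.Agent.S24.RepHom
open Fermat.Agent.S30.Analytic.Character
open scoped ModularForm Manifold MatrixGroups ComplexConjugate

local notation "Kb" => AlgebraicClosure ℚ

variable {N : ℕ} [NeZero N]

/-- **(CC-geo)** the dictionary `Φ` intertwines a complex conjugation `c ∈ Gal(ℚ̄/ℚ)` with
`ψ ↦ conj ∘ ψ ∘ (J · J)`. -/
theorem isPhiOf_conj (ι : Kb →+* ℂ) (c : Kb ≃ₐ[ℚ] Kb) (hc : ∀ z : Kb, ι (c z) = conj (ι z))
    {x : JZero N} {ψ : Gamma0 N →* ℂˣ} (h : IsPhiOf N ι x ψ) :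
    IsPhiOf N ι (c • x) (cjChar N ψ) := by
  obtain ⟨n, D, f, k, a, b, hn, hf, rfl, hD, hrep, hroot⟩ := h
  set g := arithmeticGalois (modularFunctionFieldFull N) c with hg
  refine ⟨n, SemilinearAut.degZeroSMulHom g D, g • f, k, cj a, cj b, hn, ?_, ?_, ?_, ?_, ?_⟩
  · intro h0
    apply hf
    have := congrArg (fun y => g⁻¹ • y) h0
    simpa using this
  · rfl
  · intro v
    have h1 : v = g • (g⁻¹ • v) := (smul_inv_smul g v).symm
    rw [h1, SemilinearAut.coe_degZeroSMulHom, SemilinearAut.divisor_smul_apply_smul,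
      SemilinearAut.ord_smul]
    exact hD _
  · have h1 : ((g • f : modularFunctionFieldBar N) : LaurentSeries Kb) =
        coeffMap (c : Kb →+* Kb) (f : LaurentSeries Kb) := rfl
    have h2 : coeffMap ι (coeffMap (c : Kb →+* Kb) (f : LaurentSeries Kb)) =
        coeffMap (starRingEnd ℂ) (coeffMap ι (f : LaurentSeries Kb)) := by
      rw [coeffMap_coeffMap, coeffMap_coeffMap]
      exact coeffMap_congr (RingHom.ext fun z => hc z) _
    rw [h1, h2]
    exact isRepOf_cj hrep
  · have h1 : cj a * cj b ^ (n - 1) = cj (a * b ^ (n - 1)) := by rw [cj_mul, cj_pow]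
    rw [h1]
    exact isRootChar_cj hroot

end Fermat.Agent.S15.G.ConjPhi
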