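import Fermat.Agent.S15.G.ConjPhi
import Fermat.Agent.S30

/-!
# PROJECT M, block [G], leaf (G-bal), part (CC-tate): complex conjugation on the Tate module

* `cjFamily N` : the family `φ ↦ φ ∘ (J · J)` on `Hom(Γ₀(N), A)`, natural in `A`
  (`coeffNatural_cjFamily`);
* `epsM N : Module.End ℤ (parabolicHoms ℤ (Gamma0 N) ℤ)` : the involution on the lattice;
* `phiC_conj` : `Φ (c • x) = - (ε Φ(x))` for a complex conjugation `c`;
* `ep h p` : the comparison `Tp p (JZero N) ≃ ℤ_[p] ⊗ M` of `S31` (explicit), `ep_hecke`, `ep_conj`.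
-/

set_option autoImplicit false
set_option linter.unusedSectionVars false

noncomputable section

namespace Fermat.Agent.S15.G.ConjTate

open UpperHalfPlane CongruenceSubgroup ModularForm ModularCurve ModularCurve.Period
open Fermat.Agent.S30.Spec Fermat.Agent.S15.G.ConjForm Fermat.Agent.S15.G.ConjPhi
open Fermat.Agent.S30.Padic.TateChar Fermat.Agent.S30.Padic.TateModule Fermat.Agent.S30.Padic
open Fermat.Agent.S30.Final.TateCompare Fermat.Agent.S30.Final.PhiMap
open Fermat.Agent.S30.Final.Chain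
open Fermat.Agent.S30.Hecke.CosetStar Fermat.Agent.S30.Hecke.Parabolic
open scoped ModularForm Manifold MatrixGroups ComplexConjugate TensorProduct

local notation "Kb" => AlgebraicClosure ℚ

variable (N : ℕ)

/-- precomposition with `γ ↦ J γ J`, for every coefficient group -/
def cjFamily : ∀ (A : Type) [AddCommGroup A],
    (Additive ↥(Gamma0 N) →+ A) →+ (Additive ↥(Gamma0 N) →+ A) :=
  fun A _ => (charInvolution N ℤ A).toAddMonoidHom

theorem cjFamily_apply {A : Type} [AddCommGroup A] (φ : Additive ↥(Gamma0 N) →+ A)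
    (g : Additive ↥(Gamma0 N)) :
    cjFamily N A φ g = φ (Additive.ofMul (jConjGamma0 N (Additive.toMul g))) := rfl

theorem coeffNatural_cjFamily : CoeffNatural (cjFamily N) where
  comp f φ := rfl
  par φ hφ := charInvolution_mem_parabolicHoms N ℤ _ hφ
  fin φ _ hfin g hg := by
    rw [cjFamily_apply]
    exact hfin _ ((jConjGamma0 N).isOfFinOrder hg)

/-- **the involution `ε` on the Eichler–Shimura lattice** -/
def epsM : Module.End ℤ ↥(parabolicHoms ℤ (Gamma0 N) ℤ) :=
  parOp ℤ ℤ (coeffNatural_cjFamily N)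

theorem coe_epsM (φ : ↥(parabolicHoms ℤ (Gamma0 N) ℤ)) :
    (epsM N φ : Additive ↥(Gamma0 N) →+ ℤ) = charInvolution N ℤ ℤ φ := rfl

theorem epsM_epsM (φ : ↥(parabolicHoms ℤ (Gamma0 N) ℤ)) : epsM N (epsM N φ) = φ :=
  Subtype.ext (charInvolution_charInvolution N ℤ ℤ φ)

theorem epsM_mul_self : epsM N * epsM N = 1 :=
  LinearMap.ext fun φ => epsM_epsM N φ

variable {N} [NeZero N]

/-- the conjugate of a character of finite order is its inverse, precomposed with `J · J` -/
theorem cjChar_eq_inv {ψ : Gamma0 N →* ℂˣ} (hψ : IsOfFinOrder ψ) :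
    cjChar N ψ = (ψ.comp (jConjGamma0 N))⁻¹ := by
  obtain ⟨n, hn, hψn⟩ := isOfFinOrder_iff_pow_eq_one.mp hψ
  refine MonoidHom.ext fun γ => Units.ext ?_
  rw [coe_cjChar, MonoidHom.inv_apply, MonoidHom.comp_apply, Units.val_inv_eq_inv_val]
  have h1 : ((ψ (jConjGamma0 N γ) : ℂˣ) : ℂ) ^ n = 1 := by
    have := congrArg (fun χ : Gamma0 N →* ℂˣ => ((χ (jConjGamma0 N γ) : ℂˣ) : ℂ)) hψn
    simpa using this
  have h2 : ‖((ψ (jConjGamma0 N γ) : ℂˣ) : ℂ)‖ = 1 :=
    Complex.norm_eq_one_of_pow_eq_one h1 hn.ne'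
  exact (Complex.inv_eq_conj h2).symm

/-- the Fricke involution commutes with `γ ↦ J γ J` -/
theorem frickeEquiv_jConj (g : Gamma0 N) :
    frickeEquiv N (jConjGamma0 N g) = jConjGamma0 N (frickeEquiv N g) := by
  apply Subtype.ext
  apply Subtype.ext
  rw [frickeEquiv_apply, frickeEquiv_apply, coe_frickeFun]
  ext i j
  fin_cases i <;> fin_cases j
  · simp [jConjMat, coe_frickeFun]
  · simp [jConjMat, coe_frickeFun]
    rw [Int.neg_ediv_of_dvd (Fermat.Agent.S30.Hecke.Gamma0Cosets.dvd_entry N g), neg_neg]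
  · simp [jConjMat, coe_frickeFun]
  · simp [jConjMat, coe_frickeFun]

/-- the Galois action of `σ` as an additive endomorphism of `J₀(N)` -/
def galEnd (σ : Kb ≃ₐ[ℚ] Kb) : AddMonoid.End (JZero N) :=
  DistribMulAction.toAddMonoidEnd (Kb ≃ₐ[ℚ] Kb) (JZero N) σ

theorem galEnd_apply (σ : Kb ≃ₐ[ℚ] Kb) (x : JZero N) : galEnd σ x = σ • x := rfl

/-- the character `ε ψ = ψ ∘ (J · J)` of `charOp` -/
theorem coe_charOp_cj (ψ : ↥(charGroup N)) :
    ((Additive.toMul (charOp (coeffNatural_cjFamily N) (Additive.ofMul ψ)) : ↥(charGroup N)) :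
      Gamma0 N →* ℂˣ) = (ψ : Gamma0 N →* ℂˣ).comp (jConjGamma0 N) :=
  charOp_eq_of_mul (coeffNatural_cjFamily N) (fun χ => χ.comp (jConjGamma0 N))
    (fun _ => rfl) ψ

variable {ι : Kb →+* ℂ} (h : PhiDict N ι)

/-- **the dictionary and complex conjugation**, additive form: `Φ (c x) = - ε (Φ x)` -/
theorem phiC_conj (c : Kb ≃ₐ[ℚ] Kb) (hc : ∀ z : Kb, ι (c z) = conj (ι z))
    (x : AddCommGroup.torsion (JZero N)) :
    phiC h (torsionMap (galEnd c) x) = -(charOp (coeffNatural_cjFamily N) (phiC h x)) := by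
  apply (Additive.toMul (α := ↥(charGroup N))).injective
  apply Subtype.ext
  have h1 : phiFun h (torsionMap (galEnd c) x) = cjChar N (phiFun h x) :=
    phiFun_eq h (x := torsionMap (galEnd c) x) (isPhiOf_conj ι c hc (phiFun_spec h x))
  rw [coe_phiC, h1, cjChar_eq_inv (phiFun_mem h x).2, toMul_neg, Subgroup.coe_inv]
  congr 1

/-- the Fricke twist commutes with `ε` on the character group -/
theorem frickeChar_charOp_cj (y : Additive ↥(charGroup N)) :
    Fermat.Agent.S30.frickeChar N (charOp (coeffNatural_cjFamily N) y) =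
      charOp (coeffNatural_cjFamily N) (Fermat.Agent.S30.frickeChar N y) := by
  apply (Additive.toMul (α := ↥(charGroup N))).injective
  apply Subtype.ext
  have h1 := coe_charOp_cj (Additive.toMul y)
  have h2 := coe_charOp_cj (Additive.toMul (Fermat.Agent.S30.frickeChar N y))
  rw [ofMul_toMul] at h1 h2
  rw [Fermat.Agent.S30.coe_frickeChar, h1, h2, Fermat.Agent.S30.coe_frickeChar]
  refine MonoidHom.ext fun g => ?_
  rw [cWMul_symm_apply, MonoidHom.comp_apply, MonoidHom.comp_apply, cWMul_symm_apply,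
    frickeEquiv_jConj]

/-- the twisted dictionary `w ∘ Φ` -/
def phiW : AddCommGroup.torsion (JZero N) →+ Additive ↥(charGroup N) :=
  ((Fermat.Agent.S30.frickeChar N : Additive ↥(charGroup N) ≃+ Additive ↥(charGroup N)) :
    Additive ↥(charGroup N) →+ Additive ↥(charGroup N)).comp (phiC h)

theorem phiW_apply (x : AddCommGroup.torsion (JZero N)) :
    phiW h x = Fermat.Agent.S30.frickeChar N (phiC h x) := rfl

theorem phiW_conj (c : Kb ≃ₐ[ℚ] Kb) (hc : ∀ z : Kb, ι (c z) = conj (ι z))
    (x : AddCommGroup.torsion (JZero N)) :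
    phiW h (torsionMap (galEnd c) x) = (-(charOp (coeffNatural_cjFamily N))) (phiW h x) := by
  rw [phiW_apply, phiC_conj h c hc, map_neg, frickeChar_charOp_cj, AddMonoidHom.neg_apply,
    phiW_apply]

theorem phiW_injective : Function.Injective (phiW h) :=
  twist_injective (phiC h) (phiC_injective h) (Fermat.Agent.S30.frickeChar N)

theorem phiW_surjective (z : Additive ↥(charGroup N)) (hz : IsOfFinAddOrder z) :
    ∃ x, phiW h x = z :=
  twist_surjective (phiC h) (phiC_surjective h) (Fermat.Agent.S30.frickeChar N) z hz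

variable (p : ℕ) [Fact p.Prime]

/-- **the comparison `e_p : T_p J₀(N) ≃ ℤ_p ⊗ Hom_par(Γ₀(N), ℤ)`** of `S31`, explicit -/
def ep : Tp p (JZero N) ≃ₗ[ℤ_[p]] ℤ_[p] ⊗[ℤ] ↥(parabolicHoms ℤ (Gamma0 N) ℤ) :=
  (tpEquiv (phiW h) (phiW_injective h) (phiW_surjective h)).trans (tateLattice N p)

/-- Hecke equivariance (`(H3)` of `S30/Final/Chain`) -/
theorem ep_hecke (r : Nat.Primes) (x : Tp p (JZero N)) :
    ep h p (Tp.mapEnd (heckeEnd N r) x) =
      (tauPar ℤ ℤ N r r.2).baseChange ℤ_[p] (ep h p x) := by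
  unfold ep
  rw [LinearEquiv.trans_apply, LinearEquiv.trans_apply,
    tpEquiv_mapEnd (phiW h) (phiW_injective h) (phiW_surjective h) (heckeEnd N r) (tauChar N r r.2)
      (Fermat.Agent.S30.frickeChar_hecke N h r), tateLattice_tauChar]

theorem tp_map_neg {X : Type*} [AddCommGroup X] (f : X →+ X) (x : Tp p X) :
    Tp.map (-f) x = -Tp.map f x := by
  ext k
  rfl

/-- **complex conjugation on the Tate module**: `e_p (c x) = - ε (e_p x)` -/
theorem ep_conj (c : Kb ≃ₐ[ℚ] Kb) (hc : ∀ z : Kb, ι (c z) = conj (ι z)) (x : Tp p (JZero N)) :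
    ep h p (Tp.mapEnd (galEnd c) x) = -((epsM N).baseChange ℤ_[p] (ep h p x)) := by
  have e1 := tpEquiv_mapEnd (p := p) (phiW h) (phiW_injective h) (phiW_surjective h) (galEnd c)
    (-(charOp (coeffNatural_cjFamily N))) (phiW_conj h c hc) x
  have e2 : Tp.map (p := p) (-(charOp (coeffNatural_cjFamily N)))
      (tpEquiv (phiW h) (phiW_injective h) (phiW_surjective h) x) =
      -Tp.map (charOp (coeffNatural_cjFamily N))
        (tpEquiv (phiW h) (phiW_injective h) (phiW_surjective h) x) := by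
    ext k
    rfl
  have e3 := tateLattice_map p (coeffNatural_cjFamily N)
    (tpEquiv (phiW h) (phiW_injective h) (phiW_surjective h) x)
  calc ep h p (Tp.mapEnd (galEnd c) x)
      = tateLattice N p (tpEquiv (phiW h) (phiW_injective h) (phiW_surjective h)
          (Tp.mapEnd (galEnd c) x)) := rfl
    _ = tateLattice N p (Tp.map (p := p) (-(charOp (coeffNatural_cjFamily N)))
          (tpEquiv (phiW h) (phiW_injective h) (phiW_surjective h) x)) := congrArg _ e1
    _ = tateLattice N p (-Tp.map (charOp (coeffNatural_cjFamily N))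
          (tpEquiv (phiW h) (phiW_injective h) (phiW_surjective h) x)) := congrArg _ e2
    _ = -tateLattice N p (Tp.map (charOp (coeffNatural_cjFamily N))
          (tpEquiv (phiW h) (phiW_injective h) (phiW_surjective h) x)) := map_neg _ _
    _ = -((parOp ℤ ℤ (coeffNatural_cjFamily N)).baseChange ℤ_[p] (tateLattice N p
          (tpEquiv (phiW h) (phiW_injective h) (phiW_surjective h) x))) := congrArg Neg.neg e3
    _ = _ := rfl

end Fermat.Agent.S15.G.ConjTate
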