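import Fermat.Agent.S56.Ord.OmegaRam
import Fermat.Agent.S30.Algebra.Cyclotomic

/-!
# PROJECT M, block [S], leaf (S-c'): the `p`-adic cyclotomic character is ramified at `p`

For EVERY prime `p` (including `p = 2`) and every valuation subring `A` of `ℚ̄` over `p`, some
element `s` of the inertia group of `A` has `χ_cyc(s) ≠ 1`.

* `p` odd : `S56/Ord/OmegaRam.exists_mem_inertia_ne` (inertia moves a `p`-th root of unity);
* `p = 2` : inertia moves `i`, because `(1 + i)² = 2 i` has valuation `v(2)`, which is not an even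
  power of `v(2)`.
-/

set_option autoImplicit false

namespace Fermat.Agent.S15.G.CycRam

open Fermat.Agent.S30.Algebra

local notation "Qbar" => AlgebraicClosure ℚ
local notation "GQ" => (AlgebraicClosure ℚ ≃ₐ[ℚ] AlgebraicClosure ℚ)

/-- at a place over `2`, the inertia group moves a fourth root of unity -/
theorem exists_mem_inertia_ne_two {A : ValuationSubring Qbar} (hA : A.LiesOverPrime 2) :
    ∃ s ∈ A.inertiaSubgroupIn ℚ, ∃ ζ : Qbar, ζ ^ 2 ^ 2 = 1 ∧ s ζ ≠ ζ := by
  have hp : Nat.Prime 2 := Nat.prime_two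
  obtain ⟨ζ, hζ⟩ : ∃ ζ : Qbar, ζ ^ 2 = -1 := by
    obtain ⟨z, hz⟩ := IsAlgClosed.exists_pow_nat_eq (-1 : Qbar) (n := 2) (by norm_num)
    exact ⟨z, hz⟩
  have hζ4 : ζ ^ 2 ^ 2 = 1 := by
    rw [pow_two 2, pow_mul, hζ]
    norm_num
  by_contra hcon
  push Not at hcon
  have hfix : ∀ s ∈ A.inertiaSubgroupIn ℚ, s (1 + ζ) = 1 + ζ := fun s hs => by
    rw [map_add, map_one, hcon s hs ζ hζ4]
  have hne : (1 + ζ) ≠ 0 := by
    intro h0
    have h1 : ζ = -1 := by
      rw [← sub_eq_zero, sub_neg_eq_add, add_comm]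
      exact h0
    rw [h1] at hζ
    have h2 : (2 : Qbar) = 0 := by
      have : (1 : Qbar) = -1 := by
        simpa using hζ
      calc (2 : Qbar) = 1 + 1 := by norm_num
        _ = 1 + -1 := by rw [← this]
        _ = 0 := by norm_num
    exact two_ne_zero h2
  obtain ⟨n, hn⟩ := Fermat.Agent.S13.Local.Ram.exists_zpow_valuation_eq' hp hA hne hfix
  have hv0 : 0 < A.valuation ((2 : ℕ) : Qbar) :=
    zero_lt_iff.mpr (Fermat.Agent.S13.Local.Ram.valuation_natCast_ne_zero hp A)
  have hv1 : A.valuation ((2 : ℕ) : Qbar) < 1 :=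
    Fermat.Agent.S13.Local.Ram.valuation_natCast_lt_one hA
  -- `v(ζ) = 1`
  have hvζ : A.valuation ζ = 1 := by
    have h4 : A.valuation ζ ^ 4 = 1 := by
      rw [← map_pow]
      have : ζ ^ 4 = 1 := by
        have := hζ4
        norm_num at this
        exact this
      rw [this, map_one]
    rcases lt_trichotomy (A.valuation ζ) 1 with h1 | h1 | h1
    · exact absurd h4 (pow_lt_one₀ zero_le h1 (by norm_num)).ne
    · exact h1
    · exact absurd h4 (one_lt_pow₀ h1 (by norm_num)).ne'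
  have hsq : (1 + ζ) ^ 2 = ((2 : ℕ) : Qbar) * ζ := by
    have : (1 + ζ) ^ 2 = 1 + 2 * ζ + ζ ^ 2 := by ring
    rw [this, hζ]
    push_cast
    ring
  have h1 : A.valuation (1 + ζ) ^ 2 = A.valuation ((2 : ℕ) : Qbar) := by
    rw [← map_pow, hsq, map_mul, hvζ, mul_one]
  rw [hn, ← zpow_natCast, ← zpow_mul] at h1
  have h2 : n * ((2 : ℕ) : ℤ) = 1 := by
    apply zpow_right_injective₀ hv0 hv1.ne
    simpa using h1
  omega

variable (p : ℕ) [Fact p.Prime]

/-- at a place over `p`, the inertia group moves a `p`-power root of unity (every prime `p`) -/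
theorem exists_mem_inertia_move {A : ValuationSubring Qbar} (hA : A.LiesOverPrime p) :
    ∃ s ∈ A.inertiaSubgroupIn ℚ, ∃ n : ℕ, ∃ ζ : Qbar, ζ ^ p ^ n = 1 ∧ s ζ ≠ ζ := by
  have hp : p.Prime := Fact.out
  by_cases hp2 : p = 2
  · subst hp2
    obtain ⟨s, hs, ζ, hζ, hne⟩ := exists_mem_inertia_ne_two hA
    exact ⟨s, hs, 2, ζ, hζ, hne⟩
  · obtain ⟨s, hs, ζ, hζ, hne⟩ := Fermat.Agent.S56.Ord.OmegaRam.exists_mem_inertia_ne hp hp2 hA
    exact ⟨s, hs, 1, ζ, by rwa [pow_one], hne⟩

/-- **the `p`-adic cyclotomic character is ramified at `p`** (every prime `p`, `2` included) -/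
theorem exists_mem_inertia_cyc_ne_one {A : ValuationSubring Qbar} (hA : A.LiesOverPrime p) :
    ∃ s ∈ A.inertiaSubgroupIn ℚ, Cyclotomic.cyc p s ≠ 1 := by
  have hp : p.Prime := Fact.out
  obtain ⟨s, hs, n, ζ, hζ, hne⟩ := exists_mem_inertia_move p hA
  refine ⟨s, hs, fun h1 => hne ?_⟩
  have h := Cyclotomic.cyc_spec p s n ζ hζ
  rw [h1, Units.val_one, map_one] at h
  by_cases hn : n = 0
  · subst hn
    rw [pow_zero, pow_one] at hζ
    rw [hζ, map_one]
  · have h2 : p ^ n ≠ 1 := fun h => by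
      have := Nat.pow_eq_one.1 h
      rcases this with h | h
      · exact hp.one_lt.ne' h
      · exact hn h
    rw [ZMod.val_one'' h2, pow_one] at h
    exact h

/-- the same for the cyclotomic character with values in a ring `S` into which `ℤ_p` injects -/
theorem exists_mem_inertia_cycChar_ne_one {S : Type*} [CommRing S] (ι : ℤ_[p] →+* S)
    (hι : Function.Injective ι) {A : ValuationSubring Qbar} (hA : A.LiesOverPrime p) :
    ∃ s ∈ A.inertiaSubgroupIn ℚ, Cyclotomic.cycChar p ι s ≠ 1 := by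
  obtain ⟨s, hs, hne⟩ := exists_mem_inertia_cyc_ne_one p hA
  refine ⟨s, hs, fun h1 => hne ?_⟩
  rw [Cyclotomic.cycChar_apply, ← map_one ι] at h1
  exact Units.ext (hι h1)

/-- a ring homomorphism from `ℤ_p` to a domain of characteristic zero is injective -/
theorem injective_of_charZero {S : Type*} [CommRing S] [IsDomain S] [CharZero S]
    (ι : ℤ_[p] →+* S) : Function.Injective ι := by
  have hp : p.Prime := Fact.out
  rw [injective_iff_map_eq_zero]
  intro x hx
  by_contra hx0
  have h := PadicInt.unitCoeff_spec hx0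
  rw [h, map_mul, map_pow, map_natCast] at hx
  rcases mul_eq_zero.1 hx with h1 | h1
  · exact (((PadicInt.unitCoeff hx0).isUnit.map ι).ne_zero) h1
  · exact (pow_ne_zero _ (Nat.cast_ne_zero.2 hp.ne_zero)) h1

end Fermat.Agent.S15.G.CycRam
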