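import Fermat.Agent.S15.G.DetCyc
import Fermat.Agent.S15.G.CycRam

/-!
# PROJECT M, block [S], leaf (S-c'), consumer form: inertia at `p` does not act through `χ_cyc`

`R`, `c`, `V_c ⊂ R ⊗ T_p J₀(N)` as in `G/DetCyc`. Since `det ρ_c = χ_cyc` (`det_rhoEigen`, via complex
conjugation) and `χ_cyc` is ramified at `p` (`G/CycRam`), the inertia group at a place over `p`
cannot act on `V_c` through the scalars `χ_cyc`: that would give `χ_cyc² = χ_cyc` on inertia.

* `rhoEigen_ne_cycChar`        : for `(rhoEigen …).ρ`;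
* `restrictHom_ne_cycChar`     : for `EigenLattice.restrictHom t c ρV hcomm` (any `hcomm`);
* `exists_rhoV_ne_cycChar`     : element form, `∃ τ ∈ I, ∃ v ∈ V_c, ρ_V τ v ≠ χ_cyc(τ) • v`;
* `exists_rhoV_ne_cycChar_of_le` : the same on any submodule of `V_c` of rank two;
* `…_padicPlace`               : at the fixed place `padicPlace p` (`I = S56/Coh.Iq p`).
-/

set_option autoImplicit false
set_option linter.unusedSectionVars false
set_option linter.style.haveILetI false

open scoped TensorProduct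
open CongruenceSubgroup ModularCurve ModularCurve.Period

noncomputable section

namespace Fermat.Agent.S15.G.NeChi

open Fermat.Agent.S30.Padic.TateModule Fermat.Agent.S30.Padic.EigenLattice
open Fermat.Agent.S30.Padic Fermat.Agent.S30.Padic.Assembly
open Fermat.Agent.S30.Final.Chain Fermat.Agent.S30.Spec
open Fermat.Agent.S30.Arith Fermat.Agent.S30.Algebra
open IsLocalRing
open Fermat.Agent.S15.G.DetCyc Fermat.Agent.S15.G.CycRam

local notation "Kb" => AlgebraicClosure ℚ
local notation "GQ" => (AlgebraicClosure ℚ ≃ₐ[ℚ] AlgebraicClosure ℚ)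

/-- a submodule `S ≤ E` of the same (finite) rank has torsion quotient: every element of `E` has a
nonzero multiple in `S` -/
theorem exists_smul_mem_of_finrank_eq {R M : Type*} [CommRing R] [IsDomain R] [AddCommGroup M]
    [Module R M] (E S : Submodule R M) [Module.Finite R E] (hS : S ≤ E)
    (h : Module.finrank R S = Module.finrank R E) {v : M} (hv : v ∈ E) :
    ∃ a : R, a ≠ 0 ∧ a • v ∈ S := by
  have hS' : Module.finrank R (S.comap E.subtype) = Module.finrank R S :=
    (Submodule.comapSubtypeEquivOfLe hS).finrank_eq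
  have hq : Module.finrank R (E ⧸ S.comap E.subtype) = 0 := by
    have := Submodule.finrank_quotient_add_finrank (S.comap E.subtype)
    omega
  have htors : Module.IsTorsion R (E ⧸ S.comap E.subtype) :=
    Module.finrank_eq_zero_iff_isTorsion.1 hq
  obtain ⟨a, ha⟩ := @htors (Submodule.Quotient.mk ⟨v, hv⟩)
  refine ⟨a, nonZeroDivisors.ne_zero a.2, ?_⟩
  rw [Submonoid.smul_def, ← Submodule.Quotient.mk_smul, Submodule.Quotient.mk_eq_zero] at ha
  exact ha

variable (N : ℕ) [NeZero N] (p : ℕ) [Fact p.Prime] (R : Type) [CommRing R] [Algebra ℤ_[p] R]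
  [IsDomain R] [IsPrincipalIdealRing R] [IsLocalRing R] [CharZero R]
  [IsAdicComplete (maximalIdeal R) R]

/-- **(S-c') consumer form.** In the TRUE eigen-representation on a rank-two eigen-lattice, the
inertia group of any place over `p` does NOT act through the scalars `χ_cyc`. -/
theorem rhoEigen_ne_cycChar (hpR : (p : R) ∈ maximalIdeal R) (ι' : ℤ_[p] →+* R)
    (c : Nat.Primes → R)
    (h2 : Module.finrank R
      (eigenLattice (fun r => opVHom p R (JZero N) (heckeEnd N r)) c) = 2)
    {A : ValuationSubring Kb} (hA : A.LiesOverPrime p) :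
    ∃ τ ∈ A.inertiaSubgroupIn ℚ,
      (rhoEigen N p R hpR c h2).ρ τ ≠
        Cyclotomic.cycChar p ι' τ • (1 : Module.End R (rhoEigen N p R hpR c h2).V) := by
  obtain ⟨τ, hτ, hne⟩ :=
    exists_mem_inertia_cycChar_ne_one p ι' (injective_of_charZero p ι') hA
  refine ⟨τ, hτ, fun h => hne ?_⟩
  have hdet := det_rhoEigen N p R hpR ι' c h2 τ
  rw [h, LinearMap.det_smul, (rhoEigen N p R hpR c h2).finrank_eq, map_one,
    mul_one] at hdet
  -- `χ² = χ` and `χ` is a unit
  have hu : IsUnit (Cyclotomic.cycChar p ι' τ) := by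
    rw [Cyclotomic.cycChar_apply]
    exact ((Cyclotomic.cyc p τ).isUnit.map ι')
  have h3 : Cyclotomic.cycChar p ι' τ * Cyclotomic.cycChar p ι' τ =
      Cyclotomic.cycChar p ι' τ * 1 := by
    rw [mul_one, ← pow_two]
    exact hdet
  exact hu.mul_left_cancel h3

/-- the same for `EigenLattice.restrictHom`, with an arbitrary proof `hcomm` of commutation -/
theorem restrictHom_ne_cycChar (hpR : (p : R) ∈ maximalIdeal R) (ι' : ℤ_[p] →+* R)
    (c : Nat.Primes → R)
    (h2 : Module.finrank R
      (eigenLattice (fun r => opVHom p R (JZero N) (heckeEnd N r)) c) = 2)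
    (hcomm : ∀ (σ : GQ) (r : Nat.Primes),
      Commute (rhoV p R (JZero N) σ) (opVHom p R (JZero N) (heckeEnd N r)))
    {A : ValuationSubring Kb} (hA : A.LiesOverPrime p) :
    ∃ τ ∈ A.inertiaSubgroupIn ℚ,
      restrictHom (fun r => opVHom p R (JZero N) (heckeEnd N r)) c (rhoV p R (JZero N)) hcomm τ ≠
        Cyclotomic.cycChar p ι' τ •
          (1 : Module.End R (eigenLattice (fun r => opVHom p R (JZero N) (heckeEnd N r)) c)) :=
  rhoEigen_ne_cycChar N p R hpR ι' c h2 hA

/-- element form: some `τ` in the inertia group over `p` and some `v` in the eigen-lattice have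
`ρ_V(τ) v ≠ χ_cyc(τ) • v` -/
theorem exists_rhoV_ne_cycChar (hpR : (p : R) ∈ maximalIdeal R) (ι' : ℤ_[p] →+* R)
    (c : Nat.Primes → R)
    (h2 : Module.finrank R
      (eigenLattice (fun r => opVHom p R (JZero N) (heckeEnd N r)) c) = 2)
    {A : ValuationSubring Kb} (hA : A.LiesOverPrime p) :
    ∃ τ ∈ A.inertiaSubgroupIn ℚ,
      ∃ v ∈ eigenLattice (fun r => opVHom p R (JZero N) (heckeEnd N r)) c,
        rhoV p R (JZero N) τ v ≠ Cyclotomic.cycChar p ι' τ • v := by
  obtain ⟨τ, hτ, hne⟩ := rhoEigen_ne_cycChar N p R hpR ι' c h2 hA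
  refine ⟨τ, hτ, ?_⟩
  by_contra hcon
  refine hne (LinearMap.ext fun v => Subtype.ext ?_)
  by_contra hv
  exact hcon ⟨v.1, v.2, hv⟩

/-- the same on any submodule `S` of the eigen-lattice which has rank two (for instance the
intersection of the eigen-lattice with a saturated Galois-stable sublattice of full rank) -/
theorem exists_rhoV_ne_cycChar_of_le (hpR : (p : R) ∈ maximalIdeal R) (ι' : ℤ_[p] →+* R)
    (c : Nat.Primes → R)
    (h2 : Module.finrank R
      (eigenLattice (fun r => opVHom p R (JZero N) (heckeEnd N r)) c) = 2)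
    (S : Submodule R (R ⊗[ℤ_[p]] Tp p (JZero N)))
    (hS : S ≤ eigenLattice (fun r => opVHom p R (JZero N) (heckeEnd N r)) c)
    (hS2 : Module.finrank R S = 2)
    {A : ValuationSubring Kb} (hA : A.LiesOverPrime p) :
    ∃ τ ∈ A.inertiaSubgroupIn ℚ, ∃ v ∈ S,
      rhoV p R (JZero N) τ v ≠ Cyclotomic.cycChar p ι' τ • v := by
  haveI : Module.Finite ℤ_[p] (Tp p (JZero N)) := Tp.finite_of_finite (finite_p_torsion N p)
  haveI : Module.Free ℤ_[p] (Tp p (JZero N)) := Tp.free_of_finite (finite_p_torsion N p)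
  obtain ⟨τ, hτ, v, hv, hne⟩ := exists_rhoV_ne_cycChar N p R hpR ι' c h2 hA
  refine ⟨τ, hτ, ?_⟩
  by_contra hcon'
  have hcon : ∀ w ∈ S, rhoV p R (JZero N) τ w = Cyclotomic.cycChar p ι' τ • w := by
    intro w hw
    by_contra hw'
    exact hcon' ⟨w, hw, hw'⟩
  -- the quotient `V_c / S` is torsion
  obtain ⟨a, ha0, hav⟩ := exists_smul_mem_of_finrank_eq
    (eigenLattice (fun r => opVHom p R (JZero N) (heckeEnd N r)) c) S hS (hS2.trans h2.symm) hv
  have h := hcon _ hav
  rw [map_smul, smul_comm] at h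
  exact hne (smul_right_injective _ ha0 h)

/-! ### At the fixed place `padicPlace p` (`S56/Coh/Defs.Iq p` is its inertia group) -/

open Fermat.Agent.CFT.LocalBridge in
theorem rhoEigen_ne_cycChar_padicPlace (hpR : (p : R) ∈ maximalIdeal R) (ι' : ℤ_[p] →+* R)
    (c : Nat.Primes → R)
    (h2 : Module.finrank R
      (eigenLattice (fun r => opVHom p R (JZero N) (heckeEnd N r)) c) = 2) :
    ∃ τ ∈ (padicPlace p).inertiaSubgroupIn ℚ,
      (rhoEigen N p R hpR c h2).ρ τ ≠
        Cyclotomic.cycChar p ι' τ • (1 : Module.End R (rhoEigen N p R hpR c h2).V) :=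
  rhoEigen_ne_cycChar N p R hpR ι' c h2 (liesOverPrime_padicPlace p)

open Fermat.Agent.CFT.LocalBridge in
theorem restrictHom_ne_cycChar_padicPlace (hpR : (p : R) ∈ maximalIdeal R) (ι' : ℤ_[p] →+* R)
    (c : Nat.Primes → R)
    (h2 : Module.finrank R
      (eigenLattice (fun r => opVHom p R (JZero N) (heckeEnd N r)) c) = 2)
    (hcomm : ∀ (σ : GQ) (r : Nat.Primes),
      Commute (rhoV p R (JZero N) σ) (opVHom p R (JZero N) (heckeEnd N r))) :
    ∃ τ ∈ (padicPlace p).inertiaSubgroupIn ℚ,
      restrictHom (fun r => opVHom p R (JZero N) (heckeEnd N r)) c (rhoV p R (JZero N)) hcomm τ ≠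
        Cyclotomic.cycChar p ι' τ •
          (1 : Module.End R (eigenLattice (fun r => opVHom p R (JZero N) (heckeEnd N r)) c)) :=
  restrictHom_ne_cycChar N p R hpR ι' c h2 hcomm (liesOverPrime_padicPlace p)

open Fermat.Agent.CFT.LocalBridge in
theorem exists_rhoV_ne_cycChar_padicPlace (hpR : (p : R) ∈ maximalIdeal R) (ι' : ℤ_[p] →+* R)
    (c : Nat.Primes → R)
    (h2 : Module.finrank R
      (eigenLattice (fun r => opVHom p R (JZero N) (heckeEnd N r)) c) = 2) :
    ∃ τ ∈ (padicPlace p).inertiaSubgroupIn ℚ,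
      ∃ v ∈ eigenLattice (fun r => opVHom p R (JZero N) (heckeEnd N r)) c,
        rhoV p R (JZero N) τ v ≠ Cyclotomic.cycChar p ι' τ • v :=
  exists_rhoV_ne_cycChar N p R hpR ι' c h2 (liesOverPrime_padicPlace p)

end Fermat.Agent.S15.G.NeChi
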