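import Mathlib
import Fermat.Agent.S30.Eigen.Transfer

/-!
# PROJECT M, block [G]/[S], leaf (S-c'): the involution `ε` is not a scalar on a Hecke eigenspace

Abstract part (Mathlib + `S30/Eigen/Transfer`).  `M` a `ℤ`-module with operators `τ i` and an
operator `ε`; `e : ℂ ⊗ M ≃ W × W` intertwines `τ i` with `T i × T i` and `ε` with `id × (-id)`.
Then for every field `F` of characteristic zero and all eigenvalues `c : ι → F`, the
`(+1)`-part and the `(-1)`-part of the `c`-eigenspace of `F ⊗ M` have the same dimension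
(`finrank_eigen_plus_eq_minus`); in particular `ε` is not a scalar on a nonzero eigenspace
(`not_scalar_of_ne_bot`).
-/

set_option autoImplicit false
set_option linter.unusedSectionVars false

open scoped TensorProduct

noncomputable section

namespace Fermat.Agent.S15.G.NonScalar

open Fermat.Agent.S30.Eigen.Transfer Polynomial

section Ext

variable {R : Type*} [CommRing R] {V : Type*} [AddCommGroup V] [Module R V] {ι : Type*}

/-- the family `τ` extended by one more operator `ε` -/
def extFam (ε : Module.End R V) (τ : ι → Module.End R V) : Option ι → Module.End R V :=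
  fun o => o.elim ε τ

/-- the eigenvalues `c` extended by the eigenvalue `s` of `ε` -/
def extVal (s : R) (c : ι → R) : Option ι → R := fun o => o.elim s c

theorem mem_eigen_ext {ε : Module.End R V} {τ : ι → Module.End R V} {s : R} {c : ι → R} {x : V} :
    x ∈ eigen (extFam ε τ) (extVal s c) ↔ x ∈ eigen τ c ∧ ε x = s • x := by
  rw [mem_eigen, mem_eigen]
  constructor
  · intro h
    exact ⟨fun i => h (some i), h none⟩
  · rintro ⟨h1, h2⟩ o
    cases o with
    | none => exact h2
    | some i => exact h1 i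

theorem eigen_ext_le (ε : Module.End R V) (τ : ι → Module.End R V) (s : R) (c : ι → R) :
    eigen (extFam ε τ) (extVal s c) ≤ eigen τ c := fun _ hx => (mem_eigen_ext.1 hx).1

end Ext

section Complex

variable {ι : Type*} {W : Type*} [AddCommGroup W] [Module ℂ W] {T : ι → Module.End ℂ W}

/-- the sign operator `id × (-id)` on `W × W` -/
def signOp (W : Type*) [AddCommGroup W] [Module ℂ W] : Module.End ℂ (W × W) :=
  (LinearMap.id : W →ₗ[ℂ] W).prodMap (-(LinearMap.id : W →ₗ[ℂ] W))

theorem signOp_apply (w : W × W) : signOp W w = (w.1, -w.2) := rfl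

theorem mem_eigen_prodMap {lam : ι → ℂ} {w : W × W} :
    w ∈ eigen (fun i => (T i).prodMap (T i)) lam ↔ w.1 ∈ eigen T lam ∧ w.2 ∈ eigen T lam := by
  simp only [mem_eigen, LinearMap.prodMap_apply, Prod.ext_iff, Prod.smul_fst, Prod.smul_snd]
  exact ⟨fun h => ⟨fun i => (h i).1, fun i => (h i).2⟩, fun h i => ⟨h.1 i, h.2 i⟩⟩

theorem eq_zero_of_eq_neg {w : W} (h : w = -w) : w = 0 := by
  have h2 : (2 : ℂ) • w = 0 := by
    rw [two_smul]
    nth_rewrite 1 [h]
    exact neg_add_cancel w
  exact (smul_eq_zero.1 h2).resolve_left two_ne_zero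

theorem eigen_prod_plus (lam : ι → ℂ) :
    eigen (extFam (signOp W) (fun i => (T i).prodMap (T i))) (extVal 1 lam) =
      (eigen T lam).prod ⊥ := by
  ext w
  rw [mem_eigen_ext, mem_eigen_prodMap, Submodule.mem_prod, signOp_apply, one_smul,
    Submodule.mem_bot]
  constructor
  · rintro ⟨⟨h1, -⟩, h2⟩
    refine ⟨h1, eq_zero_of_eq_neg ?_⟩
    exact (congrArg Prod.snd h2).symm
  · rintro ⟨h1, h2⟩
    refine ⟨⟨h1, by rw [h2]; exact Submodule.zero_mem _⟩, ?_⟩
    ext
    · rfl
    · simp [h2]

theorem eigen_prod_minus (lam : ι → ℂ) :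
    eigen (extFam (signOp W) (fun i => (T i).prodMap (T i))) (extVal (-1) lam) =
      (⊥ : Submodule ℂ W).prod (eigen T lam) := by
  ext w
  rw [mem_eigen_ext, mem_eigen_prodMap, Submodule.mem_prod, signOp_apply, neg_one_smul,
    Submodule.mem_bot]
  constructor
  · rintro ⟨⟨-, h1⟩, h2⟩
    refine ⟨eq_zero_of_eq_neg ?_, h1⟩
    exact congrArg Prod.fst h2
  · rintro ⟨h1, h2⟩
    refine ⟨⟨by rw [h1]; exact Submodule.zero_mem _, h2⟩, ?_⟩
    ext
    · simp [h1]
    · rfl

end Complex

section Main

variable {ι : Type*} {M : Type*} [AddCommGroup M]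
  {τ : ι → Module.End ℤ M} {ε : Module.End ℤ M}
  {W : Type*} [AddCommGroup W] [Module ℂ W] [FiniteDimensional ℂ W]
  {T : ι → Module.End ℂ W}
  {e : ℂ ⊗[ℤ] M ≃ₗ[ℂ] W × W}

theorem finrank_prod_bot (p : Submodule ℂ W) :
    Module.finrank ℂ (p.prod (⊥ : Submodule ℂ W)) = Module.finrank ℂ p := by
  rw [(prodSubEquiv _ _).finrank_eq, Module.finrank_prod, finrank_bot, add_zero]

theorem finrank_bot_prod (p : Submodule ℂ W) :
    Module.finrank ℂ ((⊥ : Submodule ℂ W).prod p) = Module.finrank ℂ p := by
  rw [(prodSubEquiv _ _).finrank_eq, Module.finrank_prod, finrank_bot, zero_add]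

/-- transport of the extended family along `e` -/
theorem finrank_eigen_ext_congr
    (he : ∀ i x, e ((τ i).baseChange ℂ x) = Prod.map (T i) (T i) (e x))
    (hε : ∀ x, e (ε.baseChange ℂ x) = signOp W (e x)) (d : Option ι → ℂ) :
    Module.finrank ℂ (eigen (fun o => (extFam ε τ o).baseChange ℂ) d) =
      Module.finrank ℂ (eigen (extFam (signOp W) (fun i => (T i).prodMap (T i))) d) := by
  refine (finrank_eigen_congr e _ _ d ?_).symm
  intro o x
  cases o with
  | none => exact hε x
  | some i => exact he i x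

theorem finrank_eigen_ext_complex_plus
    (he : ∀ i x, e ((τ i).baseChange ℂ x) = Prod.map (T i) (T i) (e x))
    (hε : ∀ x, e (ε.baseChange ℂ x) = signOp W (e x)) (lam : ι → ℂ) :
    Module.finrank ℂ (eigen (fun o => (extFam ε τ o).baseChange ℂ) (extVal 1 lam)) =
      Module.finrank ℂ (eigen T lam) := by
  rw [finrank_eigen_ext_congr he hε, eigen_prod_plus, finrank_prod_bot]

theorem finrank_eigen_ext_complex_minus
    (he : ∀ i x, e ((τ i).baseChange ℂ x) = Prod.map (T i) (T i) (e x))
    (hε : ∀ x, e (ε.baseChange ℂ x) = signOp W (e x)) (lam : ι → ℂ) :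
    Module.finrank ℂ (eigen (fun o => (extFam ε τ o).baseChange ℂ) (extVal (-1) lam)) =
      Module.finrank ℂ (eigen T lam) := by
  rw [finrank_eigen_ext_congr he hε, eigen_prod_minus, finrank_bot_prod]

end Main

section Integral

variable {M : Type*} [AddCommGroup M] [Module.Finite ℤ M]
  {F : Type*} [Field F]

theorem aeval_int_apply_of_eigen {V : Type*} [AddCommGroup V] [Module F V] (f : Module.End F V)
    (a : F) (x : V) (h : f x = a • x) (p : ℤ[X]) : (aeval f p) x = (aeval a p) • x := by
  induction p using Polynomial.induction_on with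
  | C n =>
    rw [aeval_C, aeval_C, Algebra.algebraMap_eq_smul_one, Algebra.algebraMap_eq_smul_one,
      LinearMap.smul_apply, Module.End.one_apply, smul_assoc, one_smul]
  | add p q hp hq => rw [map_add, map_add, LinearMap.add_apply, hp, hq, add_smul]
  | monomial n k ih =>
    have e1 : aeval f (C k * X ^ (n + 1)) = aeval f (C k * X ^ n) * f := by
      rw [pow_succ, ← mul_assoc, map_mul, aeval_X]
    have e2 : aeval a (C k * X ^ (n + 1)) = aeval a (C k * X ^ n) * a := by
      rw [pow_succ, ← mul_assoc, map_mul, aeval_X]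
    rw [e1, e2, Module.End.mul_apply, h, map_smul, ih, smul_smul, mul_comm]

/-- an eigenvalue of the base change of an endomorphism of a finite `ℤ`-module is integral -/
theorem isIntegral_of_eigen (t : Module.End ℤ M) (a : F) (x : F ⊗[ℤ] M) (hx : x ≠ 0)
    (h : t.baseChange F x = a • x) : IsIntegral ℤ a := by
  obtain ⟨p, hp, hpt⟩ := (Module.End.isIntegral (R := ℤ) (M := M)).isIntegral t
  refine ⟨p, hp, ?_⟩
  have h1 : aeval (t.baseChange F) p = 0 := by
    have := aeval_algHom_apply (Module.End.baseChangeHom ℤ F M) t p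
    rw [← aeval_def] at hpt
    rw [hpt, map_zero] at this
    exact this
  have h2 := aeval_int_apply_of_eigen (t.baseChange F) a x h p
  rw [h1, LinearMap.zero_apply] at h2
  rw [← aeval_def]
  exact (smul_eq_zero.1 h2.symm).resolve_right hx

end Integral

section Transfer

variable {ι : Type*} {M : Type*} [AddCommGroup M] [Module.Finite ℤ M]
  {τ : ι → Module.End ℤ M} {ε : Module.End ℤ M}
  {W : Type*} [AddCommGroup W] [Module ℂ W] [FiniteDimensional ℂ W]
  {T : ι → Module.End ℂ W}
  {e : ℂ ⊗[ℤ] M ≃ₗ[ℂ] W × W}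

theorem extFam_baseChange (F : Type*) [CommRing F] :
    (fun o => (extFam ε τ o).baseChange F) =
      extFam (ε.baseChange F) (fun i => (τ i).baseChange F) := by
  funext o
  cases o <;> rfl

theorem extVal_map {F₀ F : Type*} [CommRing F₀] [CommRing F] (g : F₀ →+* F) (s : F₀) (c : ι → F₀) :
    (fun o => g (extVal s c o)) = extVal (g s) (fun i => g (c i)) := by
  funext o
  cases o <;> rfl

/-- for a sign `s : ℤ` (`1` or `-1`): the dimension of the `s`-part of the `c`-eigenspace of
`F ⊗ M` equals the dimension of the eigenspace of `W` for the transported eigenvalues, or both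
vanish -/
theorem finrank_eigen_ext_eq
    (he : ∀ i x, e ((τ i).baseChange ℂ x) = Prod.map (T i) (T i) (e x))
    (hε : ∀ x, e (ε.baseChange ℂ x) = signOp W (e x))
    {F : Type*} [Field F] [CharZero F] (c : ι → F) :
    Module.finrank F (eigen (fun o => (extFam ε τ o).baseChange F) (extVal 1 c)) =
      Module.finrank F (eigen (fun o => (extFam ε τ o).baseChange F) (extVal (-1) c)) := by
  classical
  by_cases hE : eigen (fun i => (τ i).baseChange F) c = ⊥
  · have h1 : ∀ s : F, eigen (fun o => (extFam ε τ o).baseChange F) (extVal s c) = ⊥ := by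
      intro s
      rw [extFam_baseChange, eq_bot_iff, ← hE]
      exact eigen_ext_le _ _ _ _
    rw [h1, h1]
  · obtain ⟨x, hx, hx0⟩ := (Submodule.ne_bot_iff _).1 hE
    rw [mem_eigen] at hx
    have hint : ∀ i, IsIntegral ℤ (c i) := fun i => isIntegral_of_eigen (τ i) (c i) x hx0 (hx i)
    let F₀ : IntermediateField ℚ F := IntermediateField.adjoin ℚ (Set.range c)
    have : Algebra.IsAlgebraic ℚ F₀ := IntermediateField.isAlgebraic_adjoin (by
      rintro _ ⟨i, rfl⟩
      exact (hint i).tower_top)
    let σ : F₀ →ₐ[ℚ] ℂ := IsAlgClosed.lift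
    let c₀ : ι → F₀ := fun i => ⟨c i, IntermediateField.subset_adjoin _ _ ⟨i, rfl⟩⟩
    let lam : ι → ℂ := fun i => σ (c₀ i)
    have key : ∀ s : ℤ, Module.finrank F
        (eigen (fun o => (extFam ε τ o).baseChange F) (extVal (s : F) c)) =
        Module.finrank ℂ
        (eigen (fun o => (extFam ε τ o).baseChange ℂ) (extVal (s : ℂ) lam)) := by
      intro s
      have h1 := finrank_eigen_baseChange_tower (R := ℤ) (F₀ := F₀) (F := F)
        (extFam ε τ) (extVal (s : F₀) c₀)
      let _ : Algebra F₀ ℂ := σ.toRingHom.toAlgebra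
      have h2 := finrank_eigen_baseChange_tower (R := ℤ) (F₀ := F₀) (F := ℂ)
        (extFam ε τ) (extVal (s : F₀) c₀)
      have e1 : (fun o => algebraMap F₀ F (extVal (s : F₀) c₀ o)) = extVal (s : F) c := by
        rw [extVal_map, map_intCast]
        rfl
      have e2 : (fun o => algebraMap F₀ ℂ (extVal (s : F₀) c₀ o)) = extVal (s : ℂ) lam := by
        rw [extVal_map, map_intCast]
        rfl
      rw [e1] at h1
      rw [e2] at h2
      rw [h1, h2]
    have k1 := key 1
    have k2 := key (-1)
    rw [Int.cast_one, Int.cast_one] at k1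
    rw [Int.cast_neg, Int.cast_one, Int.cast_neg, Int.cast_one] at k2
    rw [k1, k2, finrank_eigen_ext_complex_plus he hε, finrank_eigen_ext_complex_minus he hε]

end Transfer

section Corollary

variable {ι : Type*} {M : Type*} [AddCommGroup M] [Module.Finite ℤ M]
  {τ : ι → Module.End ℤ M} {ε : Module.End ℤ M}
  {W : Type*} [AddCommGroup W] [Module ℂ W] [FiniteDimensional ℂ W]
  {T : ι → Module.End ℂ W}
  {e : ℂ ⊗[ℤ] M ≃ₗ[ℂ] W × W}

/-- **the involution is not a scalar on a nonzero eigenspace** -/
theorem not_scalar_of_ne_bot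
    (he : ∀ i x, e ((τ i).baseChange ℂ x) = Prod.map (T i) (T i) (e x))
    (hε : ∀ x, e (ε.baseChange ℂ x) = signOp W (e x)) (hε2 : ε * ε = 1)
    {F : Type*} [Field F] [CharZero F] (c : ι → F)
    (hE : eigen (fun i => (τ i).baseChange F) c ≠ ⊥) :
    ¬ ∃ a : F, ∀ x ∈ eigen (fun i => (τ i).baseChange F) c, ε.baseChange F x = a • x := by
  rintro ⟨a, ha⟩
  obtain ⟨x, hx, hx0⟩ := (Submodule.ne_bot_iff _).1 hE
  have h2 : ε.baseChange F (ε.baseChange F x) = x := by
    rw [← Module.End.mul_apply, ← LinearMap.baseChange_mul, hε2, LinearMap.baseChange_one,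
      Module.End.one_apply]
  have ha2 : a * a = 1 := by
    have h3 : (a * a) • x = (1 : F) • x := by
      rw [one_smul, mul_smul, ← ha x hx, ← map_smul, ← ha x hx, h2]
    by_contra hne
    have : (a * a - 1) • x = 0 := by
      have h5 := sub_smul (a * a) 1 x
      rw [h5, h3, sub_self]
    exact hx0 ((smul_eq_zero.1 this).resolve_left (sub_ne_zero.2 hne))
  have hkey := finrank_eigen_ext_eq he hε c
  rw [extFam_baseChange] at hkey
  have h2F : (2 : F) ≠ 0 := two_ne_zero
  -- the part where `ε = a` is everything, the part where `ε = -a` vanishes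
  have hfull : eigen (extFam (ε.baseChange F) (fun i => (τ i).baseChange F)) (extVal a c) =
      eigen (fun i => (τ i).baseChange F) c := by
    apply le_antisymm (eigen_ext_le _ _ _ _)
    intro y hy
    exact mem_eigen_ext.2 ⟨hy, ha y hy⟩
  have hzero : eigen (extFam (ε.baseChange F) (fun i => (τ i).baseChange F)) (extVal (-a) c) =
      ⊥ := by
    rw [eq_bot_iff]
    intro y hy
    obtain ⟨hy1, hy2⟩ := mem_eigen_ext.1 hy
    rw [ha y hy1, neg_smul] at hy2
    have h4 : (2 * a) • y = 0 := by
      rw [mul_smul, two_smul]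
      nth_rewrite 2 [hy2]
      exact add_neg_cancel _
    have ha0 : a ≠ 0 := by
      rintro rfl
      simp at ha2
    exact (smul_eq_zero.1 h4).resolve_left (mul_ne_zero h2F ha0)
  have hfin : Module.finrank F (eigen (fun i => (τ i).baseChange F) c) = 0 := by
    rcases mul_self_eq_one_iff.1 ha2 with rfl | rfl
    · rw [← hfull, hkey, hzero, finrank_bot]
    · rw [neg_neg] at hzero
      rw [← hfull, ← hkey, hzero, finrank_bot]
  exact hE (Submodule.finrank_eq_zero.1 hfin)

end Corollary

end Fermat.Agent.S15.G.NonScalar
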