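import Fermat.Agent.S15.G.NonScalar
import Fermat.Agent.S15.G.ConjTate
import Fermat.Agent.S30.Eigen.H4Final

/-!
# PROJECT M, block [G]/[S], leaf (S-c'): `ε` is not a scalar on the Hecke eigenspaces of
`F ⊗ Hom_par(Γ₀(N), ℤ)`

* `latticeEquiv_epsM` : main's Eichler–Shimura isomorphism `latticeEquiv N : ℂ ⊗ M ≃ S₂ × S₂`
  carries `ε = epsM N` (the complex-conjugation involution of the lattice) to `id × (-id)`;
* `finrank_eigen_plus_eq_minus`, `epsM_not_scalar` : the instances of `NonScalar`.
-/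

set_option autoImplicit false
set_option linter.unusedSectionVars false

open scoped TensorProduct
open CongruenceSubgroup ModularCurve ModularCurve.Period

noncomputable section

namespace Fermat.Agent.S15.G.NonScalarX0

open Fermat.Agent.S30.Eigen.Transfer Fermat.Agent.S30.Eigen.EichlerShimura
open Fermat.Agent.S30.Eigen.MultOne Fermat.Agent.S30.Hecke.Parabolic
open Fermat.Agent.S30.Lattice.BaseChange Fermat.Agent.S30.Padic.TateChar
open Fermat.Agent.S15.G.NonScalar Fermat.Agent.S15.G.ConjTate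

variable (N : ℕ) [NeZero N]

/-- `ε` on the complex parabolic homomorphisms -/
def epsC : Module.End ℂ ↥(parabolicHoms ℂ (Gamma0 N) ℂ) :=
  parOp ℂ ℂ (coeffNatural_cjFamily N)

theorem coe_epsC (φ : ↥(parabolicHoms ℂ (Gamma0 N) ℂ)) :
    (epsC N φ : Additive ↥(Gamma0 N) →+ ℂ) = charInvolution N ℂ ℂ φ := rfl

/-- the Eichler–Shimura isomorphism carries `id × (-id)` to `ε` -/
theorem esEquiv_signOp (w : CuspForm (Gamma0 N) 2 × CuspForm (Gamma0 N) 2) :
    esEquiv N (signOp _ w) = epsC N (esEquiv N w) := by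
  apply Subtype.ext
  rw [coe_epsC, coe_esEquiv, coe_esEquiv]
  have hex : ExistsPeriodMapLinear N := Fermat.Agent.S21.Primitive.existsPeriodMapLinear
  obtain ⟨pml, -, hdef⟩ := periodHomPair_def N hex
  rw [hdef, signOp_apply]
  simp only [LinearMap.coprod_apply, LinearMap.comp_apply, LinearMap.add_apply,
    LinearMap.sub_apply, LinearMap.id_apply, map_add, map_sub, map_neg,
    charInvolution_charInvolution]
  abel

theorem baseChangeEquiv_epsM (x : ℂ ⊗[ℤ] ↥(parabolicHoms ℤ (Gamma0 N) ℤ)) :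
    baseChangeEquiv (Gamma0 N) ℂ ((epsM N).baseChange ℂ x) =
      epsC N (baseChangeEquiv (Gamma0 N) ℂ x) :=
  baseChangeEquiv_comm (Gamma0 N) ℂ (epsM N) (epsC N) (fun _ => rfl) x

/-- **`latticeEquiv` carries `ε` to `id × (-id)`** -/
theorem latticeEquiv_epsM (x : ℂ ⊗[ℤ] ↥(parabolicHoms ℤ (Gamma0 N) ℤ)) :
    latticeEquiv N ((epsM N).baseChange ℂ x) = signOp _ (latticeEquiv N x) := by
  rw [latticeEquiv_apply, latticeEquiv_apply, baseChangeEquiv_epsM, LinearEquiv.symm_apply_eq,
    esEquiv_signOp, LinearEquiv.apply_symm_apply]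

/-- **the `(+1)`-part and the `(-1)`-part of every Hecke eigenspace have the same dimension** -/
theorem finrank_eigen_plus_eq_minus {F : Type*} [Field F] [CharZero F] (c : Nat.Primes → F) :
    Module.finrank F (eigen (fun o => (extFam (epsM N)
        (fun r : Nat.Primes => tauPar ℤ ℤ N r r.2) o).baseChange F) (extVal 1 c)) =
      Module.finrank F (eigen (fun o => (extFam (epsM N)
        (fun r : Nat.Primes => tauPar ℤ ℤ N r r.2) o).baseChange F) (extVal (-1) c)) := by
  haveI : FiniteDimensional ℂ (CuspForm (Gamma0 N) 2) :=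
    Fermat.Agent.S23.FinDim.finiteDimensional_cuspForm N 2
  exact finrank_eigen_ext_eq (e := latticeEquiv N) (T := fun r : Nat.Primes => Tr N 2 r)
    (Fermat.Agent.S30.Eigen.H4Final.latticeEquiv_tauPar N) (latticeEquiv_epsM N) c

/-- **`ε` is not a scalar on a nonzero Hecke eigenspace of `F ⊗ M`** (any field `F` of
characteristic zero, any system of eigenvalues `c`) -/
theorem epsM_not_scalar {F : Type*} [Field F] [CharZero F] (c : Nat.Primes → F)
    (hE : eigen (fun r : Nat.Primes => (tauPar ℤ ℤ N r r.2).baseChange F) c ≠ ⊥) :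
    ¬ ∃ a : F, ∀ x ∈ eigen (fun r : Nat.Primes => (tauPar ℤ ℤ N r r.2).baseChange F) c,
      (epsM N).baseChange F x = a • x := by
  haveI : FiniteDimensional ℂ (CuspForm (Gamma0 N) 2) :=
    Fermat.Agent.S23.FinDim.finiteDimensional_cuspForm N 2
  exact not_scalar_of_ne_bot (e := latticeEquiv N) (T := fun r : Nat.Primes => Tr N 2 r)
    (Fermat.Agent.S30.Eigen.H4Final.latticeEquiv_tauPar N) (latticeEquiv_epsM N)
    (epsM_mul_self N) c hE

end Fermat.Agent.S15.G.NonScalarX0
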