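import Fermat.Agent.S15.G.NeChi

/-!
# PROJECT M, block [S]: the `W_P`-clause of `hpiece` on the eigen-lattices of `R ⊗ T_p J₀(N)`

`hline` = "no Galois-stable line in the rank-two eigen-lattice `V_c`" (= `Struct/Irred.no_stable_line`
in its literal shape). Then NO nonzero Galois-stable submodule `S ≤ V_c` has the inertia group at `p`
acting through `χ_cyc`:

* a stable `S ≠ ⊥` has rank `1` or `2`; rank `1` is a stable line, excluded by `hline`;
* rank `2` : `NeChi.exists_rhoV_ne_cycChar_of_le` (`det = χ_cyc` + `χ_cyc` ramified at `p`).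

This is the second clause of `hpiece` in `Struct/Rep.halfBound_rep_self` / `hu` in
`Struct/Rep.halfBound_rep` for `W = W_P = {(τ, χ_cyc τ) | τ ∈ I_p}`, on the carrier of chief p43 (C).
-/

set_option autoImplicit false
set_option linter.unusedSectionVars false
set_option linter.style.haveILetI false

open scoped TensorProduct
open CongruenceSubgroup ModularCurve ModularCurve.Period

noncomputable section

namespace Fermat.Agent.S15.G.PieceP

open Fermat.Agent.S30.Padic.TateModule Fermat.Agent.S30.Padic.EigenLattice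
open Fermat.Agent.S30.Padic Fermat.Agent.S30.Padic.Assembly
open Fermat.Agent.S30.Final.Chain Fermat.Agent.S30.Spec
open Fermat.Agent.S30.Arith Fermat.Agent.S30.Algebra
open IsLocalRing
open Fermat.Agent.S15.G.DetCyc Fermat.Agent.S15.G.CycRam Fermat.Agent.S15.G.NeChi

local notation "Kb" => AlgebraicClosure ℚ
local notation "GQ" => (AlgebraicClosure ℚ ≃ₐ[ℚ] AlgebraicClosure ℚ)

/-- a nonzero finitely generated submodule of a torsion-free module over a principal ideal domain,
of rank at most one, is generated by one nonzero element -/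
theorem exists_generator_of_finrank_le_one {R M : Type*} [CommRing R] [IsDomain R]
    [IsPrincipalIdealRing R] [AddCommGroup M] [Module R M] [Module.IsTorsionFree R M]
    (S : Submodule R M) [Module.Finite R S] (hne : S ≠ ⊥) (h1 : Module.finrank R S ≤ 1) :
    ∃ v ∈ S, v ≠ 0 ∧ ∀ w ∈ S, ∃ a : R, a • v = w := by
  haveI : Module.IsTorsionFree R S :=
    Function.Injective.moduleIsTorsionFree S.subtype Subtype.val_injective (fun _ _ => rfl)
  haveI : Module.Free R S := Module.free_of_finite_type_torsion_free'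
  have h0 : 1 ≤ Module.finrank R S := Submodule.one_le_finrank_iff.2 hne
  have hr : Module.finrank R S = 1 := le_antisymm h1 h0
  obtain ⟨v, hv0, hv⟩ := finrank_eq_one_iff'.1 hr
  refine ⟨v.1, v.2, fun h => hv0 (Subtype.ext h), fun w hw => ?_⟩
  obtain ⟨a, ha⟩ := hv ⟨w, hw⟩
  exact ⟨a, congrArg Subtype.val ha⟩

variable (N : ℕ) [NeZero N] (p : ℕ) [Fact p.Prime] (R : Type) [CommRing R] [Algebra ℤ_[p] R]
  [IsDomain R] [IsPrincipalIdealRing R] [IsLocalRing R] [CharZero R]
  [IsAdicComplete (maximalIdeal R) R]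

/-- **the `W_P`-clause of `hpiece`, submodules of `R ⊗ T_p J₀(N)`** -/
theorem exists_ne_cycChar_of_stable (hpR : (p : R) ∈ maximalIdeal R) (ι' : ℤ_[p] →+* R)
    (c : Nat.Primes → R)
    (h2 : Module.finrank R
      (eigenLattice (fun r => opVHom p R (JZero N) (heckeEnd N r)) c) = 2)
    (hline : ¬ ∃ v : (rhoEigen N p R hpR c h2).V, v ≠ 0 ∧
      ∀ g : GQ, ∃ a : R, (rhoEigen N p R hpR c h2).ρ g v = a • v)
    (S : Submodule R (R ⊗[ℤ_[p]] Tp p (JZero N)))
    (hS : S ≤ eigenLattice (fun r => opVHom p R (JZero N) (heckeEnd N r)) c)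
    (hst : ∀ g : GQ, ∀ x ∈ S, rhoV p R (JZero N) g x ∈ S) (hne : S ≠ ⊥)
    {A : ValuationSubring Kb} (hA : A.LiesOverPrime p) :
    ∃ τ ∈ A.inertiaSubgroupIn ℚ, ∃ x ∈ S,
      rhoV p R (JZero N) τ x ≠ Cyclotomic.cycChar p ι' τ • x := by
  haveI : Module.Finite ℤ_[p] (Tp p (JZero N)) := Tp.finite_of_finite (finite_p_torsion N p)
  haveI : Module.Free ℤ_[p] (Tp p (JZero N)) := Tp.free_of_finite (finite_p_torsion N p)
  have hle : Module.finrank R S ≤ 2 := by
    rw [← h2]
    exact Submodule.finrank_mono hS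
  by_cases hr2 : Module.finrank R S = 2
  · exact exists_rhoV_ne_cycChar_of_le N p R hpR ι' c h2 S hS hr2 hA
  · exfalso
    have h1 : Module.finrank R S ≤ 1 := by omega
    obtain ⟨v, hvS, hv0, hgen⟩ := exists_generator_of_finrank_le_one S hne h1
    refine hline ⟨⟨v, hS hvS⟩, fun h => hv0 (congrArg Subtype.val h), fun g => ?_⟩
    obtain ⟨a, ha⟩ := hgen _ (hst g v hvS)
    exact ⟨a, Subtype.ext ha.symm⟩

/-- **the `hu`-clause of `Struct/Rep.halfBound_rep` for `W_P`, submodules of the eigen-lattice** -/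
theorem exists_ne_cycChar_of_stable' (hpR : (p : R) ∈ maximalIdeal R) (ι' : ℤ_[p] →+* R)
    (c : Nat.Primes → R)
    (h2 : Module.finrank R
      (eigenLattice (fun r => opVHom p R (JZero N) (heckeEnd N r)) c) = 2)
    (hline : ¬ ∃ v : (rhoEigen N p R hpR c h2).V, v ≠ 0 ∧
      ∀ g : GQ, ∃ a : R, (rhoEigen N p R hpR c h2).ρ g v = a • v)
    (S : Submodule R (rhoEigen N p R hpR c h2).V)
    (hst : ∀ g : GQ, ∀ x ∈ S, (rhoEigen N p R hpR c h2).ρ g x ∈ S) (hne : S ≠ ⊥)
    {A : ValuationSubring Kb} (hA : A.LiesOverPrime p) :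
    ∃ τ ∈ A.inertiaSubgroupIn ℚ, ∃ x ∈ S,
      (rhoEigen N p R hpR c h2).ρ τ x ≠ Cyclotomic.cycChar p ι' τ • x := by
  let E := eigenLattice (fun r => opVHom p R (JZero N) (heckeEnd N r)) c
  have hS' : S.map E.subtype ≤ E := by
    rintro _ ⟨x, -, rfl⟩
    exact x.2
  have hst' : ∀ g : GQ, ∀ x ∈ S.map E.subtype, rhoV p R (JZero N) g x ∈ S.map E.subtype := by
    rintro g _ ⟨x, hx, rfl⟩
    exact ⟨(rhoEigen N p R hpR c h2).ρ g x, hst g x hx, rfl⟩
  have hne' : S.map E.subtype ≠ ⊥ := by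
    intro h
    apply hne
    rw [eq_bot_iff]
    intro x hx
    have h1 : E.subtype x ∈ S.map E.subtype := ⟨x, hx, rfl⟩
    rw [h, Submodule.mem_bot] at h1
    rw [Submodule.mem_bot]
    exact Subtype.ext h1
  obtain ⟨τ, hτ, _, ⟨x, hx, rfl⟩, hxne⟩ :=
    exists_ne_cycChar_of_stable N p R hpR ι' c h2 hline (S.map E.subtype) hS' hst' hne' hA
  exact ⟨τ, hτ, x, hx, fun h => hxne (congrArg Subtype.val h)⟩

end Fermat.Agent.S15.G.PieceP
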